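/-
P4 / Layer B (local class field theory), foundations.

`IsLocalInt A`: `A` is a complete discrete valuation ring with finite residue field (the ring of
integers of a nonarchimedean local field).  Main result: the integral closure of such an `A` in a
finite separable extension of its fraction field is again of this kind
(`IsLocalInt.of_isIntegralClosure`), in particular it is local: the valuation extends uniquely.
-/
import Mathlib

set_option autoImplicit false

open IsLocalRing Polynomial

namespace Fermat.Agent.CFT.Local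

/-- a finite module over an adically complete ring is precomplete -/
theorem isPrecomplete_of_finite {R : Type*} [CommRing R] (I : Ideal R)
    [IsPrecomplete I R] (M : Type*) [AddCommGroup M] [Module R M] [Module.Finite R M] :
    IsPrecomplete I M := by
  classical
  obtain ⟨n, s, hs⟩ := Module.Finite.exists_fin (R := R) (M := M)
  refine ⟨fun f hf => ?_⟩
  -- coefficients of the increments
  have hinc : ∀ k, ∃ a : Fin n → R, (∀ i, a i ∈ I ^ k) ∧ ∑ i, a i • s i = f (k + 1) - f k := by
    intro k
    have h1 : f (k + 1) - f k ∈ (I ^ k • ⊤ : Submodule R M) := by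
      have := (hf (Nat.le_succ k)).symm
      rwa [SModEq.sub_mem] at this
    rw [← hs, Submodule.mem_ideal_smul_span_iff_exists_sum] at h1
    obtain ⟨a, ha, hsum⟩ := h1
    refine ⟨fun i => a i, ha, ?_⟩
    rw [← hsum, Finsupp.sum_fintype]
    intro i
    exact zero_smul _ _
  choose a ha hasum using hinc
  -- partial sums of the coefficients
  let c : Fin n → ℕ → R := fun i k => ∑ j ∈ Finset.range k, a j i
  have hc : ∀ i, ∀ {m k : ℕ}, m ≤ k → c i m ≡ c i k [SMOD (I ^ m • ⊤ : Submodule R R)] := by
    intro i m k hmk
    rw [SModEq.sub_mem, smul_eq_mul, Ideal.mul_top]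
    have : c i m - c i k = -∑ j ∈ Finset.Ico m k, a j i := by
      simp only [c]
      rw [Finset.sum_Ico_eq_sub _ hmk]
      ring
    rw [this]
    refine neg_mem (sum_mem fun j hj => ?_)
    exact Ideal.pow_le_pow_right (Finset.mem_Ico.1 hj).1 (ha j i)
  have hL : ∀ i, ∃ L : R, ∀ k, c i k ≡ L [SMOD (I ^ k • ⊤ : Submodule R R)] :=
    fun i => IsPrecomplete.prec' (c i) (hc i)
  choose L hL using hL
  refine ⟨f 0 + ∑ i, L i • s i, fun k => ?_⟩
  have hfk : f k = f 0 + ∑ i, c i k • s i := by
    induction k with
    | zero => simp [c]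
    | succ k ih =>
      have h2 : f (k + 1) = f k + ∑ i, a k i • s i := by rw [hasum k]; abel
      rw [h2, ih]
      simp only [c, Finset.sum_range_succ, add_smul, Finset.sum_add_distrib]
      abel
  rw [SModEq.sub_mem, hfk]
  have : f 0 + ∑ i, c i k • s i - (f 0 + ∑ i, L i • s i) = ∑ i, (c i k - L i) • s i := by
    simp only [sub_smul, Finset.sum_sub_distrib]
    abel
  rw [this]
  refine sum_mem fun i _ => ?_
  refine Submodule.smul_mem_smul ?_ Submodule.mem_top
  have := hL i k
  rwa [SModEq.sub_mem, smul_eq_mul, Ideal.mul_top] at this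

/-- a finite module over a Noetherian adically complete ring is adically complete -/
theorem isAdicComplete_of_finite {R : Type*} [CommRing R] [IsNoetherianRing R] (I : Ideal R)
    [IsAdicComplete I R] (M : Type*) [AddCommGroup M] [Module R M] [Module.Finite R M] :
    IsAdicComplete I M :=
  { toIsHausdorff := IsHausdorff.of_le_jacobson I M (IsAdicComplete.le_jacobson_bot I)
    toIsPrecomplete := isPrecomplete_of_finite I M }

/-- adic completeness only depends on the radical: `I^a`-adically complete implies `I`-adically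
complete -/
theorem isAdicComplete_of_pow {R : Type*} [CommRing R] (I : Ideal R) {a : ℕ} (ha : a ≠ 0)
    (M : Type*) [AddCommGroup M] [Module R M] (h : IsAdicComplete (I ^ a) M) :
    IsAdicComplete I M := by
  have hle : ∀ n, ((I ^ a) ^ n • ⊤ : Submodule R M) ≤ (I ^ n • ⊤ : Submodule R M) := by
    intro n
    refine Submodule.smul_mono_left ?_
    rw [← pow_mul]
    exact Ideal.pow_le_pow_right (Nat.le_mul_of_pos_left n (Nat.pos_of_ne_zero ha))
  refine { haus' := fun x hx => ?_, prec' := fun f hf => ?_ }
  · apply h.haus' x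
    intro n
    have := hx (a * n)
    rw [SModEq.zero] at this ⊢
    rwa [← pow_mul]
  · obtain ⟨L, hL⟩ := h.prec' (fun n => f (a * n)) (by
      intro m n hmn
      have := hf (Nat.mul_le_mul_left a hmn)
      rwa [← pow_mul])
    refine ⟨L, fun n => ?_⟩
    have h1 : f n ≡ f (a * n) [SMOD (I ^ n • ⊤ : Submodule R M)] :=
      hf (Nat.le_mul_of_pos_left n (Nat.pos_of_ne_zero ha))
    have h2 : f (a * n) ≡ L [SMOD (I ^ n • ⊤ : Submodule R M)] :=
      SModEq.mono (hle n) (hL n)
    exact h1.trans h2

/-- The ring of integers of a nonarchimedean local field: a complete discrete valuation ring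
with finite residue field. -/
class IsLocalInt (A : Type*) [CommRing A] [IsDomain A] : Prop
    extends IsDiscreteValuationRing A where
  isAdicComplete : IsAdicComplete (maximalIdeal A) A
  finite_residueField : Finite (ResidueField A)

attribute [instance] IsLocalInt.isAdicComplete IsLocalInt.finite_residueField

section Idempotent

/-- A domain which is `I`-adically complete: an element `x` with `x^2 - x ∈ I` is congruent
to `0` or `1` mod `I`. -/
theorem mem_or_sub_one_mem_of_sq_sub_mem {B : Type*} [CommRing B] [IsDomain B] (I : Ideal B)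
    [IsAdicComplete I B] (x : B) (hx : x ^ 2 - x ∈ I) : x ∈ I ∨ x - 1 ∈ I := by
  have hmonic : (X ^ 2 - X : B[X]).Monic := by
    apply monic_X_pow_sub
    simp
  have h1 : (X ^ 2 - X : B[X]).eval x ∈ I := by simpa using hx
  have h2 : IsUnit (Ideal.Quotient.mk I ((derivative (X ^ 2 - X : B[X])).eval x)) := by
    have : (derivative (X ^ 2 - X : B[X])).eval x = 2 * x - 1 := by
      simp only [derivative_sub, derivative_X_pow, derivative_X, eval_sub, eval_mul, eval_C,
        eval_pow, eval_X, eval_one]
      norm_num
    rw [this]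
    refine IsUnit.of_mul_eq_one (Ideal.Quotient.mk I (2 * x - 1)) ?_
    rw [← map_mul, ← map_one (Ideal.Quotient.mk I), Ideal.Quotient.eq]
    have : (2 * x - 1) * (2 * x - 1) - 1 = 4 * (x ^ 2 - x) := by ring
    rw [this]
    exact I.mul_mem_left _ hx
  obtain ⟨e, he, hex⟩ := HenselianRing.is_henselian (X ^ 2 - X : B[X]) hmonic x h1 h2
  have he' : e ^ 2 - e = 0 := by simpa using he
  have : e * (e - 1) = 0 := by rw [← he']; ring
  rcases mul_eq_zero.1 this with h0 | h0
  · left
    rw [h0, zero_sub, neg_mem_iff] at hex
    exact hex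
  · right
    have : e = 1 := by rwa [sub_eq_zero] at h0
    rw [this] at hex
    have h3 : x - 1 = -(1 - x) := by ring
    rw [h3, neg_mem_iff]
    exact hex

end Idempotent

/-- A Dedekind domain which is complete with respect to a nonzero proper ideal `I` is local and
`I` is a power of the maximal ideal. -/
theorem exists_maximal_pow_eq_of_isAdicComplete {B : Type*} [CommRing B] [IsDedekindDomain B]
    (I : Ideal B) [IsAdicComplete I B] (hI0 : I ≠ ⊥) (hI1 : I ≠ ⊤) :
    ∃ (P : Ideal B) (c : ℕ), P.IsMaximal ∧ c ≠ 0 ∧ I = P ^ c ∧ ∀ M : Ideal B, M.IsMaximal → M = P := by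
  classical
  obtain ⟨P, hP, hIP⟩ := Ideal.exists_le_maximal I hI1
  obtain ⟨Q, hPQ, hIQ⟩ := Ideal.eq_prime_pow_mul_coprime hI0 P
  generalize Multiset.count P (UniqueFactorizationMonoid.normalizedFactors I) = c at hIQ
  have hc0 : c ≠ 0 := by
    intro h0
    rw [h0, pow_zero, one_mul] at hIQ
    rw [← hIQ] at hPQ
    rw [sup_eq_left.2 hIP] at hPQ
    exact hP.ne_top hPQ
  have hPc : P ^ c ≤ P := Ideal.pow_le_self hc0
  have hcop : P ^ c ⊔ Q = ⊤ := Ideal.pow_sup_eq_top hPQ
  obtain ⟨x, hx, y, hy, hxy⟩ := Submodule.mem_sup.1 (hcop ▸ Submodule.mem_top : (1 : B) ∈ P ^ c ⊔ Q)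
  have hxyI : x * y ∈ I := by
    rw [hIQ]
    exact Ideal.mul_mem_mul hx hy
  have hsq : x ^ 2 - x ∈ I := by
    have : x ^ 2 - x = -(x * y) := by
      have : y = 1 - x := by rw [← hxy]; ring
      rw [this]; ring
    rw [this]
    exact neg_mem hxyI
  have hQ : Q = ⊤ := by
    rcases mem_or_sub_one_mem_of_sq_sub_mem I x hsq with h | h
    · have hxQ : x ∈ Q := Ideal.mul_le_right (hIQ.le h)
      rw [Ideal.eq_top_iff_one, ← hxy]
      exact add_mem hxQ hy
    · exfalso
      have h1 : x - 1 ∈ P := hIP h
      have h2 : x ∈ P := hPc hx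
      apply hP.ne_top
      rw [Ideal.eq_top_iff_one]
      have : (1 : B) = x - (x - 1) := by ring
      rw [this]
      exact sub_mem h2 h1
  have hIeq : I = P ^ c := by rw [hIQ, hQ, Ideal.mul_top]
  refine ⟨P, c, hP, hc0, hIeq, fun M hM => ?_⟩
  have h1 : I ≤ M := (IsAdicComplete.le_jacobson_bot I).trans (sInf_le ⟨bot_le, hM⟩)
  rw [hIeq] at h1
  have h2 : P ≤ M := hM.isPrime.le_of_pow_le h1
  exact (hP.eq_of_le hM.ne_top h2).symm

section Extension

variable (A K L B : Type*) [CommRing A] [IsDomain A] [IsLocalInt A] [Field K] [Algebra A K]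
  [IsFractionRing A K] [Field L] [Algebra K L] [FiniteDimensional K L] [Algebra.IsSeparable K L]
  [Algebra A L] [IsScalarTower A K L] [CommRing B] [IsDomain B] [Algebra A B] [Algebra B L]
  [IsScalarTower A B L] [IsIntegralClosure B A L]

include K L in
/-- the extended maximal ideal is a nonzero power of a unique maximal ideal -/
theorem exists_maximal_pow_eq_map :
    ∃ (P : Ideal B) (c : ℕ), P.IsMaximal ∧ P ≠ ⊥ ∧ c ≠ 0 ∧
      (maximalIdeal A).map (algebraMap A B) = P ^ c ∧ (∀ M : Ideal B, M.IsMaximal → M = P) ∧
      IsAdicComplete P B := by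
  have hded : IsDedekindDomain B := IsIntegralClosure.isDedekindDomain A K L B
  have hfin : Module.Finite A B := IsIntegralClosure.finite A K L B
  have hint : Algebra.IsIntegral A B := IsIntegralClosure.isIntegral_algebra A L
  have hinj : Function.Injective (algebraMap A B) := by
    have h1 : Function.Injective (algebraMap A L) := by
      rw [IsScalarTower.algebraMap_eq A K L]
      exact (algebraMap K L).injective.comp (IsFractionRing.injective A K)
    rw [IsScalarTower.algebraMap_eq A B L] at h1
    exact Function.Injective.of_comp h1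
  set I := (maximalIdeal A).map (algebraMap A B) with hI
  have hcompA : IsAdicComplete (maximalIdeal A) B := isAdicComplete_of_finite (maximalIdeal A) B
  have hcomp : IsAdicComplete I B := (IsAdicComplete.map_algebraMap_iff _ _).mpr hcompA
  have hI0 : I ≠ ⊥ := by
    rw [hI, Ne, Ideal.map_eq_bot_iff_of_injective hinj]
    exact IsDiscreteValuationRing.not_a_field A
  have hI1 : I ≠ ⊤ := by
    obtain ⟨Q, hQ, hQc⟩ := Ideal.exists_ideal_over_maximal_of_isIntegral (S := B)
      (maximalIdeal A) (by
        rw [(RingHom.injective_iff_ker_eq_bot _).1 hinj]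
        exact bot_le)
    intro htop
    apply hQ.ne_top
    rw [eq_top_iff, ← htop, hI, Ideal.map_le_iff_le_comap, hQc]
  obtain ⟨P, c, hP, hc0, hIeq, huniq⟩ := exists_maximal_pow_eq_of_isAdicComplete I hI0 hI1
  refine ⟨P, c, hP, ?_, hc0, hIeq, huniq, ?_⟩
  · rintro rfl
    apply hI0
    rw [hIeq, Ideal.bot_pow hc0]
  · exact isAdicComplete_of_pow P hc0 B (hIeq ▸ hcomp)

include A K L in
/-- **The integral closure of a local ring of integers in a finite separable extension is again
a local ring of integers.** -/
theorem IsLocalInt.of_isIntegralClosure : IsLocalInt B := by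
  have hded : IsDedekindDomain B := IsIntegralClosure.isDedekindDomain A K L B
  have hfin : Module.Finite A B := IsIntegralClosure.finite A K L B
  obtain ⟨P, c, hP, hP0, hc0, hIeq, huniq, hcomp⟩ := exists_maximal_pow_eq_map A K L B
  have hloc : IsLocalRing B := IsLocalRing.of_unique_max_ideal ⟨P, hP, fun M hM => huniq M hM⟩
  have hPeq : maximalIdeal B = P := huniq _ (maximalIdeal.isMaximal B)
  have hnf : ¬ IsField B := by
    intro hf
    apply hP0
    rw [← hPeq]
    exact IsLocalRing.isField_iff_maximalIdeal_eq.1 hf
  have hdvr : IsDiscreteValuationRing B := ((IsDiscreteValuationRing.TFAE B hnf).out 0 2).mpr hded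
  have hle : (maximalIdeal A • ⊤ : Submodule A B) ≤
      LinearMap.ker ((IsScalarTower.toAlgHom A B (ResidueField B)).toLinearMap) := by
    rw [Submodule.smul_le]
    intro a ha b _
    rw [LinearMap.mem_ker, map_smul]
    have h1 : algebraMap A B a ∈ maximalIdeal B := by
      rw [hPeq]
      have : algebraMap A B a ∈ (maximalIdeal A).map (algebraMap A B) := Ideal.mem_map_of_mem _ ha
      rw [hIeq] at this
      exact Ideal.pow_le_self hc0 this
    rw [Algebra.smul_def]
    have h2 : algebraMap A (ResidueField B) a = 0 := by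
      rw [IsScalarTower.algebraMap_apply A B (ResidueField B)]
      exact (IsLocalRing.residue_eq_zero_iff _).2 h1
    rw [h2, zero_mul]
  have hfinA : Finite (A ⧸ maximalIdeal A) := (inferInstance : Finite (ResidueField A))
  have hfinq : Finite (B ⧸ (maximalIdeal A • ⊤ : Submodule A B)) :=
    Module.finite_of_finite (A ⧸ maximalIdeal A)
  have hsurj : Function.Surjective (Submodule.liftQ (maximalIdeal A • ⊤ : Submodule A B)
      ((IsScalarTower.toAlgHom A B (ResidueField B)).toLinearMap) hle) := by
    intro x
    obtain ⟨b, rfl⟩ := IsLocalRing.residue_surjective x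
    exact ⟨Submodule.Quotient.mk b, rfl⟩
  exact
    { toIsDiscreteValuationRing := hdvr
      isAdicComplete := hPeq ▸ hcomp
      finite_residueField := Finite.of_surjective _ hsurj }

end Extension

section Padic

variable (q : ℕ) [Fact q.Prime]

instance instIsLocalIntPadicInt : IsLocalInt ℤ_[q] where
  isAdicComplete := inferInstance
  finite_residueField := Finite.of_equiv _ (PadicInt.residueField (p := q)).symm.toEquiv

end Padic

end Fermat.Agent.CFT.Local
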