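/-
P4 / Layer B (local class field theory): the normalized valuation `ord : Kˣ →* Multiplicative ℤ`
of the fraction field of a discrete valuation ring, and the exact sequence
`1 → Aˣ → Kˣ → ℤ → 0`.
-/
import Mathlib

set_option autoImplicit false

open IsLocalRing IsDedekindDomain

namespace Fermat.Agent.CFT.Local

variable (A K : Type*) [CommRing A] [IsDomain A] [IsDiscreteValuationRing A] [Field K]
  [Algebra A K] [IsFractionRing A K]

/-- the normalized valuation `Kˣ → ℤ` (written multiplicatively), `ord ϖ = 1` -/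
noncomputable def ord : Kˣ →* Multiplicative ℤ :=
  (MonoidHom.comp (WithZero.unitsWithZeroEquiv (α := Multiplicative ℤ)).toMonoidHom
    (Units.map ((IsDiscreteValuationRing.maximalIdeal A).valuation K :
      K →* WithZero (Multiplicative ℤ))))⁻¹

/-- the integer-valued version -/
noncomputable def ordZ (x : Kˣ) : ℤ := Multiplicative.toAdd (ord A K x)

variable {A K}

theorem coe_ord_inv (x : Kˣ) :
    (((ord A K x)⁻¹ : Multiplicative ℤ) : WithZero (Multiplicative ℤ)) =
      (IsDiscreteValuationRing.maximalIdeal A).valuation K (x : K) := by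
  simp [ord]

theorem ordZ_mul (x y : Kˣ) : ordZ A K (x * y) = ordZ A K x + ordZ A K y := by
  simp [ordZ]

theorem ordZ_one : ordZ A K 1 = 0 := by simp [ordZ]

theorem ordZ_inv (x : Kˣ) : ordZ A K x⁻¹ = - ordZ A K x := by simp [ordZ]

theorem ordZ_div (x y : Kˣ) : ordZ A K (x / y) = ordZ A K x - ordZ A K y := by
  simp [ordZ]

theorem ordZ_pow (x : Kˣ) (n : ℕ) : ordZ A K (x ^ n) = n * ordZ A K x := by
  simp [ordZ]

theorem ordZ_zpow (x : Kˣ) (n : ℤ) : ordZ A K (x ^ n) = n * ordZ A K x := by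
  simp [ordZ]

theorem valuation_eq_exp_neg_ordZ (x : Kˣ) :
    (IsDiscreteValuationRing.maximalIdeal A).valuation K (x : K) = WithZero.exp (- ordZ A K x) := by
  rw [← coe_ord_inv]
  rfl

theorem ordZ_eq_iff (x : Kˣ) (n : ℤ) :
    ordZ A K x = n ↔
      (IsDiscreteValuationRing.maximalIdeal A).valuation K (x : K) = WithZero.exp (-n) := by
  rw [valuation_eq_exp_neg_ordZ]
  constructor
  · rintro rfl; rfl
  · intro h
    have := WithZero.exp_injective h
    linarith

/-- units of `A` have `ord = 0` -/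
theorem ordZ_algebraMap_unit (u : Aˣ) : ordZ A K (Units.map (algebraMap A K) u) = 0 := by
  rw [ordZ_eq_iff]
  simp only [Units.coe_map, MonoidHom.coe_coe, neg_zero, WithZero.exp_zero]
  rw [HeightOneSpectrum.valuation_eq_one_iff_notMem]
  change (u : A) ∉ maximalIdeal A
  rw [mem_maximalIdeal, mem_nonunits_iff, not_not]
  exact u.isUnit

/-- a uniformizer has `ord = 1` -/
theorem ordZ_irreducible {ϖ : A} (h : Irreducible ϖ) (x : Kˣ) (hx : (x : K) = algebraMap A K ϖ) :
    ordZ A K x = 1 := by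
  rw [ordZ_eq_iff, hx, HeightOneSpectrum.valuation_of_algebraMap]
  exact HeightOneSpectrum.intValuation_singleton _ h.ne_zero h.maximalIdeal_eq

/-- every element of `Kˣ` is a unit times a power of a uniformizer -/
theorem exists_eq_zpow_mul {ϖ : A} (h : Irreducible ϖ) (π : Kˣ) (hπ : (π : K) = algebraMap A K ϖ)
    (x : Kˣ) : ∃ (m : ℤ) (u : Aˣ), x = π ^ m * Units.map (algebraMap A K) u := by
  obtain ⟨a, b, hb, hab⟩ := IsFractionRing.div_surjective A (x : K)
  have hb0 : b ≠ 0 := nonZeroDivisors.ne_zero hb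
  have ha0 : a ≠ 0 := by
    rintro rfl
    rw [map_zero, zero_div] at hab
    exact x.ne_zero hab.symm
  obtain ⟨m, u, rfl⟩ := IsDiscreteValuationRing.eq_unit_mul_pow_irreducible ha0 h
  obtain ⟨n, v, rfl⟩ := IsDiscreteValuationRing.eq_unit_mul_pow_irreducible hb0 h
  refine ⟨(m : ℤ) - n, u * v⁻¹, ?_⟩
  ext
  rw [← hab]
  simp only [map_mul, map_pow, Units.val_mul, Units.coe_map, MonoidHom.coe_coe, zpow_sub,
    zpow_natCast, Units.val_pow_eq_pow_val, Units.val_inv_eq_inv_val, hπ]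
  have h1 : algebraMap A K ϖ ≠ 0 := by
    rw [← hπ]; exact π.ne_zero
  have h2 : algebraMap A K (v : A) ≠ 0 := by
    have := (Units.map (algebraMap A K : A →* K) v).ne_zero
    simpa using this
  have h3 : algebraMap A K ((v⁻¹ : Aˣ) : A) = (algebraMap A K (v : A))⁻¹ := by
    apply eq_inv_of_mul_eq_one_left
    rw [← map_mul, Units.inv_mul, map_one]
  rw [h3]
  field_simp

theorem ordZ_zpow_mul {ϖ : A} (h : Irreducible ϖ) (π : Kˣ) (hπ : (π : K) = algebraMap A K ϖ)
    (m : ℤ) (u : Aˣ) : ordZ A K (π ^ m * Units.map (algebraMap A K) u) = m := by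
  rw [ordZ_mul, ordZ_zpow, ordZ_irreducible h π hπ, ordZ_algebraMap_unit]
  ring

variable (A K)

/-- there is a uniformizer in `Kˣ` -/
theorem exists_uniformizer : ∃ (ϖ : A) (π : Kˣ), Irreducible ϖ ∧ (π : K) = algebraMap A K ϖ := by
  obtain ⟨ϖ, h⟩ := IsDiscreteValuationRing.exists_irreducible A
  have h0 : algebraMap A K ϖ ≠ 0 := by
    rw [Ne, FaithfulSMul.algebraMap_eq_zero_iff]
    exact h.ne_zero
  exact ⟨ϖ, Units.mk0 _ h0, h, rfl⟩

theorem ordZ_surjective : Function.Surjective (ordZ A K) := by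
  obtain ⟨ϖ, π, h, hπ⟩ := exists_uniformizer A K
  intro m
  refine ⟨π ^ m, ?_⟩
  rw [ordZ_zpow, ordZ_irreducible h π hπ, mul_one]

theorem ord_surjective : Function.Surjective (ord A K) := by
  intro m
  obtain ⟨x, hx⟩ := ordZ_surjective A K (Multiplicative.toAdd m)
  exact ⟨x, hx⟩

variable {A K}

/-- the kernel of `ord` is the unit group of `A` -/
theorem ordZ_eq_zero_iff (x : Kˣ) :
    ordZ A K x = 0 ↔ x ∈ (Units.map (algebraMap A K : A →* K)).range := by
  constructor
  · intro hx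
    obtain ⟨ϖ, π, h, hπ⟩ := exists_uniformizer A K
    obtain ⟨m, u, rfl⟩ := exists_eq_zpow_mul h π hπ x
    rw [ordZ_zpow_mul h π hπ] at hx
    subst hx
    exact ⟨u, by simp⟩
  · rintro ⟨u, rfl⟩
    exact ordZ_algebraMap_unit u

theorem ker_ord : (ord A K).ker = (Units.map (algebraMap A K : A →* K)).range := by
  ext x
  rw [MonoidHom.mem_ker, ← ordZ_eq_zero_iff]
  rfl

/-- integrality criterion -/
theorem ordZ_nonneg_iff (x : Kˣ) : 0 ≤ ordZ A K x ↔ (x : K) ∈ (algebraMap A K).range := by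
  obtain ⟨ϖ, π, h, hπ⟩ := exists_uniformizer A K
  obtain ⟨m, u, rfl⟩ := exists_eq_zpow_mul h π hπ x
  rw [ordZ_zpow_mul h π hπ]
  constructor
  · intro hm
    obtain ⟨n, rfl⟩ := Int.eq_ofNat_of_zero_le hm
    refine ⟨ϖ ^ n * u, ?_⟩
    simp [hπ]
  · rintro ⟨a, ha⟩
    by_contra hneg
    push Not at hneg
    obtain ⟨n, hn⟩ : ∃ n : ℕ, m = -((n : ℤ) + 1) := ⟨(-m - 1).toNat, by omega⟩
    subst hn
    -- `a * ϖ^(n+1) = u`, so `ϖ` divides a unit
    have h1 : algebraMap A K (a * ϖ ^ (n + 1)) = algebraMap A K (u : A) := by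
      rw [map_mul, ha, map_pow, ← hπ]
      simp only [zpow_neg, Units.val_mul, Units.val_inv_eq_inv_val, Units.val_zpow_eq_zpow_val,
        Units.coe_map, MonoidHom.coe_coe]
      have : (π : K) ≠ 0 := π.ne_zero
      rw [← zpow_natCast, Nat.cast_add, Nat.cast_one]
      field_simp
    have h2 := FaithfulSMul.algebraMap_injective A K h1
    have h3 : IsUnit ϖ := by
      have : IsUnit (a * ϖ ^ (n + 1)) := h2 ▸ u.isUnit
      rw [pow_succ, ← mul_assoc] at this
      exact isUnit_of_mul_isUnit_right this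
    exact h.not_isUnit h3

end Fermat.Agent.CFT.Local
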