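/-
P4 / Layer B: behaviour of the normalized valuation in a finite extension `L/K` of the fraction
field of a discrete valuation ring `A`, when the integral closure `B` of `A` in `L` is again a
discrete valuation ring: ramification index, invariance under automorphisms, valuation of norms.
-/
import Fermat.Agent.Lib.CFT.Local.Ord

set_option autoImplicit false
set_option linter.unusedSectionVars false

open IsLocalRing IsDedekindDomain

namespace Fermat.Agent.CFT.Local

section Ext

variable (A K B L : Type*) [CommRing A] [IsDomain A] [IsDiscreteValuationRing A] [Field K]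
  [Algebra A K] [IsFractionRing A K]
  [CommRing B] [IsDomain B] [IsDiscreteValuationRing B] [Field L] [Algebra B L] [IsFractionRing B L]
  [Algebra A B] [Algebra K L] [Algebra A L] [IsScalarTower A B L] [IsScalarTower A K L]

/-- the inclusion `Kˣ → Lˣ` -/
noncomputable def unitsIncl : Kˣ →* Lˣ := Units.map (algebraMap K L : K →* L)

@[simp] theorem coe_unitsIncl (x : Kˣ) : ((unitsIncl K L x : Lˣ) : L) = algebraMap K L x := rfl

theorem unitsIncl_injective : Function.Injective (unitsIncl K L) := by
  intro x y h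
  ext
  have := congrArg Units.val h
  exact (algebraMap K L).injective this

/-- the ramification index, defined through valuations: `ord_L (ϖ_K)` -/
noncomputable def ramIdx : ℕ :=
  (ordZ B L (unitsIncl K L (exists_uniformizer A K).choose_spec.choose)).toNat

variable {A K B L}

theorem unitsIncl_map_unit (u : Aˣ) :
    unitsIncl K L (Units.map (algebraMap A K : A →* K) u) =
      Units.map (algebraMap B L : B →* L) (Units.map (algebraMap A B : A →* B) u) := by
  ext
  simp only [coe_unitsIncl, Units.coe_map, MonoidHom.coe_coe]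
  rw [← IsScalarTower.algebraMap_apply, ← IsScalarTower.algebraMap_apply]

variable [Module.Finite A B] [FaithfulSMul A B]

theorem ordZ_unitsIncl_irreducible_pos {ϖ : A} (h : Irreducible ϖ) (π : Kˣ)
    (hπ : (π : K) = algebraMap A K ϖ) : 0 < ordZ B L (unitsIncl K L π) := by
  have h1 : (unitsIncl K L π : L) = algebraMap B L (algebraMap A B ϖ) := by
    rw [coe_unitsIncl, hπ, ← IsScalarTower.algebraMap_apply, ← IsScalarTower.algebraMap_apply]
  have h2 : 0 ≤ ordZ B L (unitsIncl K L π) := by
    rw [ordZ_nonneg_iff]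
    exact ⟨_, h1.symm⟩
  rcases h2.lt_or_eq with h3 | h3
  · exact h3
  · exfalso
    obtain ⟨u, hu⟩ := (ordZ_eq_zero_iff _).1 h3.symm
    have h4 : algebraMap B L (u : B) = algebraMap B L (algebraMap A B ϖ) := by
      rw [← h1, ← hu]; rfl
    have h5 := FaithfulSMul.algebraMap_injective B L h4
    have h6 : IsUnit (algebraMap A B ϖ) := h5 ▸ u.isUnit
    exact h.not_isUnit (IsLocalHom.map_nonunit (f := algebraMap A B) ϖ h6)

theorem ordZ_unitsIncl_irreducible {ϖ : A} (h : Irreducible ϖ) (π : Kˣ)
    (hπ : (π : K) = algebraMap A K ϖ) : ordZ B L (unitsIncl K L π) = ramIdx A K B L := by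
  set π₀ := (exists_uniformizer A K).choose_spec.choose with hπ₀
  obtain ⟨h0, hπ0⟩ := (exists_uniformizer A K).choose_spec.choose_spec
  have hpos := ordZ_unitsIncl_irreducible_pos (A := A) (K := K) (B := B) (L := L) h0 π₀ hπ0
  have h1 : (ramIdx A K B L : ℤ) = ordZ B L (unitsIncl K L π₀) := by
    rw [ramIdx, Int.toNat_of_nonneg hpos.le]
  rw [h1]
  -- `π = π₀ * unit`
  obtain ⟨m, u, hu⟩ := exists_eq_zpow_mul h0 π₀ hπ0 π
  have hm : m = 1 := by
    have := congrArg (ordZ A K) hu
    rw [ordZ_zpow_mul h0 π₀ hπ0, ordZ_irreducible h π hπ] at this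
    exact this.symm
  subst hm
  rw [hu, map_mul, ordZ_mul, zpow_one, unitsIncl_map_unit (B := B), ordZ_algebraMap_unit,
    add_zero]

variable (A K B L) in
theorem ramIdx_pos : 0 < ramIdx A K B L := by
  obtain ⟨ϖ, π, h, hπ⟩ := exists_uniformizer A K
  have := ordZ_unitsIncl_irreducible_pos (A := A) (K := K) (B := B) (L := L) h π hπ
  rw [ordZ_unitsIncl_irreducible h π hπ] at this
  exact_mod_cast this

/-- `ord_L x = e · ord_K x` for `x ∈ K` -/
theorem ordZ_unitsIncl (x : Kˣ) :
    ordZ B L (unitsIncl K L x) = ramIdx A K B L * ordZ A K x := by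
  obtain ⟨ϖ, π, h, hπ⟩ := exists_uniformizer A K
  obtain ⟨m, u, rfl⟩ := exists_eq_zpow_mul h π hπ x
  rw [ordZ_zpow_mul h π hπ, map_mul, map_zpow, ordZ_mul, ordZ_zpow, unitsIncl_map_unit (B := B),
    ordZ_algebraMap_unit, add_zero, ordZ_unitsIncl_irreducible (A := A) (K := K) h π hπ, mul_comm]

end Ext

section Galois

variable (A K B L : Type*) [CommRing A] [IsDomain A] [IsDiscreteValuationRing A] [Field K]
  [Algebra A K] [IsFractionRing A K]
  [CommRing B] [IsDomain B] [IsDiscreteValuationRing B] [Field L] [Algebra B L] [IsFractionRing B L]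
  [Algebra A B] [Algebra K L] [Algebra A L] [IsScalarTower A B L] [IsScalarTower A K L]
  [IsIntegralClosure B A L] [FiniteDimensional K L]

variable {A K B L}

/-- ring automorphisms of `B` preserve `ord` -/
theorem ordZ_map_ringEquiv (τ : B ≃+* B) (σ : L ≃+* L)
    (h : ∀ b : B, σ (algebraMap B L b) = algebraMap B L (τ b)) (x : Lˣ) :
    ordZ B L (Units.map (σ : L →* L) x) = ordZ B L x := by
  obtain ⟨ϖ, π, hϖ, hπ⟩ := exists_uniformizer B L
  obtain ⟨m, u, rfl⟩ := exists_eq_zpow_mul hϖ π hπ x
  have h1 : Irreducible (τ ϖ) := (MulEquiv.irreducible_iff (τ : B ≃* B)).2 hϖ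
  have h2 : ((Units.map (σ : L →* L) π : Lˣ) : L) = algebraMap B L (τ ϖ) := by
    simp [hπ, h]
  have h3 : Units.map (σ : L →* L) (Units.map (algebraMap B L : B →* L) u) =
      Units.map (algebraMap B L : B →* L) (Units.map (τ : B →* B) u) := by
    ext
    simp [h]
  rw [map_mul, map_zpow, ordZ_mul, ordZ_zpow, ordZ_irreducible h1 _ h2, h3, ordZ_algebraMap_unit,
    ordZ_zpow_mul hϖ π hπ]
  ring

include A in
/-- `K`-automorphisms of `L` preserve `ord_L` -/
theorem ordZ_map_algEquiv (σ : L ≃ₐ[K] L) (x : Lˣ) :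
    ordZ B L (Units.map (σ : L →* L) x) = ordZ B L x := by
  have := ordZ_map_ringEquiv (B := B) (L := L) ((galRestrict A K L B σ : B ≃ₐ[A] B) : B ≃+* B)
    (σ : L ≃+* L) (fun b => by
      have := algebraMap_galRestrict_apply A σ b
      simpa using this.symm) x
  exact this

variable [IsGalois K L] [Module.Finite A B] [FaithfulSMul A B]

/-- the norm as a homomorphism of unit groups -/
noncomputable def unitsNorm (K L : Type*) [Field K] [Field L] [Algebra K L] : Lˣ →* Kˣ :=
  Units.map (Algebra.norm K : L →* K)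

@[simp] theorem coe_unitsNorm (x : Lˣ) : ((unitsNorm K L x : Kˣ) : K) = Algebra.norm K (x : L) := rfl

theorem unitsIncl_unitsNorm (x : Lˣ) :
    unitsIncl K L (unitsNorm K L x) = ∏ σ : L ≃ₐ[K] L, Units.map (σ : L →* L) x := by
  ext
  rw [coe_unitsIncl, coe_unitsNorm, Algebra.norm_eq_prod_automorphisms]
  simp [Units.coe_prod]

/-- `e · ord_K (N x) = [L:K] · ord_L x` -/
theorem ramIdx_mul_ordZ_unitsNorm (x : Lˣ) :
    (ramIdx A K B L : ℤ) * ordZ A K (unitsNorm K L x) = Module.finrank K L * ordZ B L x := by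
  rw [← ordZ_unitsIncl (B := B) (L := L), unitsIncl_unitsNorm]
  have h1 : ∀ (s : Finset (L ≃ₐ[K] L)),
      ordZ B L (∏ σ ∈ s, Units.map (σ : L →* L) x) = s.card * ordZ B L x := by
    intro s
    classical
    induction s using Finset.induction_on with
    | empty => simp [ordZ_one]
    | insert a s ha ih =>
      rw [Finset.prod_insert ha, ordZ_mul, ih, ordZ_map_algEquiv (A := A), Finset.card_insert_of_notMem ha]
      push_cast
      ring
  rw [h1, Finset.card_univ, ← Nat.card_eq_fintype_card, IsGalois.card_aut_eq_finrank]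

end Galois

end Fermat.Agent.CFT.Local
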