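/-
P4 / Layer B: the successive approximation lemma for homomorphisms of complete filtered
commutative groups.
-/
import Mathlib

set_option autoImplicit false

namespace Fermat.Agent.CFT.Local

/-- Successive approximation.  `φ : X → Y` is a homomorphism of filtered commutative groups, `X`
complete, `Y` separated, `S ≤ Y` a subgroup containing the image of `φ` (typically the kernel of a
further map).  If every `y ∈ FY i ∩ S` is of the form `φ x` modulo `FY (i+1)` with `x ∈ FX i`, then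
every `y ∈ FY 0 ∩ S` is of the form `φ x`, `x ∈ FX 0`. -/
theorem exists_map_eq_of_filtered {X Y : Type*} [CommGroup X] [CommGroup Y] (φ : X →* Y)
    (FX : ℕ → Subgroup X) (FY : ℕ → Subgroup Y) (S : Subgroup Y)
    (hφ : ∀ i, ∀ x ∈ FX i, φ x ∈ FY i) (hS : ∀ x, φ x ∈ S)
    (hcomplete : ∀ x : ℕ → X, (∀ i, x i ∈ FX i) →
      ∃ z, ∀ n, z / ∏ i ∈ Finset.range n, x i ∈ FX n)
    (hsep : ∀ y, (∀ i, y ∈ FY i) → y = 1)
    (hstep : ∀ i, ∀ y ∈ FY i, y ∈ S → ∃ x ∈ FX i, y / φ x ∈ FY (i + 1))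
    (y : Y) (hy : y ∈ FY 0) (hyS : y ∈ S) : ∃ x ∈ FX 0, φ x = y := by
  classical
  -- the recursion: pairs `(y_i, proof)`
  have hstep' : ∀ i, ∀ w : {w : Y // w ∈ FY i ∧ w ∈ S},
      ∃ x : X, x ∈ FX i ∧ (w : Y) / φ x ∈ FY (i + 1) ∧ (w : Y) / φ x ∈ S := by
    intro i w
    obtain ⟨x, hx, hx'⟩ := hstep i w.1 w.2.1 w.2.2
    exact ⟨x, hx, hx', S.div_mem w.2.2 (hS x)⟩
  choose step hstep1 hstep2 hstep3 using hstep'
  let ys : ∀ i, {w : Y // w ∈ FY i ∧ w ∈ S} := fun i =>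
    Nat.rec (motive := fun i => {w : Y // w ∈ FY i ∧ w ∈ S}) ⟨y, hy, hyS⟩
      (fun i w => ⟨(w : Y) / φ (step i w), hstep2 i w, hstep3 i w⟩) i
  have ys_succ : ∀ i, ((ys (i + 1) : {w : Y // w ∈ FY (i + 1) ∧ w ∈ S}) : Y) =
      (ys i : Y) / φ (step i (ys i)) := fun i => rfl
  have ys_zero : ((ys 0 : {w : Y // w ∈ FY 0 ∧ w ∈ S}) : Y) = y := rfl
  let xs : ℕ → X := fun i => step i (ys i)
  have hxs : ∀ i, xs i ∈ FX i := fun i => hstep1 i (ys i)
  obtain ⟨z, hz⟩ := hcomplete xs hxs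
  have hprod : ∀ n, (ys n : Y) = y / φ (∏ i ∈ Finset.range n, xs i) := by
    intro n
    induction n with
    | zero => simp [ys_zero]
    | succ n ih =>
      rw [ys_succ, ih, Finset.prod_range_succ, map_mul, div_div]
  refine ⟨z, by simpa using hz 0, ?_⟩
  have h1 : y / φ z = 1 := by
    apply hsep
    intro n
    have h2 : y / φ z = (ys n : Y) / φ (z / ∏ i ∈ Finset.range n, xs i) := by
      rw [hprod n, map_div]
      rw [div_div_div_comm, div_self', div_one]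
    rw [h2]
    exact (FY n).div_mem (ys n).2.1 (hφ n _ (hz n))
  exact (div_eq_one.1 h1).symm

end Fermat.Agent.CFT.Local
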