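/-
P4 / Layer B: the abstract "cohomologically trivial lattice" lemma.

`B` a commutative ring, complete for the `ϖ`-adic topology, with an automorphism `σ` of finite
order `n` fixing `ϖ`; `M ⊆ B` a `σ`-stable additive subgroup with `ϖ M ⊆ M`, `ϖ^c B ⊆ M`, such that
`M` has trivial Tate cohomology in the weak form `fixed`, `trace_zero` below.  Then for the
subgroups `V j = 1 + ϖ^(c+1+j) M` of `Bˣ`:
* every `σ`-fixed element of `V j` is the norm of an element of `V j`;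
* every element of `V j` of norm `1` is of the form `σ w / w` with `w ∈ V j`.
-/
import Fermat.Agent.Lib.CFT.Local.Filtered

set_option autoImplicit false
set_option linter.unusedSectionVars false

namespace Fermat.Agent.CFT.Local

open Finset

/-- the data of the abstract cohomological triviality lemma -/
structure CTData (B : Type*) [CommRing B] where
  /-- the generator of the cyclic group -/
  σ : RingAut B
  /-- its order -/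
  n : ℕ
  /-- the uniformizer -/
  ϖ : B
  /-- the lattice -/
  M : AddSubgroup B
  /-- the conductor exponent -/
  c : ℕ
  σ_pow : σ ^ n = 1
  σ_ϖ : σ ϖ = ϖ
  ϖ_reg : ∀ b, ϖ * b = 0 → b = 0
  σ_mem : ∀ m ∈ M, σ m ∈ M
  ϖ_mem : ∀ m ∈ M, ϖ * m ∈ M
  pow_mem : ∀ b, ϖ ^ c * b ∈ M
  fixed : ∀ m ∈ M, σ m = m → ∃ m' ∈ M, ∑ j ∈ range n, (σ ^ j) m' = m
  trace_zero : ∀ m ∈ M, ∀ m₁ ∈ M, ∑ j ∈ range n, (σ ^ j) m = ϖ * m₁ →
    ∃ m' ∈ M, ∃ m₂ ∈ M, m = σ m' - m' + ϖ * m₂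

namespace CTData

variable {B : Type*} [CommRing B] (D : CTData B)

/-- the action on units -/
def sU (τ : RingAut B) : Bˣ →* Bˣ := Units.map (τ : B →* B)

@[simp] theorem coe_sU (τ : RingAut B) (u : Bˣ) : ((sU τ u : Bˣ) : B) = τ (u : B) := rfl

/-- the norm `∏_{j<n} σ^j` on units -/
def Nm : Bˣ →* Bˣ where
  toFun u := ∏ j ∈ range D.n, sU (D.σ ^ j) u
  map_one' := by simp
  map_mul' u v := by simp [Finset.prod_mul_distrib]

theorem Nm_apply (u : Bˣ) : D.Nm u = ∏ j ∈ range D.n, sU (D.σ ^ j) u := rfl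

/-- `σ - 1` on units -/
def Dl : Bˣ →* Bˣ where
  toFun u := sU D.σ u / u
  map_one' := by simp
  map_mul' u v := by rw [map_mul, mul_div_mul_comm]

theorem Dl_apply (u : Bˣ) : D.Dl u = sU D.σ u / u := rfl

theorem pow_σ_mem (j : ℕ) {m : B} (hm : m ∈ D.M) : (D.σ ^ j) m ∈ D.M := by
  induction j with
  | zero => simpa using hm
  | succ j ih => rw [pow_succ', RingAut.mul_apply]; exact D.σ_mem _ ih

theorem pow_σ_ϖ (j : ℕ) : (D.σ ^ j) D.ϖ = D.ϖ := by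
  induction j with
  | zero => simp
  | succ j ih => rw [pow_succ', RingAut.mul_apply, ih, D.σ_ϖ]

theorem pow_ϖ_mem (k : ℕ) {m : B} (hm : m ∈ D.M) : D.ϖ ^ k * m ∈ D.M := by
  induction k with
  | zero => simpa using hm
  | succ k ih => rw [pow_succ', mul_assoc]; exact D.ϖ_mem _ ih

theorem pow_mul_mem {i : ℕ} (hi : D.c ≤ i) (b : B) : D.ϖ ^ i * b ∈ D.M := by
  obtain ⟨k, rfl⟩ := Nat.exists_eq_add_of_le hi
  rw [add_comm, pow_add, mul_assoc]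
  exact D.pow_ϖ_mem k (D.pow_mem b)

theorem pow_mul_eq {i : ℕ} (hi : D.c + 1 ≤ i) (b : B) : ∃ r ∈ D.M, D.ϖ ^ i * b = D.ϖ * r := by
  obtain ⟨k, rfl⟩ := Nat.exists_eq_add_of_le hi
  refine ⟨D.ϖ ^ (D.c + k) * b, D.pow_mul_mem (Nat.le_add_right _ _) b, ?_⟩
  ring

theorem pow_ϖ_reg (k : ℕ) (b : B) (h : D.ϖ ^ k * b = 0) : b = 0 := by
  induction k with
  | zero => simpa using h
  | succ k ih =>
    apply ih
    apply D.ϖ_reg
    rw [← mul_assoc, ← pow_succ']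
    exact h

/-- `u = 1 + ϖ^i m` with `m ∈ M` -/
def R (i : ℕ) (u : Bˣ) (m : B) : Prop := m ∈ D.M ∧ (u : B) = 1 + D.ϖ ^ i * m

variable {D}

theorem R.unique {i : ℕ} {u : Bˣ} {m m' : B} (h : D.R i u m) (h' : D.R i u m') : m = m' := by
  have h1 : D.ϖ ^ i * (m - m') = 0 := by
    have := h.2.symm.trans h'.2
    linear_combination this
  exact sub_eq_zero.1 (D.pow_ϖ_reg i _ h1)

theorem R_one (i : ℕ) : D.R i 1 0 := ⟨D.M.zero_mem, by simp⟩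

theorem R.mul {i : ℕ} (hi : D.c + 1 ≤ i) {u u' : Bˣ} {m m' : B} (h : D.R i u m)
    (h' : D.R i u' m') : ∃ r ∈ D.M, D.R i (u * u') (m + m' + D.ϖ * r) := by
  obtain ⟨r, hr, hr'⟩ := D.pow_mul_eq hi (m * m')
  refine ⟨r, hr, D.M.add_mem (D.M.add_mem h.1 h'.1) (D.ϖ_mem r hr), ?_⟩
  rw [Units.val_mul, h.2, h'.2, ← hr']
  ring

theorem R.inv {i : ℕ} (hi : D.c + 1 ≤ i) {u : Bˣ} {m : B} (h : D.R i u m) :
    ∃ r ∈ D.M, D.R i u⁻¹ (-m + D.ϖ * r) := by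
  obtain ⟨r, hr, hr'⟩ := D.pow_mul_eq hi (m * m * ((u⁻¹ : Bˣ) : B))
  refine ⟨r, hr, D.M.add_mem (D.M.neg_mem h.1) (D.ϖ_mem r hr), ?_⟩
  have h1 : (u : B) * ((u⁻¹ : Bˣ) : B) = 1 := by simp
  rw [← hr']
  have h2 := h.2
  -- `u⁻¹ = 1 - ϖ^i m u⁻¹` and `m u⁻¹ = m - ϖ^i m^2 u⁻¹`
  have h3 : ((u⁻¹ : Bˣ) : B) = 1 - D.ϖ ^ i * m * ((u⁻¹ : Bˣ) : B) := by
    rw [h2] at h1
    linear_combination h1
  linear_combination h3 - D.ϖ ^ i * m * h3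

theorem R.div {i : ℕ} (hi : D.c + 1 ≤ i) {u u' : Bˣ} {m m' : B} (h : D.R i u m)
    (h' : D.R i u' m') : ∃ r ∈ D.M, D.R i (u / u') (m - m' + D.ϖ * r) := by
  obtain ⟨r₁, hr₁, h₁⟩ := h'.inv hi
  obtain ⟨r₂, hr₂, h₂⟩ := h.mul hi h₁
  refine ⟨r₁ + r₂, D.M.add_mem hr₁ hr₂, ?_⟩
  rw [div_eq_mul_inv]
  have : m - m' + D.ϖ * (r₁ + r₂) = m + (-m' + D.ϖ * r₁) + D.ϖ * r₂ := by ring
  rw [this]
  exact h₂

theorem R.prod {i : ℕ} (hi : D.c + 1 ≤ i) {ι : Type*} (s : Finset ι) (u : ι → Bˣ) (m : ι → B)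
    (h : ∀ j ∈ s, D.R i (u j) (m j)) :
    ∃ r ∈ D.M, D.R i (∏ j ∈ s, u j) (∑ j ∈ s, m j + D.ϖ * r) := by
  classical
  induction s using Finset.induction_on with
  | empty => exact ⟨0, D.M.zero_mem, by simpa using R_one i⟩
  | insert a s ha ih =>
    obtain ⟨r, hr, hr'⟩ := ih fun j hj => h j (Finset.mem_insert_of_mem hj)
    obtain ⟨r₂, hr₂, h₂⟩ := (h a (Finset.mem_insert_self a s)).mul hi hr'
    refine ⟨r + r₂, D.M.add_mem hr hr₂, ?_⟩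
    rw [Finset.prod_insert ha, Finset.sum_insert ha]
    have : m a + ∑ j ∈ s, m j + D.ϖ * (r + r₂) = m a + (∑ j ∈ s, m j + D.ϖ * r) + D.ϖ * r₂ := by
      ring
    rw [this]
    exact h₂

theorem R.map {i : ℕ} {u : Bˣ} {m : B} (h : D.R i u m) (j : ℕ) :
    D.R i (sU (D.σ ^ j) u) ((D.σ ^ j) m) := by
  refine ⟨D.pow_σ_mem j h.1, ?_⟩
  rw [coe_sU, h.2, map_add, map_one, map_mul, map_pow, D.pow_σ_ϖ]

theorem R.map_σ {i : ℕ} {u : Bˣ} {m : B} (h : D.R i u m) : D.R i (sU D.σ u) (D.σ m) := by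
  simpa using h.map 1

theorem R.of_succ {i : ℕ} {u : Bˣ} {m : B} (h : D.R (i + 1) u m) : D.R i u (D.ϖ * m) :=
  ⟨D.ϖ_mem m h.1, by rw [h.2]; ring⟩

theorem R.succ {i : ℕ} {u : Bˣ} {r : B} (hr : r ∈ D.M) (h : D.R i u (D.ϖ * r)) :
    D.R (i + 1) u r :=
  ⟨hr, by rw [h.2]; ring⟩

theorem R.Nm {i : ℕ} (hi : D.c + 1 ≤ i) {u : Bˣ} {m : B} (h : D.R i u m) :
    ∃ r ∈ D.M, D.R i (D.Nm u) (∑ j ∈ range D.n, (D.σ ^ j) m + D.ϖ * r) :=
  R.prod hi (range D.n) (fun j => sU (D.σ ^ j) u) (fun j => (D.σ ^ j) m) fun j _ => h.map j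

theorem R.Dl {i : ℕ} (hi : D.c + 1 ≤ i) {u : Bˣ} {m : B} (h : D.R i u m) :
    ∃ r ∈ D.M, D.R i (D.Dl u) (D.σ m - m + D.ϖ * r) :=
  h.map_σ.div hi h

variable (D)

/-- the subgroups `V j = 1 + ϖ^(c+1+j) M` -/
def V (j : ℕ) : Subgroup Bˣ where
  carrier := {u | ∃ m, D.R (D.c + 1 + j) u m}
  one_mem' := ⟨0, R_one _⟩
  mul_mem' := by
    rintro u u' ⟨m, h⟩ ⟨m', h'⟩
    obtain ⟨r, _, hr⟩ := h.mul (Nat.le_add_right _ _) h'
    exact ⟨_, hr⟩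
  inv_mem' := by
    rintro u ⟨m, h⟩
    obtain ⟨r, _, hr⟩ := h.inv (Nat.le_add_right _ _)
    exact ⟨_, hr⟩

theorem mem_V {j : ℕ} {u : Bˣ} : u ∈ D.V j ↔ ∃ m, D.R (D.c + 1 + j) u m := Iff.rfl

theorem V_succ_le (j : ℕ) : D.V (j + 1) ≤ D.V j := by
  rintro u ⟨m, h⟩
  exact ⟨_, R.of_succ (i := D.c + 1 + j) h⟩

theorem V_anti {j k : ℕ} (h : j ≤ k) : D.V k ≤ D.V j := by
  induction k, h using Nat.le_induction with
  | base => exact le_rfl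
  | succ k _ ih => exact (D.V_succ_le k).trans ih

theorem Nm_mem_V {j : ℕ} {u : Bˣ} (h : u ∈ D.V j) : D.Nm u ∈ D.V j := by
  obtain ⟨m, hm⟩ := h
  obtain ⟨r, _, hr⟩ := hm.Nm (Nat.le_add_right _ _)
  exact ⟨_, hr⟩

theorem Dl_mem_V {j : ℕ} {u : Bˣ} (h : u ∈ D.V j) : D.Dl u ∈ D.V j := by
  obtain ⟨m, hm⟩ := h
  obtain ⟨r, _, hr⟩ := hm.Dl (Nat.le_add_right _ _)
  exact ⟨_, hr⟩

/-! ### Algebraic identities for `Nm` and `Dl` -/

theorem sU_pow_comm (j : ℕ) (u : Bˣ) : sU D.σ (sU (D.σ ^ j) u) = sU (D.σ ^ (j + 1)) u := by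
  ext
  simp only [coe_sU]
  rw [pow_succ', RingAut.mul_apply]

theorem sU_pow_comm' (j : ℕ) (u : Bˣ) : sU (D.σ ^ j) (sU D.σ u) = sU (D.σ ^ (j + 1)) u := by
  ext
  simp only [coe_sU]
  rw [pow_succ, RingAut.mul_apply]

theorem sU_pow_n (u : Bˣ) : sU (D.σ ^ D.n) u = u := by
  ext
  simp only [coe_sU]
  rw [D.σ_pow, RingAut.one_apply]

theorem Nm_sU (u : Bˣ) : D.Nm (sU D.σ u) = D.Nm u := by
  rw [Nm_apply, Nm_apply]
  simp_rw [sU_pow_comm']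
  have e1 := Finset.prod_range_succ' (fun j => sU (D.σ ^ j) u) D.n
  have e2 := Finset.prod_range_succ (fun j => sU (D.σ ^ j) u) D.n
  have e3 : sU (D.σ ^ D.n) u = sU (D.σ ^ 0) u := by
    rw [sU_pow_n]
    ext
    simp
  rw [e2, e3] at e1
  exact (mul_right_cancel e1).symm

theorem sU_Nm (u : Bˣ) : sU D.σ (D.Nm u) = D.Nm u := by
  have h1 : sU D.σ (D.Nm u) = D.Nm (sU D.σ u) := by
    rw [Nm_apply, Nm_apply, map_prod]
    simp_rw [sU_pow_comm, sU_pow_comm']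
  rw [h1, Nm_sU]

theorem Nm_Dl (u : Bˣ) : D.Nm (D.Dl u) = 1 := by
  rw [Dl_apply, map_div, Nm_sU, div_self']

theorem Dl_Nm (u : Bˣ) : D.Dl (D.Nm u) = 1 := by
  rw [Dl_apply, sU_Nm, div_self']

/-! ### Completeness -/

section Complete

variable [IsAdicComplete (Ideal.span {D.ϖ}) B]

theorem pow_mul_mem_smul_top {k j : ℕ} (h : j ≤ k) (b : B) :
    D.ϖ ^ k * b ∈ (Ideal.span {D.ϖ} ^ j • ⊤ : Submodule B B) := by
  rw [smul_eq_mul, Ideal.mul_top, Ideal.span_singleton_pow, Ideal.mem_span_singleton]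
  obtain ⟨l, rfl⟩ := Nat.exists_eq_add_of_le h
  exact ⟨D.ϖ ^ l * b, by ring⟩

theorem exists_eq_pow_mul_of_mem {j : ℕ} {x : B}
    (h : x ∈ (Ideal.span {D.ϖ} ^ j • ⊤ : Submodule B B)) : ∃ b, x = D.ϖ ^ j * b := by
  rw [smul_eq_mul, Ideal.mul_top, Ideal.span_singleton_pow, Ideal.mem_span_singleton] at h
  exact h

theorem isUnit_one_add_mul (b : B) : IsUnit (1 + D.ϖ * b) := by
  have h1 : D.ϖ ∈ (⊥ : Ideal B).jacobson :=
    IsAdicComplete.le_jacobson_bot (Ideal.span {D.ϖ}) (Ideal.mem_span_singleton_self _)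
  have := Ideal.mem_jacobson_bot.1 h1 b
  rwa [add_comm] at this

theorem exists_unit_eq {i : ℕ} (hi : 1 ≤ i) (b : B) : ∃ w : Bˣ, (w : B) = 1 + D.ϖ ^ i * b := by
  obtain ⟨k, rfl⟩ := Nat.exists_eq_add_of_le hi
  have := D.isUnit_one_add_mul (D.ϖ ^ k * b)
  refine ⟨this.unit, ?_⟩
  rw [IsUnit.unit_spec]
  ring

theorem exists_R {i : ℕ} (hi : 1 ≤ i) {m : B} (hm : m ∈ D.M) : ∃ w : Bˣ, D.R i w m := by
  obtain ⟨w, hw⟩ := D.exists_unit_eq hi m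
  exact ⟨w, hm, hw⟩

theorem eq_one_of_forall_mem_V (u : Bˣ) (h : ∀ j, u ∈ D.V j) : u = 1 := by
  have h1 : (u : B) - 1 = 0 := by
    apply IsHausdorff.haus' (I := Ideal.span {D.ϖ})
    intro j
    rw [SModEq.zero]
    obtain ⟨m, hm⟩ := h j
    have : (u : B) - 1 = D.ϖ ^ (D.c + 1 + j) * m := by rw [hm.2]; ring
    rw [this]
    exact D.pow_mul_mem_smul_top (by omega) m
  ext
  rw [Units.val_one]
  exact sub_eq_zero.1 h1

theorem prod_Ico_mem_V (j₀ : ℕ) (x : ℕ → Bˣ) (hx : ∀ j, x j ∈ D.V (j₀ + j)) {m n : ℕ} :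
    ∏ j ∈ Finset.Ico m n, x j ∈ D.V (j₀ + m) :=
  Subgroup.prod_mem _ fun j hj =>
    D.V_anti (Nat.add_le_add_left (Finset.mem_Ico.1 hj).1 j₀) (hx j)

theorem V_complete (j₀ : ℕ) (x : ℕ → Bˣ) (hx : ∀ j, x j ∈ D.V (j₀ + j)) :
    ∃ z : Bˣ, ∀ n, z / ∏ j ∈ range n, x j ∈ D.V (j₀ + n) := by
  set p : ℕ → Bˣ := fun n => ∏ j ∈ range n, x j with hp
  have hpdiv : ∀ {m n : ℕ}, m ≤ n → p n = p m * ∏ j ∈ Finset.Ico m n, x j := by
    intro m n hmn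
    simp only [hp]
    simp only [Finset.range_eq_Ico]
    rw [Finset.prod_Ico_consecutive _ (Nat.zero_le m) hmn]
  have hdiff : ∀ {m n : ℕ}, m ≤ n →
      ∃ b, ((p n : Bˣ) : B) - p m = D.ϖ ^ (D.c + 1 + (j₀ + m)) * b := by
    intro m n hmn
    obtain ⟨r, hr⟩ := D.prod_Ico_mem_V j₀ x hx (m := m) (n := n)
    refine ⟨(p m : B) * r, ?_⟩
    rw [hpdiv hmn, Units.val_mul, hr.2]
    ring
  obtain ⟨L, hL⟩ := IsPrecomplete.prec' (I := Ideal.span {D.ϖ}) (fun n => ((p n : Bˣ) : B)) (by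
    intro m n hmn
    obtain ⟨b, hb⟩ := hdiff hmn
    rw [SModEq.sub_mem]
    have : ((p m : Bˣ) : B) - p n = D.ϖ ^ (D.c + 1 + (j₀ + m)) * (-b) := by
      rw [mul_neg, ← hb]; ring
    rw [this]
    exact D.pow_mul_mem_smul_top (by omega) _)
  have hL' : ∀ n, ∃ b, L = p n + D.ϖ ^ n * b := by
    intro n
    have := hL n
    rw [SModEq.sub_mem] at this
    obtain ⟨b, hb⟩ := D.exists_eq_pow_mul_of_mem this
    exact ⟨-b, by rw [mul_neg, ← hb]; ring⟩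
  -- `L` is a unit
  have hLu : IsUnit L := by
    obtain ⟨b, hb⟩ := hL' 1
    have h1 : L = (p 1 : B) * (1 + D.ϖ * (b * ((p 1)⁻¹ : Bˣ))) := by
      rw [hb, mul_add, mul_one, pow_one]
      have : ((p 1 : Bˣ) : B) * (((p 1)⁻¹ : Bˣ) : B) = 1 := by simp
      linear_combination (-(D.ϖ * b)) * this
    rw [h1]
    exact (p 1).isUnit.mul (D.isUnit_one_add_mul _)
  refine ⟨hLu.unit, fun n => ?_⟩
  obtain ⟨b, hb⟩ := hL' (D.c + 1 + (j₀ + n) + D.c)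
  obtain ⟨r, hr⟩ := D.prod_Ico_mem_V j₀ x hx (m := n) (n := D.c + 1 + (j₀ + n) + D.c)
  have hle : n ≤ D.c + 1 + (j₀ + n) + D.c := by omega
  refine ⟨r + D.ϖ ^ D.c * (b * ((p n)⁻¹ : Bˣ)), D.M.add_mem hr.1 (D.pow_mem _), ?_⟩
  rw [div_eq_mul_inv, Units.val_mul, IsUnit.unit_spec]
  have e1 : ((p (D.c + 1 + (j₀ + n) + D.c) : Bˣ) : B) =
      p n * (1 + D.ϖ ^ (D.c + 1 + (j₀ + n)) * r) := by
    rw [hpdiv hle, Units.val_mul, hr.2]
  have e2 : ((p n : Bˣ) : B) * (((p n)⁻¹ : Bˣ) : B) = 1 := by simp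
  linear_combination (((p n)⁻¹ : Bˣ) : B) * hb + (((p n)⁻¹ : Bˣ) : B) * e1 +
    (1 + D.ϖ ^ (D.c + 1 + (j₀ + n)) * r) * e2

/-! ### The approximation steps -/

theorem step_fixed (j : ℕ) (u : Bˣ) (hu : u ∈ D.V j) (hfix : D.Dl u = 1) :
    ∃ w ∈ D.V j, u / D.Nm w ∈ D.V (j + 1) := by
  have hi : D.c + 1 ≤ D.c + 1 + j := Nat.le_add_right _ _
  obtain ⟨m, hm⟩ := hu
  have hfix' : sU D.σ u = u := by
    rw [Dl_apply, div_eq_one] at hfix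
    exact hfix
  have h1 : D.σ m = m := by
    have := hm.map_σ
    rw [hfix'] at this
    exact this.unique hm
  obtain ⟨m', hm', hTr⟩ := D.fixed m hm.1 h1
  obtain ⟨w, hw⟩ := D.exists_R (i := D.c + 1 + j) (by omega) hm'
  obtain ⟨r, hr, hN⟩ := hw.Nm hi
  obtain ⟨r', hr', hdiv⟩ := hm.div hi hN
  refine ⟨w, ⟨m', hw⟩, r' - r, ?_⟩
  apply R.succ (i := D.c + 1 + j) (D.M.sub_mem hr' hr)
  have : D.ϖ * (r' - r) = m - (∑ j ∈ range D.n, (D.σ ^ j) m' + D.ϖ * r) + D.ϖ * r' := by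
    rw [hTr]; ring
  rw [this]
  exact hdiv

theorem step_norm_one (j : ℕ) (u : Bˣ) (hu : u ∈ D.V j) (hN : D.Nm u = 1) :
    ∃ w ∈ D.V j, u / D.Dl w ∈ D.V (j + 1) := by
  have hi : D.c + 1 ≤ D.c + 1 + j := Nat.le_add_right _ _
  obtain ⟨m, hm⟩ := hu
  obtain ⟨r, hr, hNm⟩ := hm.Nm hi
  rw [hN] at hNm
  have h0 := hNm.unique (R_one _)
  have hTr : ∑ j ∈ range D.n, (D.σ ^ j) m = D.ϖ * (-r) := by
    linear_combination h0
  obtain ⟨m', hm', m₂, hm₂, hmm⟩ := D.trace_zero m hm.1 (-r) (D.M.neg_mem hr) hTr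
  obtain ⟨w, hw⟩ := D.exists_R (i := D.c + 1 + j) (by omega) hm'
  obtain ⟨r₁, hr₁, hD⟩ := hw.Dl hi
  obtain ⟨r₂, hr₂, hdiv⟩ := hm.div hi hD
  refine ⟨w, ⟨m', hw⟩, m₂ - r₁ + r₂, ?_⟩
  apply R.succ (i := D.c + 1 + j) (D.M.add_mem (D.M.sub_mem hm₂ hr₁) hr₂)
  have : D.ϖ * (m₂ - r₁ + r₂) = m - (D.σ m' - m' + D.ϖ * r₁) + D.ϖ * r₂ := by
    rw [hmm]; ring
  rw [this]
  exact hdiv

/-! ### The main theorems -/

/-- every `σ`-fixed element of `V j` is a norm from `V j` -/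
theorem exists_Nm_eq (j : ℕ) (u : Bˣ) (hu : u ∈ D.V j) (hfix : sU D.σ u = u) :
    ∃ w ∈ D.V j, D.Nm w = u := by
  have hfix' : u ∈ D.Dl.ker := by
    rw [MonoidHom.mem_ker, Dl_apply, hfix, div_self']
  exact exists_map_eq_of_filtered D.Nm (fun k => D.V (j + k)) (fun k => D.V (j + k)) D.Dl.ker
    (fun k x hx => D.Nm_mem_V hx) (fun x => D.Dl_Nm x) (D.V_complete j)
    (fun y hy => D.eq_one_of_forall_mem_V y fun k => D.V_anti (Nat.le_add_left k j) (hy k))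
    (fun k y hy hyS => D.step_fixed (j + k) y hy hyS) u hu hfix'

/-- every element of `V j` of norm one is of the form `σ w / w` with `w ∈ V j` -/
theorem exists_Dl_eq (j : ℕ) (u : Bˣ) (hu : u ∈ D.V j) (hN : D.Nm u = 1) :
    ∃ w ∈ D.V j, sU D.σ w / w = u :=
  exists_map_eq_of_filtered D.Dl (fun k => D.V (j + k)) (fun k => D.V (j + k)) D.Nm.ker
    (fun k x hx => D.Dl_mem_V hx) (fun x => D.Nm_Dl x) (D.V_complete j)
    (fun y hy => D.eq_one_of_forall_mem_V y fun k => D.V_anti (Nat.le_add_left k j) (hy k))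
    (fun k y hy hyS => D.step_norm_one (j + k) y hy hyS) u hu hN

end Complete

end CTData

end Fermat.Agent.CFT.Local
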