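/-
P4 / Layer B: cyclic Galois extensions at element level: products over the Galois group as
products over powers of a generator, Hilbert's theorem 90 (universe polymorphic).
-/
import Mathlib

set_option autoImplicit false

namespace Fermat.Agent.CFT.Local

open Module

variable {K L : Type*} [Field K] [Field L] [Algebra K L] [FiniteDimensional K L] [IsGalois K L]

theorem orderOf_eq_finrank (σ : L ≃ₐ[K] L) (hσ : ∀ τ : L ≃ₐ[K] L, τ ∈ Subgroup.zpowers σ) :
    orderOf σ = finrank K L := by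
  rw [orderOf_eq_card_of_forall_mem_zpowers hσ, IsGalois.card_aut_eq_finrank]

theorem pow_finrank_eq_one (σ : L ≃ₐ[K] L) (hσ : ∀ τ : L ≃ₐ[K] L, τ ∈ Subgroup.zpowers σ) :
    σ ^ finrank K L = 1 := by
  rw [← orderOf_eq_finrank σ hσ]
  exact pow_orderOf_eq_one σ

/-- the product over the Galois group as a product over powers of a generator -/
theorem prod_univ_eq_prod_range {M : Type*} [CommMonoid M] (σ : L ≃ₐ[K] L)
    (hσ : ∀ τ : L ≃ₐ[K] L, τ ∈ Subgroup.zpowers σ) (F : (L ≃ₐ[K] L) → M) :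
    ∏ τ : L ≃ₐ[K] L, F τ = ∏ i ∈ Finset.range (finrank K L), F (σ ^ i) := by
  classical
  have hord := orderOf_eq_finrank σ hσ
  have hinj : Set.InjOn (fun i : ℕ => σ ^ i) (Finset.range (finrank K L) : Set ℕ) := by
    intro i hi j hj h
    rw [Finset.coe_range] at hi hj
    rw [← hord] at hi hj
    exact pow_injOn_Iio_orderOf hi hj h
  have himage : (Finset.range (finrank K L)).image (fun i : ℕ => σ ^ i) = Finset.univ := by
    apply Finset.eq_univ_of_card
    rw [Finset.card_image_of_injOn hinj, Finset.card_range, ← Nat.card_eq_fintype_card,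
      IsGalois.card_aut_eq_finrank]
  rw [← himage, Finset.prod_image hinj]

/-- the sum over the Galois group as a sum over powers of a generator -/
theorem sum_univ_eq_sum_range {M : Type*} [AddCommMonoid M] (σ : L ≃ₐ[K] L)
    (hσ : ∀ τ : L ≃ₐ[K] L, τ ∈ Subgroup.zpowers σ) (F : (L ≃ₐ[K] L) → M) :
    ∑ τ : L ≃ₐ[K] L, F τ = ∑ i ∈ Finset.range (finrank K L), F (σ ^ i) :=
  prod_univ_eq_prod_range (M := Multiplicative M) σ hσ F

/-- every element of the Galois group is a small power of the generator -/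
theorem exists_lt_pow_eq (σ : L ≃ₐ[K] L) (hσ : ∀ τ : L ≃ₐ[K] L, τ ∈ Subgroup.zpowers σ)
    (τ : L ≃ₐ[K] L) : ∃ i < finrank K L, σ ^ i = τ := by
  obtain ⟨k, rfl⟩ := Subgroup.mem_zpowers_iff.1 (hσ τ)
  have hord := orderOf_eq_finrank σ hσ
  have hpos : 0 < finrank K L := finrank_pos
  refine ⟨(k % (finrank K L : ℤ)).toNat, ?_, ?_⟩
  · have := Int.emod_lt_of_pos k (by exact_mod_cast hpos : (0 : ℤ) < finrank K L)
    have h0 := Int.emod_nonneg k (by exact_mod_cast hpos.ne' : (finrank K L : ℤ) ≠ 0)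
    omega
  · have h0 := Int.emod_nonneg k (by exact_mod_cast hpos.ne' : (finrank K L : ℤ) ≠ 0)
    rw [← zpow_natCast, Int.toNat_of_nonneg h0, ← hord, zpow_mod_orderOf]

theorem pow_injOn_range (σ : L ≃ₐ[K] L) (hσ : ∀ τ : L ≃ₐ[K] L, τ ∈ Subgroup.zpowers σ)
    {i j : ℕ} (hi : i < finrank K L) (hj : j < finrank K L) (h : σ ^ i = σ ^ j) : i = j := by
  have hord := orderOf_eq_finrank σ hσ
  rw [← hord] at hi hj
  exact pow_injOn_Iio_orderOf hi hj h

/-- **Hilbert 90** for a cyclic extension: an element with `∏_{i<n} σ^i x = 1` is of the form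
`y / σ y`. -/
theorem hilbert90_of_prod_eq_one (σ : L ≃ₐ[K] L)
    (hσ : ∀ τ : L ≃ₐ[K] L, τ ∈ Subgroup.zpowers σ) (x : L)
    (hx : ∏ i ∈ Finset.range (finrank K L), (σ ^ i) x = 1) :
    ∃ y : L, y ≠ 0 ∧ x * σ y = y := by
  classical
  have hnpos : 0 < finrank K L := finrank_pos
  -- partial products
  let c : ℕ → L := fun i => ∏ j ∈ Finset.range i, (σ ^ j) x
  have hc0 : c 0 = 1 := by simp [c]
  have hcn : c (finrank K L) = 1 := hx
  have hcs : ∀ i, x * σ (c i) = c (i + 1) := by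
    intro i
    simp only [c]
    rw [map_prod, Finset.prod_range_succ' (fun j => (σ ^ j) x) i, mul_comm]
    simp only [pow_zero, AlgEquiv.one_apply]
    congr 1
    refine Finset.prod_congr rfl fun j _ => ?_
    rw [pow_succ', AlgEquiv.mul_apply]
  have hx0 : x ≠ 0 := by
    rintro rfl
    have : (∏ i ∈ Finset.range (finrank K L), (σ ^ i) (0 : L)) = 0 := by
      apply Finset.prod_eq_zero (Finset.mem_range.2 hnpos)
      simp
    rw [this] at hx
    exact zero_ne_one hx
  have hc_ne : ∀ i, c i ≠ 0 := by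
    intro i
    simp only [c]
    refine Finset.prod_ne_zero_iff.2 fun j _ => ?_
    rw [Ne, EmbeddingLike.map_eq_zero_iff]
    exact hx0
  -- independence of characters
  have hind : LinearIndependent L (fun (f : L ≃ₐ[K] L) => (f : L → L)) :=
    LinearIndependent.comp (ι' := L ≃ₐ[K] L)
      (linearIndependent_monoidHom L L) (fun f => ((f : L →ₐ[K] L) : L →* L))
      (fun x y h => by ext z; exact DFunLike.ext_iff.1 h z)
  choose k hk1 hk2 using exists_lt_pow_eq σ hσ
  have hk3 : ∀ i < finrank K L, k (σ ^ i) = i := fun i hi =>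
    pow_injOn_range σ hσ (hk1 _) hi (hk2 _)
  have hex : ∃ z : L, ∑ i ∈ Finset.range (finrank K L), c i * (σ ^ i) z ≠ 0 := by
    by_contra hcon
    push Not at hcon
    have h1 : ∑ τ : L ≃ₐ[K] L, (fun τ => c (k τ)) τ • (τ : L → L) = 0 := by
      ext z
      rw [Finset.sum_apply, sum_univ_eq_sum_range σ hσ, Pi.zero_apply, ← hcon z]
      refine Finset.sum_congr rfl fun i hi => ?_
      rw [Pi.smul_apply, smul_eq_mul]
      change c (k (σ ^ i)) * (σ ^ i) z = _
      rw [hk3 i (Finset.mem_range.1 hi)]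
    have h2 := Fintype.linearIndependent_iff.1 hind _ h1 1
    exact hc_ne _ h2
  obtain ⟨z, hz⟩ := hex
  refine ⟨_, hz, ?_⟩
  rw [map_sum, Finset.mul_sum]
  have h3 : ∀ i, x * σ (c i * (σ ^ i) z) = c (i + 1) * (σ ^ (i + 1)) z := by
    intro i
    rw [map_mul, ← mul_assoc, hcs, pow_succ', AlgEquiv.mul_apply]
  simp_rw [h3]
  have e1 := Finset.sum_range_succ' (fun i => c i * (σ ^ i) z) (finrank K L)
  have e2 := Finset.sum_range_succ (fun i => c i * (σ ^ i) z) (finrank K L)
  have e3 : c (finrank K L) * (σ ^ (finrank K L)) z = c 0 * (σ ^ 0) z := by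
    rw [hcn, hc0, pow_finrank_eq_one σ hσ, pow_zero]
  rw [e2, e3] at e1
  exact (add_right_cancel e1).symm

/-- Hilbert 90 for units: `Nm x = 1` implies `x = σ y / y` -/
theorem hilbert90_units (σ : L ≃ₐ[K] L)
    (hσ : ∀ τ : L ≃ₐ[K] L, τ ∈ Subgroup.zpowers σ) (x : Lˣ)
    (hx : Algebra.norm K (x : L) = 1) :
    ∃ y : Lˣ, x = Units.map (σ : L →* L) y / y := by
  have h1 : ∏ i ∈ Finset.range (finrank K L), (σ ^ i) ((x⁻¹ : Lˣ) : L) = 1 := by
    rw [← prod_univ_eq_prod_range σ hσ (fun τ => τ ((x⁻¹ : Lˣ) : L)),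
      ← Algebra.norm_eq_prod_automorphisms, Units.val_inv_eq_inv_val, Algebra.norm_inv, hx, inv_one,
      map_one]
  obtain ⟨y, hy0, hy⟩ := hilbert90_of_prod_eq_one σ hσ _ h1
  refine ⟨Units.mk0 y hy0, ?_⟩
  rw [eq_div_iff_mul_eq']
  ext
  simp only [Units.val_mul, Units.val_mk0, Units.coe_map, MonoidHom.coe_coe]
  rw [Units.val_inv_eq_inv_val, inv_mul_eq_iff_eq_mul₀ x.ne_zero] at hy
  exact hy.symm

end Fermat.Agent.CFT.Local
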