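/-
P4 / Layer B: the normal basis lattice.  For a cyclic Galois extension `L/K` with generator `σ`,
`K = Frac A`, `A` a discrete valuation ring with uniformizer `ϖ`, `B` the integral closure of `A`
in `L`: the `A`-lattice `M = ⊕_{j<n} A σ^j β ⊆ B` spanned by the conjugates of a normal basis
generator `β ∈ B`; it contains `ϖ^c B` for some `c`, and it has trivial Tate cohomology.
-/
import Fermat.Agent.Lib.CFT.Local.Cyclic

set_option autoImplicit false
set_option linter.unusedSectionVars false

namespace Fermat.Agent.CFT.Local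

open Finset Module

section GalB

variable (A K L B : Type*) [CommRing A] [CommRing B] [Algebra A B] [Field K] [Field L]
  [Algebra A K] [IsFractionRing A K] [Algebra K L] [Algebra A L] [IsScalarTower A K L]
  [Algebra B L] [IsScalarTower A B L] [IsIntegralClosure B A L] [Algebra.IsAlgebraic K L]

/-- the Galois group acting on the integral closure `B` -/
noncomputable def galB : (L ≃ₐ[K] L) →* RingAut B where
  toFun τ := (galRestrict A K L B τ).toRingEquiv
  map_one' := by
    rw [map_one]
    rfl
  map_mul' τ τ' := by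
    rw [map_mul]
    rfl

variable {K L B}

theorem algebraMap_galB (τ : L ≃ₐ[K] L) (b : B) :
    algebraMap B L (galB A K L B τ b) = τ (algebraMap B L b) :=
  algebraMap_galRestrict_apply A τ b

theorem galB_smul (τ : L ≃ₐ[K] L) (a : A) (b : B) :
    galB A K L B τ (a • b) = a • galB A K L B τ b :=
  map_smul (galRestrict A K L B τ) a b

theorem galB_algebraMap (τ : L ≃ₐ[K] L) (a : A) :
    galB A K L B τ (algebraMap A B a) = algebraMap A B a :=
  (galRestrict A K L B τ).commutes a

end GalB

section Lattice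

variable {A K L B : Type*} [CommRing A] [IsDomain A] [CommRing B] [Algebra A B] [Field K] [Field L]
  [Algebra A K] [IsFractionRing A K] [Algebra K L] [Algebra A L] [IsScalarTower A K L]
  [Algebra B L] [IsScalarTower A B L] [IsIntegralClosure B A L] [FiniteDimensional K L]
  [IsGalois K L]

variable (A) in
/-- the conjugates `e_j = σ^j β` -/
noncomputable def conj (σ : L ≃ₐ[K] L) (β : B) (j : ℕ) : B := galB A K L B (σ ^ j) β

variable (A) in
/-- the element of `B` with coordinates `a` -/
noncomputable def coord (σ : L ≃ₐ[K] L) (β : B) (a : ℕ → A) : B :=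
  ∑ j ∈ range (finrank K L), a j • conj A σ β j

variable (A) in
/-- the lattice `⊕_{j<n} A σ^j β` -/
noncomputable def lattice (σ : L ≃ₐ[K] L) (β : B) : Submodule A B where
  carrier := {m | ∃ a : ℕ → A, coord A σ β a = m}
  add_mem' := by
    rintro _ _ ⟨a, rfl⟩ ⟨a', rfl⟩
    refine ⟨a + a', ?_⟩
    simp only [coord, Pi.add_apply, add_smul, Finset.sum_add_distrib]
  zero_mem' := ⟨0, by simp [coord]⟩
  smul_mem' := by
    rintro r _ ⟨a, rfl⟩
    refine ⟨r • a, ?_⟩
    simp only [coord, Pi.smul_apply, smul_eq_mul, mul_smul, Finset.smul_sum]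

variable {σ : L ≃ₐ[K] L} {β : B}

theorem mem_lattice {m : B} : m ∈ lattice A σ β ↔ ∃ a : ℕ → A, coord A σ β a = m := Iff.rfl

theorem coord_mem (a : ℕ → A) : coord A σ β a ∈ lattice A σ β := ⟨a, rfl⟩

theorem galB_conj (j : ℕ) : galB A K L B σ (conj A σ β j) = conj A σ β (j + 1) := by
  simp only [conj]
  rw [← RingAut.mul_apply, ← map_mul, ← pow_succ']

theorem galB_pow_conj (i j : ℕ) :
    (galB A K L B σ ^ i) (conj A σ β j) = conj A σ β (i + j) := by
  simp only [conj]
  rw [← map_pow, ← RingAut.mul_apply, ← map_mul, ← pow_add]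

theorem algebraMap_conj (j : ℕ) :
    algebraMap B L (conj A σ β j) = (σ ^ j) (algebraMap B L β) :=
  algebraMap_galB A _ _

variable (hσ : ∀ τ : L ≃ₐ[K] L, τ ∈ Subgroup.zpowers σ)

include hσ in
theorem conj_add_finrank (j : ℕ) : conj A σ β (j + finrank K L) = conj A σ β j := by
  simp only [conj]
  rw [pow_add, pow_finrank_eq_one σ hσ, mul_one]

include hσ in
theorem conj_mem (j : ℕ) : conj A σ β j ∈ lattice A σ β := by
  have hn : 0 < finrank K L := finrank_pos
  induction j using Nat.strong_induction_on with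
  | _ j ih =>
    by_cases hj : j < finrank K L
    · refine ⟨Pi.single j 1, ?_⟩
      rw [coord, Finset.sum_eq_single j]
      · simp
      · intro i _ hij
        simp [Pi.single_apply, hij]
      · intro h
        exact absurd (Finset.mem_range.2 hj) h
    · push Not at hj
      obtain ⟨k, rfl⟩ := Nat.exists_eq_add_of_le hj
      rw [add_comm, conj_add_finrank hσ]
      exact ih k (by omega)

include hσ in
theorem galB_mem_lattice {m : B} (hm : m ∈ lattice A σ β) :
    galB A K L B σ m ∈ lattice A σ β := by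
  obtain ⟨a, rfl⟩ := hm
  rw [coord, map_sum]
  refine Submodule.sum_mem _ fun j _ => ?_
  rw [galB_smul, galB_conj]
  exact Submodule.smul_mem _ _ (conj_mem hσ _)

/-! ### Normal basis generators and uniqueness of coordinates -/

/-- `β` is a normal basis generator: its conjugates `σ^j β`, `j < n`, are linearly independent
over `K` -/
def IsNormalGen (σ : L ≃ₐ[K] L) (β : B) : Prop :=
  LinearIndependent K (fun j : Fin (finrank K L) => (σ ^ (j : ℕ)) (algebraMap B L β))

theorem algebraMap_smul_eq (a : A) (b : B) :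
    algebraMap B L (a • b) = algebraMap A K a • algebraMap B L b := by
  rw [Algebra.smul_def, map_mul, ← IsScalarTower.algebraMap_apply A B L,
    IsScalarTower.algebraMap_apply A K L, Algebra.smul_def]

theorem algebraMap_coord (a : ℕ → A) :
    algebraMap B L (coord A σ β a) =
      ∑ j ∈ range (finrank K L), algebraMap A K (a j) • (σ ^ j) (algebraMap B L β) := by
  rw [coord, map_sum]
  refine Finset.sum_congr rfl fun j _ => ?_
  rw [algebraMap_smul_eq (K := K), algebraMap_conj]

theorem coord_injective (hβ : IsNormalGen σ β) {a a' : ℕ → A}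
    (h : coord A σ β a = coord A σ β a') : ∀ j < finrank K L, a j = a' j := by
  intro j hj
  have h1 := congrArg (algebraMap B L) h
  rw [algebraMap_coord, algebraMap_coord, ← sub_eq_zero, ← Finset.sum_sub_distrib] at h1
  simp_rw [← sub_smul] at h1
  rw [← Fin.sum_univ_eq_sum_range
    (fun j => (algebraMap A K (a j) - algebraMap A K (a' j)) • (σ ^ j) (algebraMap B L β))] at h1
  have h2 := Fintype.linearIndependent_iff.1 hβ _ h1 ⟨j, hj⟩
  exact IsFractionRing.injective A K (sub_eq_zero.1 h2)

include A hσ in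
theorem exists_isNormalGen : ∃ β : B, IsNormalGen σ β := by
  set α := IsGalois.normalBasis K L 1 with hα
  have h1 : LinearIndependent K (fun τ : L ≃ₐ[K] L => τ α) := by
    have := (IsGalois.normalBasis K L).linearIndependent
    have h2 : (fun τ : L ≃ₐ[K] L => τ α) = ⇑(IsGalois.normalBasis K L) := by
      ext τ
      rw [IsGalois.normalBasis_apply]
    rw [h2]
    exact this
  have h3 : LinearIndependent K (fun j : Fin (finrank K L) => (σ ^ (j : ℕ)) α) :=
    h1.comp (fun j : Fin (finrank K L) => σ ^ (j : ℕ)) (fun i j hij =>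
      Fin.ext (pow_injOn_range σ hσ i.2 j.2 hij))
  have halg : Algebra.IsAlgebraic A L :=
    (IsFractionRing.comap_isAlgebraic_iff (A := A) (K := K) (C := L)).2 inferInstance
  obtain ⟨y, hy0, hy⟩ := (Algebra.IsAlgebraic.isAlgebraic (R := A) α).exists_integral_multiple
  refine ⟨IsIntegralClosure.mk' B (y • α) hy, ?_⟩
  rw [IsNormalGen, IsIntegralClosure.algebraMap_mk']
  have hk : algebraMap A K y ≠ 0 := by
    rw [Ne, FaithfulSMul.algebraMap_eq_zero_iff]
    exact hy0
  have h4 := h3.units_smul (fun _ => Units.mk0 _ hk)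
  convert h4 using 1
  ext j
  simp only [Pi.smul_apply', Units.smul_mk0]
  rw [← algebraMap_smul K y α, map_smul]

/-! ### The trace on the lattice -/

theorem sum_range_add_periodic {M : Type*} [AddCommGroup M] (n : ℕ) (f : ℕ → M)
    (hf : ∀ i, f (i + n) = f i) (j : ℕ) :
    ∑ i ∈ range n, f (i + j) = ∑ i ∈ range n, f i := by
  induction j with
  | zero => simp
  | succ j ih =>
    rw [← ih]
    have e1 := Finset.sum_range_succ' (fun i => f (i + j)) n
    have e2 := Finset.sum_range_succ (fun i => f (i + j)) n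
    have e3 : f (n + j) = f (0 + j) := by rw [add_comm n j, hf, zero_add]
    rw [e2, e3] at e1
    have := add_right_cancel e1
    rw [this]
    refine Finset.sum_congr rfl fun i _ => ?_
    rw [add_assoc, add_comm j 1, ← add_assoc]

variable (A) in
/-- the trace `∑_{j<n} σ^j` on `B` -/
noncomputable def trB (σ : L ≃ₐ[K] L) (b : B) : B :=
  ∑ j ∈ range (finrank K L), (galB A K L B σ ^ j) b

theorem trB_smul (a : A) (b : B) : trB A σ (a • b) = a • trB A σ b := by
  simp only [trB]
  rw [Finset.smul_sum]
  refine Finset.sum_congr rfl fun j _ => ?_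
  rw [← map_pow, galB_smul]

theorem trB_add (b b' : B) : trB A σ (b + b') = trB A σ b + trB A σ b' := by
  simp only [trB, map_add, Finset.sum_add_distrib]

theorem trB_sum {ι : Type*} (s : Finset ι) (f : ι → B) :
    trB A σ (∑ i ∈ s, f i) = ∑ i ∈ s, trB A σ (f i) := by
  classical
  induction s using Finset.induction_on with
  | empty => simp [trB]
  | insert a s ha ih => rw [Finset.sum_insert ha, Finset.sum_insert ha, trB_add, ih]

include hσ in
theorem trB_conj (j : ℕ) : trB A σ (conj A σ β j) = trB A σ β := by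
  simp only [trB]
  simp_rw [galB_pow_conj]
  rw [sum_range_add_periodic _ (fun i => conj A σ β i) (fun i => conj_add_finrank hσ i) j]
  refine Finset.sum_congr rfl fun i _ => ?_
  rw [conj, map_pow]

theorem trB_eq_coord : trB A σ β = coord A σ β (fun _ => 1) := by
  simp only [trB, coord, one_smul]
  refine Finset.sum_congr rfl fun i _ => ?_
  rw [conj, map_pow]

include hσ in
theorem trB_coord (a : ℕ → A) :
    trB A σ (coord A σ β a) = (∑ j ∈ range (finrank K L), a j) • trB A σ β := by
  rw [coord, trB_sum, Finset.sum_smul]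
  refine Finset.sum_congr rfl fun j _ => ?_
  rw [trB_smul, trB_conj hσ]

theorem smul_coord (r : A) (a : ℕ → A) : r • coord A σ β a = coord A σ β (r • a) := by
  simp only [coord, Pi.smul_apply, smul_eq_mul, mul_smul, Finset.smul_sum]

/-- the coordinates of `σ m` -/
theorem galB_coord (hσ : ∀ τ : L ≃ₐ[K] L, τ ∈ Subgroup.zpowers σ) (a : ℕ → A) :
    galB A K L B σ (coord A σ β a) =
      coord A σ β (fun j => if j = 0 then a (finrank K L - 1) else a (j - 1)) := by
  have hn : 0 < finrank K L := finrank_pos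
  obtain ⟨k, hk⟩ : ∃ k, finrank K L = k + 1 := ⟨finrank K L - 1, by omega⟩
  simp only [coord]
  rw [map_sum, hk, Finset.sum_range_succ, Finset.sum_range_succ']
  simp only [galB_smul, galB_conj, if_true, Nat.add_sub_cancel, Nat.add_eq_zero_iff, one_ne_zero,
    and_false, if_false]
  congr 1
  have := conj_add_finrank (A := A) (β := β) hσ 0
  rw [hk, zero_add] at this
  rw [this]

include hσ in
/-- `Ĥ^0` of the lattice vanishes -/
theorem exists_trB_eq_of_fixed (hβ : IsNormalGen σ β) {m : B} (hm : m ∈ lattice A σ β)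
    (hfix : galB A K L B σ m = m) : ∃ m' ∈ lattice A σ β, trB A σ m' = m := by
  obtain ⟨a, rfl⟩ := hm
  rw [galB_coord hσ] at hfix
  have h1 := coord_injective hβ hfix
  have h2 : ∀ j < finrank K L, a j = a 0 := by
    intro j
    induction j with
    | zero => intro _; rfl
    | succ j ih =>
      intro hj
      have := h1 (j + 1) hj
      simp only [Nat.add_eq_zero_iff, one_ne_zero, and_false, if_false, Nat.add_sub_cancel] at this
      rw [← this]
      exact ih (by omega)
  refine ⟨a 0 • conj A σ β 0, Submodule.smul_mem _ _ (conj_mem hσ 0), ?_⟩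
  rw [trB_smul, trB_conj hσ, trB_eq_coord, smul_coord, coord, coord]
  refine Finset.sum_congr rfl fun j hj => ?_
  rw [Pi.smul_apply, smul_eq_mul, mul_one, h2 j (Finset.mem_range.1 hj)]

include hσ in
/-- `Ĥ^{-1}` of the lattice vanishes modulo `ϖ` -/
theorem exists_eq_sub_add_of_trB (hβ : IsNormalGen σ β) (ϖ : A) {m m₁ : B}
    (hm : m ∈ lattice A σ β) (hm₁ : m₁ ∈ lattice A σ β) (h : trB A σ m = ϖ • m₁) :
    ∃ m' ∈ lattice A σ β, ∃ m₂ ∈ lattice A σ β,
      m = galB A K L B σ m' - m' + ϖ • m₂ := by
  have hn : 0 < finrank K L := finrank_pos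
  obtain ⟨a, rfl⟩ := hm
  obtain ⟨b, rfl⟩ := hm₁
  rw [trB_coord hσ, trB_eq_coord, smul_coord, smul_coord] at h
  have hs : ∑ j ∈ range (finrank K L), a j = ϖ * b 0 := by
    have := coord_injective hβ h 0 hn
    simpa using this
  -- partial sums of conjugates
  set g : ℕ → B := fun j => ∑ i ∈ range j, conj A σ β i with hg
  have hgmem : ∀ j, g j ∈ lattice A σ β := fun j =>
    Submodule.sum_mem _ fun i _ => conj_mem hσ i
  have hgσ : ∀ j, galB A K L B σ (g j) - g j = conj A σ β j - conj A σ β 0 := by
    intro j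
    simp only [hg]
    rw [map_sum, ← Finset.sum_sub_distrib]
    simp_rw [galB_conj]
    exact Finset.sum_range_sub (fun i => conj A σ β i) j
  refine ⟨∑ j ∈ range (finrank K L), a j • g j,
    Submodule.sum_mem _ fun j _ => Submodule.smul_mem _ _ (hgmem j),
    b 0 • conj A σ β 0, Submodule.smul_mem _ _ (conj_mem hσ 0), ?_⟩
  rw [map_sum, ← Finset.sum_sub_distrib]
  simp_rw [galB_smul, ← smul_sub, hgσ, smul_sub]
  rw [Finset.sum_sub_distrib, ← Finset.sum_smul, hs, coord, mul_smul]
  abel

/-! ### The lattice contains `ϖ^c B` -/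

section Conductor

variable [IsDiscreteValuationRing A]

omit [IsGalois K L] [FiniteDimensional K L] in
theorem exists_pow_mul_eq_algebraMap {ϖ : A} (hϖ : Irreducible ϖ) (x : K) :
    ∃ (c : ℕ) (a : A), algebraMap A K (ϖ ^ c) * x = algebraMap A K a := by
  obtain ⟨a, b, hb, rfl⟩ := IsFractionRing.div_surjective A x
  have hb0 : b ≠ 0 := nonZeroDivisors.ne_zero hb
  obtain ⟨k, u, rfl⟩ := IsDiscreteValuationRing.eq_unit_mul_pow_irreducible hb0 hϖ
  refine ⟨k, a * ((u⁻¹ : Aˣ) : A), ?_⟩
  have h1 : algebraMap A K ((u : A) * ϖ ^ k) ≠ 0 := by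
    rw [Ne, FaithfulSMul.algebraMap_eq_zero_iff]
    exact hb0
  rw [mul_div_assoc', eq_comm, eq_div_iff h1, ← map_mul, ← map_mul]
  congr 1
  have : ((u⁻¹ : Aˣ) : A) * (u : A) = 1 := by simp
  linear_combination (a * ϖ ^ k) * this

include hσ in
theorem exists_pow_smul_mem_lattice (hβ : IsNormalGen σ β) {ϖ : A} (hϖ : Irreducible ϖ)
    (b : B) : ∃ c : ℕ, ϖ ^ c • b ∈ lattice A σ β := by
  classical
  haveI : Nonempty (Fin (finrank K L)) := ⟨⟨0, finrank_pos⟩⟩
  let bas : Basis (Fin (finrank K L)) K L :=
    basisOfLinearIndependentOfCardEqFinrank hβ (by simp)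
  have hbas : ∀ j, bas j = (σ ^ (j : ℕ)) (algebraMap B L β) := fun j => by
    simp [bas]
  have hrepr := bas.sum_repr (algebraMap B L b)
  choose c a hca using fun j : Fin (finrank K L) =>
    exists_pow_mul_eq_algebraMap hϖ (bas.repr (algebraMap B L b) j)
  refine ⟨∑ j, c j, fun j => if h : j < finrank K L then
    ϖ ^ (∑ i, c i - c ⟨j, h⟩) * a ⟨j, h⟩ else 0, ?_⟩
  apply IsIntegralClosure.algebraMap_injective B A L
  rw [algebraMap_coord, algebraMap_smul_eq (K := K), ← hrepr, Finset.smul_sum,
    ← Fin.sum_univ_eq_sum_range (fun j => algebraMap A K (if h : j < finrank K L then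
      ϖ ^ (∑ i, c i - c ⟨j, h⟩) * a ⟨j, h⟩ else 0) • (σ ^ j) (algebraMap B L β))]
  refine Finset.sum_congr rfl fun j _ => ?_
  rw [dif_pos j.2, hbas, smul_smul, map_mul, ← hca]
  congr 1
  rw [← mul_assoc, ← map_mul, ← pow_add]
  congr 3
  have : c j ≤ ∑ i, c i := Finset.single_le_sum (fun i _ => Nat.zero_le (c i)) (Finset.mem_univ j)
  simp only [Fin.eta]
  omega

include hσ in
theorem exists_forall_pow_smul_mem_lattice [Module.Finite A B] (hβ : IsNormalGen σ β) {ϖ : A}
    (hϖ : Irreducible ϖ) : ∃ c : ℕ, ∀ b : B, ϖ ^ c • b ∈ lattice A σ β := by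
  obtain ⟨r, s, hs⟩ := Module.Finite.exists_fin (R := A) (M := B)
  choose c hc using fun i : Fin r => exists_pow_smul_mem_lattice hσ hβ hϖ (s i)
  refine ⟨∑ i, c i, fun b => ?_⟩
  have hb : b ∈ Submodule.span A (Set.range s) := by rw [hs]; trivial
  induction hb using Submodule.span_induction with
  | mem x hx =>
    obtain ⟨i, rfl⟩ := hx
    have : c i ≤ ∑ i, c i :=
      Finset.single_le_sum (fun i _ => Nat.zero_le (c i)) (Finset.mem_univ i)
    obtain ⟨k, hk⟩ := Nat.exists_eq_add_of_le this
    rw [hk, add_comm, pow_add, mul_smul]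
    exact Submodule.smul_mem _ _ (hc i)
  | zero => rw [smul_zero]; exact Submodule.zero_mem _
  | add x y _ _ hx hy => rw [smul_add]; exact Submodule.add_mem _ hx hy
  | smul a x _ hx => rw [smul_comm]; exact Submodule.smul_mem _ _ hx

end Conductor

end Lattice

end Fermat.Agent.CFT.Local
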