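/-
P4 / Layer B: for a cyclic extension `L/K` of local fields the unit group `Bˣ` contains a subgroup
`V` of finite index, stable under the Galois group, with trivial Tate cohomology:
`V^G = N V` and `ker N|_V = (σ - 1) V`.
-/
import Fermat.Agent.Lib.CFT.Local.Basic
import Fermat.Agent.Lib.CFT.Local.NormalLattice
import Fermat.Agent.Lib.CFT.Local.CohTrivialAbstract

set_option autoImplicit false
set_option linter.unusedSectionVars false

namespace Fermat.Agent.CFT.Local

open Finset Module IsLocalRing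

section

variable {A K L B : Type*} [CommRing A] [IsDomain A] [IsDiscreteValuationRing A]
  [CommRing B] [IsDomain B] [Algebra A B] [Field K] [Field L]
  [Algebra A K] [IsFractionRing A K] [Algebra K L] [Algebra A L] [IsScalarTower A K L]
  [Algebra B L] [IsScalarTower A B L] [IsIntegralClosure B A L] [FiniteDimensional K L]
  [IsGalois K L]

include K L in
theorem algebraMap_AB_injective : Function.Injective (algebraMap A B) := by
  have h1 : Function.Injective (algebraMap A L) := by
    rw [IsScalarTower.algebraMap_eq A K L]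
    exact (algebraMap K L).injective.comp (IsFractionRing.injective A K)
  rw [IsScalarTower.algebraMap_eq A B L] at h1
  exact Function.Injective.of_comp h1

/-- the data for the abstract cohomological triviality lemma -/
noncomputable def ctData (σ : L ≃ₐ[K] L) (hσ : ∀ τ : L ≃ₐ[K] L, τ ∈ Subgroup.zpowers σ)
    (β : B) (hβ : IsNormalGen σ β) (ϖ : A) (hϖ : Irreducible ϖ) (c : ℕ)
    (hc : ∀ b : B, ϖ ^ c • b ∈ lattice A σ β) : CTData B where
  σ := galB A K L B σ
  n := finrank K L
  ϖ := algebraMap A B ϖ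
  M := (lattice A σ β).toAddSubgroup
  c := c
  σ_pow := by rw [← map_pow, pow_finrank_eq_one σ hσ, map_one]
  σ_ϖ := galB_algebraMap A σ ϖ
  ϖ_reg := by
    intro b hb
    rcases mul_eq_zero.1 hb with h | h
    · exfalso
      rw [← map_zero (algebraMap A B)] at h
      exact hϖ.ne_zero (algebraMap_AB_injective (K := K) (L := L) h)
    · exact h
  σ_mem := fun m hm => galB_mem_lattice hσ hm
  ϖ_mem := by
    intro m hm
    rw [← Algebra.smul_def]
    exact Submodule.smul_mem _ _ hm
  pow_mem := by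
    intro b
    rw [← map_pow, ← Algebra.smul_def]
    exact hc b
  fixed := fun m hm hfix => exists_trB_eq_of_fixed hσ hβ hm hfix
  trace_zero := by
    intro m hm m₁ hm₁ h
    rw [← Algebra.smul_def] at h
    obtain ⟨m', hm', m₂, hm₂, h2⟩ := exists_eq_sub_add_of_trB hσ hβ ϖ hm hm₁ h
    refine ⟨m', hm', m₂, hm₂, ?_⟩
    rw [← Algebra.smul_def]
    exact h2

variable (σ : L ≃ₐ[K] L) (hσ : ∀ τ : L ≃ₐ[K] L, τ ∈ Subgroup.zpowers σ)
    (β : B) (hβ : IsNormalGen σ β) (ϖ : A) (hϖ : Irreducible ϖ) (c : ℕ)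
    (hc : ∀ b : B, ϖ ^ c • b ∈ lattice A σ β)

/-- `B` is complete for the `ϖ`-adic topology -/
theorem ctData_isAdicComplete [IsLocalInt A] [Module.Finite A B] :
    IsAdicComplete (Ideal.span {(ctData σ hσ β hβ ϖ hϖ c hc).ϖ}) B := by
  have hcompA : IsAdicComplete (maximalIdeal A) B := isAdicComplete_of_finite (maximalIdeal A) B
  have hcomp : IsAdicComplete ((maximalIdeal A).map (algebraMap A B)) B :=
    (IsAdicComplete.map_algebraMap_iff _ _).mpr hcompA
  have : (maximalIdeal A).map (algebraMap A B) = Ideal.span {algebraMap A B ϖ} := by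
    rw [hϖ.maximalIdeal_eq, Ideal.map_span, Set.image_singleton]
  rw [this] at hcomp
  exact hcomp

/-- quotients of a local ring of integers by nonzero ideals are finite -/
theorem finite_quotient_of_ne_bot (B : Type*) [CommRing B] [IsDomain B] [IsLocalInt B]
    (I : Ideal B) (hI : I ≠ ⊥) : Finite (B ⧸ I) := by
  obtain ⟨π, hπ⟩ := IsDiscreteValuationRing.exists_irreducible B
  obtain ⟨k, hk⟩ := IsDiscreteValuationRing.ideal_eq_span_pow_irreducible hI hπ
  have h1 : I = maximalIdeal B ^ k := by
    rw [hk, hπ.maximalIdeal_eq, Ideal.span_singleton_pow]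
  rw [h1]
  haveI : Finite (B ⧸ maximalIdeal B) := (inferInstance : Finite (ResidueField B))
  exact Ideal.finite_quotient_pow (IsNoetherian.noetherian _) k

/-- the subgroups `V j` have finite index in `Bˣ` -/
theorem ctData_V_index_ne_zero [IsLocalInt B] (j : ℕ) :
    ((ctData σ hσ β hβ ϖ hϖ c hc).V j).index ≠ 0 := by
  set D := ctData σ hσ β hβ ϖ hϖ c hc with hD
  set N := D.c + 1 + j + D.c with hN
  have hϖ0 : D.ϖ ^ N ≠ 0 := by
    apply pow_ne_zero
    intro h
    have : algebraMap A B ϖ = 0 := h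
    rw [← map_zero (algebraMap A B)] at this
    exact hϖ.ne_zero (algebraMap_AB_injective (K := K) (L := L) this)
  have hI : Ideal.span {D.ϖ ^ N} ≠ ⊥ := by
    rw [Ne, Ideal.span_singleton_eq_bot]
    exact hϖ0
  haveI := finite_quotient_of_ne_bot B _ hI
  set φ : Bˣ →* (B ⧸ Ideal.span {D.ϖ ^ N})ˣ :=
    Units.map (Ideal.Quotient.mk (Ideal.span {D.ϖ ^ N}) : B →* B ⧸ Ideal.span {D.ϖ ^ N}) with hφ
  have hle : φ.ker ≤ D.V j := by
    intro u hu
    rw [MonoidHom.mem_ker] at hu
    have h1 : Ideal.Quotient.mk (Ideal.span {D.ϖ ^ N}) (u : B) = 1 := by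
      have := congrArg Units.val hu
      simpa [hφ] using this
    rw [← map_one (Ideal.Quotient.mk (Ideal.span {D.ϖ ^ N})), Ideal.Quotient.eq,
      Ideal.mem_span_singleton] at h1
    obtain ⟨b, hb⟩ := h1
    refine ⟨D.ϖ ^ D.c * b, D.pow_mem b, ?_⟩
    have : (u : B) = 1 + D.ϖ ^ N * b := by rw [← hb]; ring
    rw [this, hN]
    ring
  have hker : φ.ker.index ≠ 0 := by
    rw [Subgroup.index_ker]
    exact Nat.card_pos.ne'
  exact fun h0 => hker (Nat.eq_zero_of_zero_dvd (h0 ▸ Subgroup.index_dvd_of_le hle))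

end

end Fermat.Agent.CFT.Local
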