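/-
P4 / Layer B: index lemmas for commutative groups.

* `relIndex_eq_map_mul_ker` (Lang's lemma): `[K : H] = [f K : f H] · [K ∩ ker f : H ∩ ker f]`.
* `herbrand_pair_finite_index`: the Herbrand quotient of a pair of endomorphisms `f, g` with
  `f ∘ g = 1 = g ∘ f` does not change on passing to a stable subgroup of finite index:
  `[ker g : im f] · [ker f ∩ M' : g M'] = [ker g ∩ M' : f M'] · [ker f : im g]`.
-/
import Mathlib

set_option autoImplicit false

namespace Fermat.Agent.CFT.Local

open Subgroup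

variable {G G' : Type*} [CommGroup G] [CommGroup G']

/-- Lang's index lemma: `[K : H] = [f K : f H] · [K ∩ ker f : H ∩ ker f]` -/
@[to_additive addRelIndex_eq_map_mul_ker]
theorem relIndex_eq_map_mul_ker (f : G →* G') {H K : Subgroup G} (hHK : H ≤ K) :
    H.relIndex K = (H.map f).relIndex (K.map f) * (H ⊓ f.ker).relIndex (K ⊓ f.ker) := by
  set T := f.ker with hT
  have e1 : (H.map f).relIndex (K.map f) = (H ⊔ T).relIndex K := by
    rw [relIndex_map_map]
    have : K ⊔ T = (H ⊔ T) ⊔ K := by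
      rw [sup_right_comm, sup_eq_right.2 hHK]
    rw [this, relIndex_sup_left]
  have e2 : H.relIndex ((H ⊔ T) ⊓ K) * ((H ⊔ T) ⊓ K).relIndex K = H.relIndex K :=
    relIndex_mul_relIndex _ _ _ (le_inf le_sup_left hHK) inf_le_right
  have e3 : ((H ⊔ T) ⊓ K).relIndex K = (H ⊔ T).relIndex K := inf_relIndex_right _ _
  have e4 : (H ⊔ T) ⊓ K = H ⊔ (K ⊓ T) := by
    apply le_antisymm
    · rintro x ⟨hx1, hx2⟩
      obtain ⟨h, hh, t, ht, rfl⟩ := Subgroup.mem_sup.1 hx1
      refine Subgroup.mem_sup.2 ⟨h, hh, t, ⟨?_, ht⟩, rfl⟩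
      have : t = h⁻¹ * (h * t) := by group
      rw [this]
      exact K.mul_mem (K.inv_mem (hHK hh)) hx2
    · exact sup_le (le_inf le_sup_left hHK)
        (le_inf (inf_le_right.trans le_sup_right) inf_le_left)
  have e5 : H.relIndex (H ⊔ (K ⊓ T)) = (H ⊓ T).relIndex (K ⊓ T) := by
    rw [relIndex_sup_left, ← inf_relIndex_right]
    congr 1
    rw [← inf_assoc, inf_eq_left.2 hHK]
  rw [← e2, e3, e4, e5, e1, mul_comm]

/-- Invariance of the Herbrand quotient of a pair `(f, g)` under passage to a stable subgroup of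
finite index. -/
@[to_additive addHerbrand_pair_finite_index]
theorem herbrand_pair_finite_index (f g : G →* G) (hfg : ∀ x, f (g x) = 1)
    (hgf : ∀ x, g (f x) = 1) (M' : Subgroup G) (hf : M'.map f ≤ M') (hg : M'.map g ≤ M')
    (hfin : M'.index ≠ 0) :
    f.range.relIndex g.ker * (M'.map g).relIndex (f.ker ⊓ M') =
      (M'.map f).relIndex (g.ker ⊓ M') * g.range.relIndex f.ker := by
  have hfr : f.range ≤ g.ker := by
    rintro _ ⟨x, rfl⟩; exact hgf x
  have hgr : g.range ≤ f.ker := by
    rintro _ ⟨x, rfl⟩; exact hfg x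
  have hfM : M'.map f ≤ g.ker ⊓ M' := le_inf ((map_le_range f M').trans hfr) hf
  have hgM : M'.map g ≤ f.ker ⊓ M' := le_inf ((map_le_range g M').trans hgr) hg
  -- Lang's lemma for `f` and `g` and `M' ≤ ⊤`
  have Lf := relIndex_eq_map_mul_ker f (le_top : M' ≤ ⊤)
  have Lg := relIndex_eq_map_mul_ker g (le_top : M' ≤ ⊤)
  rw [relIndex_top_right, ← MonoidHom.range_eq_map, top_inf_eq] at Lf Lg
  -- two ways of computing `[ker g : f M']`
  have a1 : (M'.map f).relIndex f.range * f.range.relIndex g.ker = (M'.map f).relIndex g.ker :=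
    relIndex_mul_relIndex _ _ _ (map_le_range f M') hfr
  have a2 : (M'.map f).relIndex (g.ker ⊓ M') * (g.ker ⊓ M').relIndex g.ker =
      (M'.map f).relIndex g.ker :=
    relIndex_mul_relIndex _ _ _ hfM inf_le_left
  have b1 : (M'.map g).relIndex g.range * g.range.relIndex f.ker = (M'.map g).relIndex f.ker :=
    relIndex_mul_relIndex _ _ _ (map_le_range g M') hgr
  have b2 : (M'.map g).relIndex (f.ker ⊓ M') * (f.ker ⊓ M').relIndex f.ker =
      (M'.map g).relIndex f.ker :=
    relIndex_mul_relIndex _ _ _ hgM inf_le_left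
  rw [inf_comm] at Lf Lg
  -- abbreviations
  set a := f.range.relIndex g.ker
  set b := g.range.relIndex f.ker
  set a' := (M'.map f).relIndex (g.ker ⊓ M')
  set b' := (M'.map g).relIndex (f.ker ⊓ M')
  set u := (M'.map f).relIndex f.range
  set v := (M'.map g).relIndex g.range
  set s := (f.ker ⊓ M').relIndex f.ker
  set t := (g.ker ⊓ M').relIndex g.ker
  set n := M'.index
  -- `n = u s = v t`, `u a = a' t`, `v b = b' s`
  have hu : u ≠ 0 := fun h => hfin (by rw [Lf, h, zero_mul])
  have hs : s ≠ 0 := fun h => hfin (by rw [Lf, h, mul_zero])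
  have hv : v ≠ 0 := fun h => hfin (by rw [Lg, h, zero_mul])
  have ht : t ≠ 0 := fun h => hfin (by rw [Lg, h, mul_zero])
  have h1 : u * a = a' * t := a1.trans a2.symm
  have h2 : v * b = b' * s := b1.trans b2.symm
  have h3 : u * s = v * t := Lf.symm.trans Lg
  -- goal: a * b' = a' * b
  apply Nat.eq_of_mul_eq_mul_left (Nat.pos_of_ne_zero (mul_ne_zero (mul_ne_zero hu hs) hv))
  calc u * s * v * (a * b') = (u * a) * (b' * s) * v := by ring
    _ = (a' * t) * (v * b) * v := by rw [h1, h2]
    _ = (v * t) * v * (a' * b) := by ring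
    _ = u * s * v * (a' * b) := by rw [h3]

end Fermat.Agent.CFT.Local
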