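/-
P4 / Layer B: the local norm index for cyclic extensions:
`[U_K : N U_L] = e` and `[Kˣ : N Lˣ] = [L : K]`.
-/
import Fermat.Agent.Lib.CFT.Local.CohTrivialLattice
import Fermat.Agent.Lib.CFT.Local.OrdExt
import Fermat.Agent.Lib.CFT.Local.IndexLemmas

set_option autoImplicit false
set_option linter.unusedSectionVars false

namespace Fermat.Agent.CFT.Local

open Finset Module IsLocalRing

/-- index of `H · ker φ` for a surjection `φ` onto `ℤ` such that `φ(H) = dℤ` -/
theorem index_sup_ker_eq {G : Type*} [Group G] (φ : G →* Multiplicative ℤ)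
    (hφ : Function.Surjective φ) (H : Subgroup G) (d : ℕ)
    (hd : ∀ k : ℤ, (∃ h ∈ H, Multiplicative.toAdd (φ h) = k) ↔ (d : ℤ) ∣ k) :
    (H ⊔ φ.ker).index = d := by
  have h1 := Subgroup.index_map H φ
  rw [MonoidHom.range_eq_top.2 hφ, Subgroup.index_top, mul_one] at h1
  rw [← h1]
  have h2 : H.map φ = (AddSubgroup.zmultiples (d : ℤ)).toSubgroup := by
    ext x
    rw [Subgroup.mem_map]
    change _ ↔ Multiplicative.toAdd x ∈ AddSubgroup.zmultiples (d : ℤ)
    rw [Int.mem_zmultiples_iff, ← hd]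
    constructor
    · rintro ⟨h, hh, rfl⟩
      exact ⟨h, hh, rfl⟩
    · rintro ⟨h, hh, hx⟩
      exact ⟨h, hh, hx⟩
  rw [h2, AddSubgroup.index_toSubgroup, Int.index_zmultiples, Int.natAbs_natCast]

section Field

variable {K L : Type*} [Field K] [Field L] [Algebra K L]

/-- `x ↦ σ x / x` on `Lˣ` -/
noncomputable def DL (σ : L ≃ₐ[K] L) : Lˣ →* Lˣ where
  toFun x := Units.map (σ : L →* L) x / x
  map_one' := by simp
  map_mul' x y := by rw [map_mul, mul_div_mul_comm]

theorem DL_apply (σ : L ≃ₐ[K] L) (x : Lˣ) : DL σ x = Units.map (σ : L →* L) x / x := rfl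

variable [FiniteDimensional K L] [IsGalois K L]

theorem fixed_of_generator (σ : L ≃ₐ[K] L) (hσ : ∀ τ : L ≃ₐ[K] L, τ ∈ Subgroup.zpowers σ)
    (x : L) (hx : σ x = x) : x ∈ Set.range (algebraMap K L) := by
  rw [IsGalois.mem_range_algebraMap_iff_fixed]
  intro τ
  obtain ⟨k, rfl⟩ := exists_lt_pow_eq σ hσ τ |>.imp fun i hi => hi.2.symm
  induction k with
  | zero => simp
  | succ k ih => rw [pow_succ', AlgEquiv.mul_apply, ih, hx]

/-- the kernel of `σ - 1` on `Lˣ` is `Kˣ` -/
theorem ker_DL (σ : L ≃ₐ[K] L) (hσ : ∀ τ : L ≃ₐ[K] L, τ ∈ Subgroup.zpowers σ) :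
    (DL σ).ker = (unitsIncl K L).range := by
  ext x
  rw [MonoidHom.mem_ker, DL_apply, div_eq_one, MonoidHom.mem_range]
  constructor
  · intro h
    have h1 : σ (x : L) = x := congrArg Units.val h
    obtain ⟨y, hy⟩ := fixed_of_generator σ hσ _ h1
    have hy0 : y ≠ 0 := by
      rintro rfl
      rw [map_zero] at hy
      exact x.ne_zero hy.symm
    exact ⟨Units.mk0 y hy0, by ext; simpa using hy⟩
  · rintro ⟨y, rfl⟩
    ext
    simp

/-- the range of `σ - 1` on `Lˣ` is the kernel of the norm (Hilbert 90) -/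
theorem range_DL (σ : L ≃ₐ[K] L) (hσ : ∀ τ : L ≃ₐ[K] L, τ ∈ Subgroup.zpowers σ) :
    (DL σ).range = (unitsNorm K L).ker := by
  ext x
  rw [MonoidHom.mem_range, MonoidHom.mem_ker]
  constructor
  · rintro ⟨y, rfl⟩
    rw [DL_apply, map_div]
    have : unitsNorm K L (Units.map (σ : L →* L) y) = unitsNorm K L y := by
      ext
      simp only [coe_unitsNorm, Units.coe_map, MonoidHom.coe_coe]
      exact Algebra.norm_eq_of_algEquiv σ _
    rw [this, div_self']
  · intro h
    have h1 : Algebra.norm K (x : L) = 1 := congrArg Units.val h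
    obtain ⟨y, hy⟩ := hilbert90_units σ hσ x h1
    exact ⟨y, hy.symm⟩

end Field

section AKLB

variable {A K L B : Type*} [CommRing A] [IsDomain A] [IsLocalInt A]
  [CommRing B] [IsDomain B] [IsLocalInt B] [Algebra A B] [Field K] [Field L]
  [Algebra A K] [IsFractionRing A K] [Algebra K L] [Algebra A L] [IsScalarTower A K L]
  [Algebra B L] [IsFractionRing B L] [IsScalarTower A B L] [IsIntegralClosure B A L]
  [FiniteDimensional K L] [IsGalois K L]

/-- the units of `A` inside `Kˣ` -/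
def unitGroup (A K : Type*) [CommRing A] [Field K] [Algebra A K] : Subgroup Kˣ :=
  (Units.map (algebraMap A K : A →* K)).range

omit [IsLocalInt A] in
theorem mem_unitGroup_iff [IsDiscreteValuationRing A] (x : Kˣ) :
    x ∈ unitGroup A K ↔ ordZ A K x = 0 :=
  (ordZ_eq_zero_iff x).symm

/-- `Bˣ → Lˣ` -/
noncomputable def unitsB (B L : Type*) [CommRing B] [Field L] [Algebra B L] : Bˣ →* Lˣ :=
  Units.map (algebraMap B L : B →* L)

omit [IsLocalInt B] [IsDomain B] in
theorem unitsB_injective : Function.Injective (unitsB B L) := by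
  intro u v h
  ext
  have := congrArg Units.val h
  exact IsFractionRing.injective B L this

theorem range_unitsB : (unitsB B L).range = unitGroup B L := rfl

variable (σ : L ≃ₐ[K] L) (hσ : ∀ τ : L ≃ₐ[K] L, τ ∈ Subgroup.zpowers σ)
    (β : B) (hβ : IsNormalGen σ β) (ϖ : A) (hϖ : Irreducible ϖ) (c : ℕ)
    (hc : ∀ b : B, ϖ ^ c • b ∈ lattice A σ β)

theorem unitsB_Nm (u : Bˣ) :
    unitsB B L ((ctData σ hσ β hβ ϖ hϖ c hc).Nm u) =
      unitsIncl K L (unitsNorm K L (unitsB B L u)) := by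
  ext
  rw [coe_unitsIncl, coe_unitsNorm, Algebra.norm_eq_prod_automorphisms,
    prod_univ_eq_prod_range σ hσ (fun τ => τ ((unitsB B L u : Lˣ) : L))]
  rw [CTData.Nm_apply]
  simp only [unitsB, Units.coe_map, MonoidHom.coe_coe, Units.coe_prod, map_prod, CTData.coe_sU]
  refine Finset.prod_congr rfl fun j _ => ?_
  change algebraMap B L ((galB A K L B σ ^ j) (u : B)) = _
  rw [← map_pow, algebraMap_galB]

theorem unitsB_Dl (u : Bˣ) :
    unitsB B L ((ctData σ hσ β hβ ϖ hϖ c hc).Dl u) = DL σ (unitsB B L u) := by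
  rw [CTData.Dl_apply, DL_apply, map_div]
  congr 1
  ext
  simp only [unitsB, Units.coe_map, MonoidHom.coe_coe, CTData.coe_sU]
  exact algebraMap_galB A σ (u : B)

/-- the Herbrand quotient of `Bˣ` is `1`, in index form -/
theorem relIndex_Nm_range_eq :
    (ctData σ hσ β hβ ϖ hϖ c hc).Nm.range.relIndex (ctData σ hσ β hβ ϖ hϖ c hc).Dl.ker =
      (ctData σ hσ β hβ ϖ hϖ c hc).Dl.range.relIndex (ctData σ hσ β hβ ϖ hϖ c hc).Nm.ker := by
  have hfin : Module.Finite A B := IsIntegralClosure.finite A K L B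
  have hcomp := ctData_isAdicComplete σ hσ β hβ ϖ hϖ c hc
  set D := ctData σ hσ β hβ ϖ hϖ c hc with hD
  have hV := ctData_V_index_ne_zero σ hσ β hβ ϖ hϖ c hc 0
  rw [← hD] at hV
  have key := herbrand_pair_finite_index D.Nm D.Dl (fun x => D.Nm_Dl x) (fun x => D.Dl_Nm x)
    (D.V 0) (by rintro _ ⟨u, hu, rfl⟩; exact D.Nm_mem_V hu)
    (by rintro _ ⟨u, hu, rfl⟩; exact D.Dl_mem_V hu) hV
  have h1 : (D.V 0).map D.Dl = D.Nm.ker ⊓ D.V 0 := by
    apply le_antisymm
    · rintro _ ⟨u, hu, rfl⟩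
      exact ⟨D.Nm_Dl u, D.Dl_mem_V hu⟩
    · rintro u ⟨hu1, hu2⟩
      obtain ⟨w, hw, hwu⟩ := D.exists_Dl_eq 0 u hu2 hu1
      exact ⟨w, hw, hwu⟩
  have h2 : (D.V 0).map D.Nm = D.Dl.ker ⊓ D.V 0 := by
    apply le_antisymm
    · rintro _ ⟨u, hu, rfl⟩
      exact ⟨D.Dl_Nm u, D.Nm_mem_V hu⟩
    · rintro u ⟨hu1, hu2⟩
      have hfix : CTData.sU D.σ u = u := by
        have hu1' : D.Dl u = 1 := hu1
        rw [CTData.Dl_apply, div_eq_one] at hu1'
        exact hu1' 
      obtain ⟨w, hw, hwu⟩ := D.exists_Nm_eq 0 u hu2 hfix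
      exact ⟨w, hw, hwu⟩
  rw [h1, h2, Subgroup.relIndex_self, Subgroup.relIndex_self, mul_one, one_mul] at key
  exact key

theorem unitsIncl_map_unitGroup_le :
    (unitGroup A K).map (unitsIncl K L) ≤ unitGroup B L := by
  rintro _ ⟨_, ⟨a, rfl⟩, rfl⟩
  exact ⟨Units.map (algebraMap A B : A →* B) a, (unitsIncl_map_unit a).symm⟩

include A in
/-- elements of norm one are units -/
theorem ker_unitsNorm_le : (unitsNorm K L).ker ≤ unitGroup B L := by
  intro x hx
  rw [MonoidHom.mem_ker] at hx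
  have hfin : Module.Finite A B := IsIntegralClosure.finite A K L B
  have hfaith : FaithfulSMul A B :=
    (faithfulSMul_iff_algebraMap_injective A B).2 (algebraMap_AB_injective (K := K) (L := L))
  have h1 := ramIdx_mul_ordZ_unitsNorm (A := A) (K := K) (B := B) x
  rw [hx, ordZ_one, mul_zero] at h1
  have hn : (0 : ℤ) < finrank K L := by exact_mod_cast finrank_pos
  have h2 : ordZ B L x = 0 := by
    rcases mul_eq_zero.1 h1.symm with h | h
    · omega
    · exact h
  exact (mem_unitGroup_iff x).2 h2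

theorem map_unitsB_Dl_range :
    (ctData σ hσ β hβ ϖ hϖ c hc).Dl.range.map (unitsB B L) = (unitGroup B L).map (DL σ) := by
  rw [← range_unitsB, MonoidHom.map_range, MonoidHom.map_range]
  congr 1
  ext u : 1
  exact unitsB_Dl σ hσ β hβ ϖ hϖ c hc u

theorem map_unitsB_Nm_range :
    (ctData σ hσ β hβ ϖ hϖ c hc).Nm.range.map (unitsB B L) =
      ((unitGroup B L).map (unitsNorm K L)).map (unitsIncl K L) := by
  rw [← range_unitsB, MonoidHom.map_range, MonoidHom.map_range, MonoidHom.map_range]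
  congr 1
  ext u : 1
  exact unitsB_Nm σ hσ β hβ ϖ hϖ c hc u

theorem map_unitsB_Nm_ker :
    (ctData σ hσ β hβ ϖ hϖ c hc).Nm.ker.map (unitsB B L) = (unitsNorm K L).ker := by
  ext x
  rw [Subgroup.mem_map]
  constructor
  · rintro ⟨u, hu, rfl⟩
    have hu' : (ctData σ hσ β hβ ϖ hϖ c hc).Nm u = 1 := hu
    have := unitsB_Nm σ hσ β hβ ϖ hϖ c hc u
    rw [hu', map_one] at this
    rw [MonoidHom.mem_ker]
    apply unitsIncl_injective (K := K) (L := L)
    rw [← this, map_one]
  · intro hx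
    obtain ⟨u, rfl⟩ := ker_unitsNorm_le (A := A) (B := B) hx
    refine ⟨u, ?_, rfl⟩
    rw [MonoidHom.mem_ker]
    apply unitsB_injective (B := B) (L := L)
    rw [unitsB_Nm, map_one]
    have hx' : unitsNorm K L (unitsB B L u) = 1 := hx
    rw [hx', map_one]

theorem map_unitsB_Dl_ker :
    (ctData σ hσ β hβ ϖ hϖ c hc).Dl.ker.map (unitsB B L) =
      (unitGroup A K).map (unitsIncl K L) := by
  have hfin : Module.Finite A B := IsIntegralClosure.finite A K L B
  have hfaith : FaithfulSMul A B :=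
    (faithfulSMul_iff_algebraMap_injective A B).2 (algebraMap_AB_injective (K := K) (L := L))
  ext x
  rw [Subgroup.mem_map, Subgroup.mem_map]
  constructor
  · rintro ⟨u, hu, rfl⟩
    have hu' : (ctData σ hσ β hβ ϖ hϖ c hc).Dl u = 1 := hu
    have h1 := unitsB_Dl σ hσ β hβ ϖ hϖ c hc u
    rw [hu', map_one] at h1
    have h2 : unitsB B L u ∈ (DL σ).ker := h1.symm
    rw [ker_DL σ hσ] at h2
    obtain ⟨y, hy⟩ := h2
    refine ⟨y, ?_, hy⟩
    rw [mem_unitGroup_iff]
    have h3 : ordZ B L (unitsB B L u) = 0 := ordZ_algebraMap_unit u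
    rw [← hy, ordZ_unitsIncl (A := A)] at h3
    have hpos : (0 : ℤ) < ramIdx A K B L := by exact_mod_cast ramIdx_pos A K B L
    rcases mul_eq_zero.1 h3 with h | h
    · omega
    · exact h
  · rintro ⟨y, ⟨a, rfl⟩, rfl⟩
    refine ⟨Units.map (algebraMap A B : A →* B) a, ?_, (unitsIncl_map_unit a).symm⟩
    rw [MonoidHom.mem_ker, CTData.Dl_apply, div_eq_one]
    ext
    simp only [CTData.coe_sU, Units.coe_map, MonoidHom.coe_coe]
    exact galB_algebraMap A σ (a : A)

include hσ in
/-- `[Lˣ : Kˣ U_L] = e` -/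
theorem index_unitGroup_sup_range_unitsIncl [Module.Finite A B] [FaithfulSMul A B] :
    (unitGroup B L ⊔ (unitsIncl K L).range).index = ramIdx A K B L := by
  rw [sup_comm, unitGroup, ← ker_ord]
  apply index_sup_ker_eq (ord B L) (ord_surjective B L)
  intro k
  constructor
  · rintro ⟨_, ⟨x, rfl⟩, rfl⟩
    exact ⟨ordZ A K x, ordZ_unitsIncl (A := A) x⟩
  · rintro ⟨m, rfl⟩
    obtain ⟨x, rfl⟩ := ordZ_surjective A K m
    exact ⟨_, ⟨x, rfl⟩, ordZ_unitsIncl (A := A) x⟩

end AKLB

section Main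

variable (A K L B : Type*) [CommRing A] [IsDomain A] [IsLocalInt A]
  [CommRing B] [IsDomain B] [IsLocalInt B] [Algebra A B] [Field K] [Field L]
  [Algebra A K] [IsFractionRing A K] [Algebra K L] [Algebra A L] [IsScalarTower A K L]
  [Algebra B L] [IsFractionRing B L] [IsScalarTower A B L] [IsIntegralClosure B A L]
  [FiniteDimensional K L] [IsGalois K L]

/-- **`h(U_L) = 1`** for a cyclic extension of local fields, in the form `[U_K : N U_L] = e`. -/
theorem relIndex_map_unitsNorm_unitGroup_of_isCyclic [IsCyclic (L ≃ₐ[K] L)] :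
    ((unitGroup B L).map (unitsNorm K L)).relIndex (unitGroup A K) = ramIdx A K B L := by
  have hfin : Module.Finite A B := IsIntegralClosure.finite A K L B
  have hfaith : FaithfulSMul A B :=
    (faithfulSMul_iff_algebraMap_injective A B).2 (algebraMap_AB_injective (K := K) (L := L))
  obtain ⟨σ, hσ⟩ := IsCyclic.exists_generator (α := L ≃ₐ[K] L)
  obtain ⟨ϖ, hϖ⟩ := IsDiscreteValuationRing.exists_irreducible A
  obtain ⟨β, hβ⟩ := exists_isNormalGen (A := A) (B := B) hσ
  obtain ⟨c, hc⟩ := exists_forall_pow_smul_mem_lattice hσ hβ hϖ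
  have key := relIndex_Nm_range_eq σ hσ β hβ ϖ hϖ c hc
  have hιinj := unitsB_injective (B := B) (L := L)
  rw [← Subgroup.relIndex_map_map_of_injective _ _ hιinj,
    ← Subgroup.relIndex_map_map_of_injective (ctData σ hσ β hβ ϖ hϖ c hc).Dl.range _ hιinj,
    map_unitsB_Nm_range, map_unitsB_Dl_ker, map_unitsB_Dl_range, map_unitsB_Nm_ker,
    Subgroup.relIndex_map_map_of_injective _ _ (unitsIncl_injective K L)] at key
  rw [key, ← range_DL σ hσ, MonoidHom.range_eq_map, Subgroup.relIndex_map_map, top_sup_eq,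
    Subgroup.relIndex_top_right, ker_DL σ hσ]
  exact index_unitGroup_sup_range_unitsIncl σ hσ

/-- the ramification index divides the degree -/
theorem ramIdx_dvd_finrank : ramIdx A K B L ∣ finrank K L := by
  have hfin : Module.Finite A B := IsIntegralClosure.finite A K L B
  have hfaith : FaithfulSMul A B :=
    (faithfulSMul_iff_algebraMap_injective A B).2 (algebraMap_AB_injective (K := K) (L := L))
  obtain ⟨x, hx⟩ := ordZ_surjective B L 1
  have h1 := ramIdx_mul_ordZ_unitsNorm (A := A) (K := K) (B := B) x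
  rw [hx, mul_one] at h1
  have : (ramIdx A K B L : ℤ) ∣ (finrank K L : ℤ) := ⟨_, h1.symm⟩
  exact_mod_cast this

/-- `ord_K (N x) = (n / e) ord_L x` -/
theorem ordZ_unitsNorm (x : Lˣ) :
    ordZ A K (unitsNorm K L x) = (finrank K L / ramIdx A K B L : ℕ) * ordZ B L x := by
  have hfin : Module.Finite A B := IsIntegralClosure.finite A K L B
  have hfaith : FaithfulSMul A B :=
    (faithfulSMul_iff_algebraMap_injective A B).2 (algebraMap_AB_injective (K := K) (L := L))
  have h1 := ramIdx_mul_ordZ_unitsNorm (A := A) (K := K) (B := B) x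
  obtain ⟨f, hf⟩ := ramIdx_dvd_finrank A K L B
  have hpos : 0 < ramIdx A K B L := ramIdx_pos A K B L
  rw [hf, Nat.mul_div_cancel_left _ hpos]
  rw [hf] at h1
  push_cast at h1
  have hpos' : (ramIdx A K B L : ℤ) ≠ 0 := by exact_mod_cast hpos.ne'
  apply mul_left_cancel₀ hpos'
  rw [h1]
  ring

include A B in
/-- **The local norm index**: `[Kˣ : N Lˣ] = [L : K]` for a cyclic extension of local fields. -/
theorem index_range_unitsNorm_of_isCyclic [IsCyclic (L ≃ₐ[K] L)] :
    (unitsNorm K L).range.index = finrank K L := by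
  have hfin : Module.Finite A B := IsIntegralClosure.finite A K L B
  have hfaith : FaithfulSMul A B :=
    (faithfulSMul_iff_algebraMap_injective A B).2 (algebraMap_AB_injective (K := K) (L := L))
  obtain ⟨f, hf⟩ := ramIdx_dvd_finrank A K L B
  have hpos : 0 < ramIdx A K B L := ramIdx_pos A K B L
  have hnpos : 0 < finrank K L := finrank_pos
  have hfpos : 0 < f := by
    rcases Nat.eq_zero_or_pos f with h | h
    · rw [h, mul_zero] at hf; omega
    · exact h
  have hdiv : finrank K L / ramIdx A K B L = f := by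
    rw [hf, Nat.mul_div_cancel_left _ hpos]
  have hord : ∀ x : Lˣ, ordZ A K (unitsNorm K L x) = f * ordZ B L x := by
    intro x
    rw [ordZ_unitsNorm A K L B, hdiv]
  have L1 := relIndex_eq_map_mul_ker (ord A K) (le_top : (unitsNorm K L).range ≤ ⊤)
  rw [Subgroup.relIndex_top_right, ← MonoidHom.range_eq_map (ord A K),
    MonoidHom.range_eq_top.2 (ord_surjective A K), Subgroup.relIndex_top_right, top_inf_eq,
    ker_ord] at L1
  -- the first factor
  have F1 : ((unitsNorm K L).range.map (ord A K)).index = f := by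
    have h1 := Subgroup.index_map (unitsNorm K L).range (ord A K)
    rw [MonoidHom.range_eq_top.2 (ord_surjective A K), Subgroup.index_top, mul_one] at h1
    rw [h1]
    apply index_sup_ker_eq (ord A K) (ord_surjective A K)
    intro k
    constructor
    · rintro ⟨_, ⟨x, rfl⟩, rfl⟩
      exact ⟨ordZ B L x, hord x⟩
    · rintro ⟨m, rfl⟩
      obtain ⟨x, rfl⟩ := ordZ_surjective B L m
      exact ⟨_, ⟨x, rfl⟩, hord x⟩
  -- the second factor
  have F2 : (unitsNorm K L).range ⊓ (Units.map (algebraMap A K : A →* K)).range =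
      (unitGroup B L).map (unitsNorm K L) := by
    ext y
    constructor
    · rintro ⟨⟨x, rfl⟩, hy⟩
      refine ⟨x, ?_, rfl⟩
      have h0 : ordZ A K (unitsNorm K L x) = 0 := (mem_unitGroup_iff _).1 hy
      rw [hord] at h0
      apply (mem_unitGroup_iff x).2
      rcases mul_eq_zero.1 h0 with h | h
      · have : (f : ℤ) ≠ 0 := by exact_mod_cast hfpos.ne'
        exact absurd h this
      · exact h
    · rintro ⟨x, hx, rfl⟩
      refine ⟨⟨x, rfl⟩, ?_⟩
      change unitsNorm K L x ∈ unitGroup A K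
      rw [mem_unitGroup_iff, hord, (mem_unitGroup_iff x).1 hx, mul_zero]
  rw [L1, F1, F2]
  change f * ((unitGroup B L).map (unitsNorm K L)).relIndex (unitGroup A K) = _
  rw [relIndex_map_unitsNorm_unitGroup_of_isCyclic A K L B, hf, mul_comm]

end Main

end Fermat.Agent.CFT.Local
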