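/-
P4 / Layer B: ramification index and residue degree of an extension of local fields: `e f = n`,
unramified extensions are cyclic.
-/
import Fermat.Agent.Lib.CFT.Local.NormIndex

set_option autoImplicit false
set_option linter.unusedSectionVars false
set_option linter.style.haveILetI false

namespace Fermat.Agent.CFT.Local

open Finset Module IsLocalRing

section AKLB

variable (A K L B : Type*) [CommRing A] [IsDomain A] [IsLocalInt A]
  [CommRing B] [IsDomain B] [IsLocalInt B] [Algebra A B] [Field K] [Field L]
  [Algebra A K] [IsFractionRing A K] [Algebra K L] [Algebra A L] [IsScalarTower A K L]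
  [Algebra B L] [IsFractionRing B L] [IsScalarTower A B L] [IsIntegralClosure B A L]
  [FiniteDimensional K L] [Algebra.IsSeparable K L]

include K L in
theorem algebraMap_AB_injective' : Function.Injective (algebraMap A B) := by
  have h1 : Function.Injective (algebraMap A L) := by
    rw [IsScalarTower.algebraMap_eq A K L]
    exact (algebraMap K L).injective.comp (IsFractionRing.injective A K)
  rw [IsScalarTower.algebraMap_eq A B L] at h1
  exact Function.Injective.of_comp h1

include K L in
theorem finite_AB : Module.Finite A B := IsIntegralClosure.finite A K L B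

include K L in
theorem faithfulSMul_AB : FaithfulSMul A B :=
  (faithfulSMul_iff_algebraMap_injective A B).2 (algebraMap_AB_injective' A K L B)

include K L in
theorem isLocalHom_AB : IsLocalHom (algebraMap A B) := by
  have := finite_AB A K L B
  have := faithfulSMul_AB A K L B
  infer_instance

include K L in
theorem liesOver_maximalIdeal : (maximalIdeal B).LiesOver (maximalIdeal A) := by
  have := isLocalHom_AB A K L B
  constructor
  ext a
  rw [Ideal.under_def, Ideal.mem_comap, mem_maximalIdeal, mem_maximalIdeal, mem_nonunits_iff,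
    mem_nonunits_iff, not_iff_not]
  exact ⟨fun h => h.map _, fun h => IsLocalHom.map_nonunit (f := algebraMap A B) a h⟩

/-- `𝔪_A B = 𝔪_B ^ e` -/
theorem map_maximalIdeal_eq_pow :
    (maximalIdeal A).map (algebraMap A B) = maximalIdeal B ^ ramIdx A K B L := by
  have := finite_AB A K L B
  have := faithfulSMul_AB A K L B
  obtain ⟨ϖ, π, hϖ, hπ⟩ := exists_uniformizer A K
  obtain ⟨ϖ', hϖ'⟩ := IsDiscreteValuationRing.exists_irreducible B
  have h0 : algebraMap A B ϖ ≠ 0 := by
    rw [Ne, FaithfulSMul.algebraMap_eq_zero_iff]
    exact hϖ.ne_zero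
  obtain ⟨m, u, hu⟩ := IsDiscreteValuationRing.eq_unit_mul_pow_irreducible h0 hϖ'
  have h1 := ordZ_unitsIncl_irreducible (B := B) (L := L) hϖ π hπ
  have hL0 : algebraMap B L ϖ' ≠ 0 := by
    rw [Ne, FaithfulSMul.algebraMap_eq_zero_iff]
    exact hϖ'.ne_zero
  have h2 : unitsIncl K L π =
      (Units.mk0 _ hL0) ^ (m : ℤ) * Units.map (algebraMap B L : B →* L) u := by
    ext
    rw [coe_unitsIncl, hπ, ← IsScalarTower.algebraMap_apply, IsScalarTower.algebraMap_apply A B L,
      hu]
    simp [mul_comm]
  rw [h2, ordZ_zpow_mul hϖ' _ rfl] at h1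
  have hm : m = ramIdx A K B L := by exact_mod_cast h1
  rw [hϖ.maximalIdeal_eq, Ideal.map_span, Set.image_singleton, hu, hϖ'.maximalIdeal_eq,
    Ideal.span_singleton_pow, ← hm]
  exact Ideal.span_singleton_eq_span_singleton.2 (associated_unit_mul_left _ _ u.isUnit)

/-- Mathlib's ramification index is `ramIdx` -/
theorem ramificationIdx_eq_ramIdx : (maximalIdeal B).ramificationIdx A = ramIdx A K B L := by
  have := liesOver_maximalIdeal A K L B
  have := finite_AB A K L B
  have := faithfulSMul_AB A K L B
  have hne : (maximalIdeal A).map (algebraMap A B) ≠ ⊥ := by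
    rw [Ne, Ideal.map_eq_bot_iff_of_injective (algebraMap_AB_injective' A K L B)]
    exact IsDiscreteValuationRing.not_a_field A
  rw [Ideal.IsDedekindDomain.ramificationIdx_eq_multiplicity (maximalIdeal A) (maximalIdeal B) hne,
    map_maximalIdeal_eq_pow A K L B]
  apply multiplicity_pow_self
  · exact IsDiscreteValuationRing.not_a_field B
  · rw [Ideal.isUnit_iff]
    exact (maximalIdeal.isMaximal B).ne_top

/-- **`e f = n`** -/
theorem ramIdx_mul_inertiaDeg :
    ramIdx A K B L * (maximalIdeal B).inertiaDeg A = finrank K L := by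
  have := liesOver_maximalIdeal A K L B
  have := finite_AB A K L B
  have := faithfulSMul_AB A K L B
  have hAL : Module.IsTorsionFree A L := by
    have : FaithfulSMul A L := (faithfulSMul_iff_algebraMap_injective A L).2 (by
      rw [IsScalarTower.algebraMap_eq A K L]
      exact (algebraMap K L).injective.comp (IsFractionRing.injective A K))
    infer_instance
  -- the unique prime over the maximal ideal
  have huniq : ∀ q : (maximalIdeal A).primesOver B, q = ⟨maximalIdeal B,
      ⟨inferInstance, inferInstance⟩⟩ := by
    rintro ⟨q, hq1, hq2⟩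
    apply Subtype.ext
    change q = maximalIdeal B
    have hq0 : q ≠ ⊥ := by
      rintro rfl
      have h1 := hq2.over
      rw [Ideal.under_def, Ideal.comap_bot_of_injective _ (algebraMap_AB_injective' A K L B)] at h1
      exact IsDiscreteValuationRing.not_a_field A h1
    exact (IsLocalRing.eq_maximalIdeal (hq1.isMaximal hq0))
  letI : Unique ((maximalIdeal A).primesOver B) :=
    { default := ⟨maximalIdeal B, ⟨inferInstance, inferInstance⟩⟩
      uniq := huniq }
  have h := Ideal.sum_ramification_inertia_eq_finrank (maximalIdeal A) B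
  rw [Fintype.sum_unique, IsIntegralClosure.rank A K L B] at h
  rw [← h, ← ramificationIdx_eq_ramIdx A K L B]
  rfl

end AKLB

end Fermat.Agent.CFT.Local

namespace Fermat.Agent.CFT.Local

open Finset Module IsLocalRing

open scoped Pointwise

section Galois

variable (A K L B : Type*) [CommRing A] [IsDomain A] [IsLocalInt A]
  [CommRing B] [IsDomain B] [IsLocalInt B] [Algebra A B] [Field K] [Field L]
  [Algebra A K] [IsFractionRing A K] [Algebra K L] [Algebra A L] [IsScalarTower A K L]
  [Algebra B L] [IsFractionRing B L] [IsScalarTower A B L] [IsIntegralClosure B A L]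
  [FiniteDimensional K L] [IsGalois K L]

/-- the Galois group maps onto the automorphism group of the residue field extension -/
theorem exists_residue_hom_surjective :
    haveI := liesOver_maximalIdeal A K L B
    ∃ φ : (L ≃ₐ[K] L) →* ((B ⧸ maximalIdeal B) ≃ₐ[A ⧸ maximalIdeal A] (B ⧸ maximalIdeal B)),
      Function.Surjective φ := by
  haveI := liesOver_maximalIdeal A K L B
  letI := IsIntegralClosure.MulSemiringAction A K L B
  haveI hinv : Algebra.IsInvariant A B (L ≃ₐ[K] L) := Algebra.isInvariant_of_isGalois A K L B
  haveI hcomm : SMulCommClass (L ≃ₐ[K] L) A B := ⟨fun g a b => by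
    change galRestrict A K L B g (a • b) = a • galRestrict A K L B g b
    exact map_smul _ a b⟩
  have hstab : ∀ g : L ≃ₐ[K] L, g ∈ MulAction.stabilizer (L ≃ₐ[K] L) (maximalIdeal B) := by
    intro g
    rw [MulAction.mem_stabilizer_iff]
    have hmax : (g • maximalIdeal B).IsMaximal := by
      change (Ideal.map (MulSemiringAction.toRingEquiv (L ≃ₐ[K] L) B g) (maximalIdeal B)).IsMaximal
      exact Ideal.map_isMaximal_of_equiv _
    exact IsLocalRing.eq_maximalIdeal hmax
  let ι : (L ≃ₐ[K] L) →* MulAction.stabilizer (L ≃ₐ[K] L) (maximalIdeal B) :=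
    { toFun := fun g => ⟨g, hstab g⟩
      map_one' := rfl
      map_mul' := fun _ _ => rfl }
  refine ⟨(Ideal.Quotient.stabilizerHom (maximalIdeal B) (maximalIdeal A) (L ≃ₐ[K] L)).comp ι, ?_⟩
  intro τ
  obtain ⟨g, hg⟩ := Ideal.Quotient.stabilizerHom_surjective (L ≃ₐ[K] L) (maximalIdeal A)
    (maximalIdeal B) τ
  exact ⟨g.1, hg⟩

/-- **Unramified extensions of local fields are cyclic.** -/
theorem isCyclic_of_ramIdx_eq_one (h : ramIdx A K B L = 1) : IsCyclic (L ≃ₐ[K] L) := by
  haveI := liesOver_maximalIdeal A K L B
  obtain ⟨φ, hφ⟩ := exists_residue_hom_surjective A K L B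
  letI : Field (A ⧸ maximalIdeal A) := Ideal.Quotient.field _
  letI : Field (B ⧸ maximalIdeal B) := Ideal.Quotient.field _
  haveI : Finite (B ⧸ maximalIdeal B) := (inferInstance : Finite (ResidueField B))
  have hef := ramIdx_mul_inertiaDeg A K L B
  rw [h, one_mul, Ideal.inertiaDeg_eq_of_isMaximal (maximalIdeal A) (maximalIdeal B)] at hef
  have hcard : Nat.card ((B ⧸ maximalIdeal B) ≃ₐ[A ⧸ maximalIdeal A] (B ⧸ maximalIdeal B)) =
      Nat.card (L ≃ₐ[K] L) := by
    rw [IsGalois.card_aut_eq_finrank, IsGalois.card_aut_eq_finrank, hef]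
  have hbij : Function.Bijective φ := by
    rw [Nat.bijective_iff_surjective_and_card]
    exact ⟨hφ, hcard.symm⟩
  let e := MulEquiv.ofBijective φ hbij
  exact isCyclic_of_surjective e.symm e.symm.surjective

end Galois

end Fermat.Agent.CFT.Local
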