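/-
P4 / Layer B: finite extensions of `ℚ_q` as abstract types.

`M` is a field with `[Algebra ℚ_[q] M] [FiniteDimensional ℚ_[q] M] [Algebra ℤ_[q] M]
[IsScalarTower ℤ_[q] ℚ_[q] M]`.  Its ring of integers is `OInt q M = integralClosure ℤ_[q] M`,
a complete discrete valuation ring with finite residue field; `ordM`, `ordMZ` are the normalized
valuation.  For a tower `M₁ → M₂` we provide (as local instances) the `AKLB` set-up
`(OInt q M₁, M₁, M₂, OInt q M₂)` needed to apply the general lemmas of this directory.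
-/
import Fermat.Agent.Lib.CFT.Local.Ramification

set_option autoImplicit false
set_option linter.unusedSectionVars false
set_option linter.style.haveILetI false
set_option linter.unusedVariables false

open IsLocalRing

namespace Fermat.Agent.CFT.Local

section AKLB

open Module

variable (A K L B : Type*) [CommRing A] [IsDomain A] [IsLocalInt A]
  [CommRing B] [IsDomain B] [IsLocalInt B] [Algebra A B] [Field K] [Field L]
  [Algebra A K] [IsFractionRing A K] [Algebra K L] [Algebra A L] [IsScalarTower A K L]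
  [Algebra B L] [IsFractionRing B L] [IsScalarTower A B L] [IsIntegralClosure B A L]
  [FiniteDimensional K L] [Algebra.IsSeparable K L]

set_option synthInstance.maxHeartbeats 200000 in
include K L in
/-- `|k_B| = |k_A|^f` -/
theorem card_quot_maximalIdeal_eq_pow :
    Nat.card (B ⧸ maximalIdeal B) =
      Nat.card (A ⧸ maximalIdeal A) ^ (maximalIdeal B).inertiaDeg A := by
  haveI hlies := liesOver_maximalIdeal A K L B
  letI : Field (A ⧸ maximalIdeal A) := Ideal.Quotient.field _
  letI : Field (B ⧸ maximalIdeal B) := Ideal.Quotient.field _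
  haveI : Finite (B ⧸ maximalIdeal B) := (inferInstance : Finite (ResidueField B))
  haveI : Finite (A ⧸ maximalIdeal A) := (inferInstance : Finite (ResidueField A))
  rw [Ideal.inertiaDeg_eq_of_isMaximal (maximalIdeal A) (maximalIdeal B)]
  haveI : Module.Free (A ⧸ maximalIdeal A) (B ⧸ maximalIdeal B) :=
    Module.Free.of_divisionRing _ _
  haveI : Module.Finite (A ⧸ maximalIdeal A) (B ⧸ maximalIdeal B) := Module.Finite.of_finite
  exact Module.natCard_eq_pow_finrank (K := A ⧸ maximalIdeal A) (V := B ⧸ maximalIdeal B)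

end AKLB

noncomputable section

variable (q : ℕ) [Fact q.Prime]

section Basic

variable (M : Type) [Field M] [Algebra ℚ_[q] M] [FiniteDimensional ℚ_[q] M] [Algebra ℤ_[q] M]
  [IsScalarTower ℤ_[q] ℚ_[q] M]

/-- the ring of integers of a finite extension of `ℚ_q` -/
abbrev OInt : Subalgebra ℤ_[q] M := integralClosure ℤ_[q] M

instance instIsLocalIntOInt : IsLocalInt (OInt q M) :=
  IsLocalInt.of_isIntegralClosure ℤ_[q] ℚ_[q] M (OInt q M)

instance instIsFractionRingOInt : IsFractionRing (OInt q M) M :=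
  integralClosure.isFractionRing_of_finite_extension ℚ_[q] M

/-- the normalized valuation `Mˣ → ℤ` (multiplicative notation) -/
abbrev ordM : Mˣ →* Multiplicative ℤ := ord (OInt q M) M

/-- the normalized valuation `Mˣ → ℤ` -/
abbrev ordMZ (x : Mˣ) : ℤ := ordZ (OInt q M) M x

/-- the group of units of the ring of integers, inside `Mˣ` -/
abbrev unitsM : Subgroup Mˣ := unitGroup (OInt q M) M

/-- the residue field -/
abbrev resM : Type := ResidueField (OInt q M)

theorem mem_OInt_iff (x : M) : x ∈ OInt q M ↔ IsIntegral ℤ_[q] x := Iff.rfl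

end Basic

section Tower

variable (M₁ M₂ : Type) [Field M₁] [Algebra ℚ_[q] M₁] [FiniteDimensional ℚ_[q] M₁]
  [Algebra ℤ_[q] M₁] [IsScalarTower ℤ_[q] ℚ_[q] M₁]
  [Field M₂] [Algebra ℚ_[q] M₂] [FiniteDimensional ℚ_[q] M₂]
  [Algebra ℤ_[q] M₂] [IsScalarTower ℤ_[q] ℚ_[q] M₂]
  [Algebra M₁ M₂] [IsScalarTower ℚ_[q] M₁ M₂]

/-- `ℤ_q → M₁ → M₂` is a tower -/
theorem isScalarTower_int : IsScalarTower ℤ_[q] M₁ M₂ :=
  IsScalarTower.of_algebraMap_eq fun x => by
    rw [IsScalarTower.algebraMap_apply ℤ_[q] ℚ_[q] M₂, IsScalarTower.algebraMap_apply ℤ_[q] ℚ_[q] M₁,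
      ← IsScalarTower.algebraMap_apply ℚ_[q] M₁ M₂]

theorem algebraMap_mem_OInt (x : OInt q M₁) : algebraMap M₁ M₂ (x : M₁) ∈ OInt q M₂ := by
  haveI := isScalarTower_int q M₁ M₂
  exact IsIntegral.map (IsScalarTower.toAlgHom ℤ_[q] M₁ M₂) x.2

/-- the ring homomorphism `O_{M₁} → O_{M₂}` -/
def oIntMap : OInt q M₁ →+* OInt q M₂ where
  toFun x := ⟨algebraMap M₁ M₂ (x : M₁), algebraMap_mem_OInt q M₁ M₂ x⟩
  map_one' := by ext; simp
  map_mul' x y := by ext; simp
  map_zero' := by ext; simp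
  map_add' x y := by ext; simp

/-- `O_{M₂}` as an algebra over `O_{M₁}` (a local instance) -/
abbrev algOInt : Algebra (OInt q M₁) (OInt q M₂) := (oIntMap q M₁ M₂).toAlgebra

attribute [local instance] algOInt

theorem algebraMap_oInt_apply (x : OInt q M₁) :
    ((algebraMap (OInt q M₁) (OInt q M₂) x : OInt q M₂) : M₂) = algebraMap M₁ M₂ (x : M₁) := rfl

theorem isScalarTower_oInt : IsScalarTower (OInt q M₁) (OInt q M₂) M₂ :=
  IsScalarTower.of_algebraMap_eq fun x => rfl

theorem isScalarTower_oInt' : IsScalarTower (OInt q M₁) M₁ M₂ := inferInstance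

theorem isIntegralClosure_oInt : IsIntegralClosure (OInt q M₂) (OInt q M₁) M₂ := by
  haveI := isScalarTower_int q M₁ M₂
  haveI : IsScalarTower ℤ_[q] (OInt q M₁) M₂ :=
    IsScalarTower.of_algebraMap_eq fun x => by
      rw [IsScalarTower.algebraMap_apply ℤ_[q] M₁ M₂]
      rfl
  haveI : Algebra.IsIntegral ℤ_[q] (OInt q M₁) := inferInstance
  exact IsIntegralClosure.tower_top (R := ℤ_[q]) (A := OInt q M₁) (B := M₂) (C := OInt q M₂)

include q in
theorem finiteDimensional_tower : FiniteDimensional M₁ M₂ :=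
  FiniteDimensional.right ℚ_[q] M₁ M₂

include q in
theorem charZero_of_qField : CharZero M₁ :=
  charZero_of_injective_algebraMap (algebraMap ℚ_[q] M₁).injective

include q in
theorem isSeparable_tower : Algebra.IsSeparable M₁ M₂ := by
  haveI := charZero_of_qField q M₁
  haveI := finiteDimensional_tower q M₁ M₂
  infer_instance

/-- the ramification index of `M₂ / M₁` -/
def relRamIdx : ℕ :=
  haveI := isScalarTower_oInt q M₁ M₂
  ramIdx (OInt q M₁) M₁ (OInt q M₂) M₂

/-- the residue degree of `M₂ / M₁` -/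
def relInertia : ℕ := (maximalIdeal (OInt q M₂)).inertiaDeg (OInt q M₁)

theorem relRamIdx_pos : 0 < relRamIdx q M₁ M₂ := by
  haveI := isScalarTower_oInt q M₁ M₂
  haveI := isIntegralClosure_oInt q M₁ M₂
  haveI := finiteDimensional_tower q M₁ M₂
  haveI := isSeparable_tower q M₁ M₂
  haveI := finite_AB (OInt q M₁) M₁ M₂ (OInt q M₂)
  haveI := faithfulSMul_AB (OInt q M₁) M₁ M₂ (OInt q M₂)
  exact ramIdx_pos (OInt q M₁) M₁ (OInt q M₂) M₂

/-- `e f = n` -/
theorem relRamIdx_mul_relInertia :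
    relRamIdx q M₁ M₂ * relInertia q M₁ M₂ = Module.finrank M₁ M₂ := by
  haveI := isScalarTower_oInt q M₁ M₂
  haveI := isIntegralClosure_oInt q M₁ M₂
  haveI := finiteDimensional_tower q M₁ M₂
  haveI := isSeparable_tower q M₁ M₂
  exact ramIdx_mul_inertiaDeg (OInt q M₁) M₁ M₂ (OInt q M₂)

/-- `ord_{M₂} = e · ord_{M₁}` on `M₁` -/
theorem ordMZ_map (x : M₁ˣ) :
    ordMZ q M₂ (Units.map (algebraMap M₁ M₂ : M₁ →* M₂) x) = relRamIdx q M₁ M₂ * ordMZ q M₁ x := by
  haveI := isScalarTower_oInt q M₁ M₂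
  haveI := isIntegralClosure_oInt q M₁ M₂
  haveI := finiteDimensional_tower q M₁ M₂
  haveI := isSeparable_tower q M₁ M₂
  haveI := finite_AB (OInt q M₁) M₁ M₂ (OInt q M₂)
  haveI := faithfulSMul_AB (OInt q M₁) M₁ M₂ (OInt q M₂)
  exact ordZ_unitsIncl (A := OInt q M₁) (K := M₁) (B := OInt q M₂) (L := M₂) x

/-- `|k_{M₂}| = |k_{M₁}|^f` -/
theorem card_resM_eq_pow :
    Nat.card (resM q M₂) = Nat.card (resM q M₁) ^ relInertia q M₁ M₂ := by
  haveI := isScalarTower_oInt q M₁ M₂
  haveI := isIntegralClosure_oInt q M₁ M₂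
  haveI := finiteDimensional_tower q M₁ M₂
  haveI := isSeparable_tower q M₁ M₂
  exact card_quot_maximalIdeal_eq_pow (OInt q M₁) M₁ M₂ (OInt q M₂)

end Tower

end

end Fermat.Agent.CFT.Local
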