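/-
P4 / Layer B: norms in unramified extensions of local fields: every unit is the norm of a unit,
the norm group is `{x : n ∣ ord x}`, and the units have trivial `H¹`.
-/
import Fermat.Agent.Lib.CFT.Local.Ramification

set_option autoImplicit false
set_option linter.unusedSectionVars false
set_option linter.style.haveILetI false

namespace Fermat.Agent.CFT.Local

open Finset Module IsLocalRing

section AKLB

variable (A K L B : Type*) [CommRing A] [IsDomain A] [IsLocalInt A]
  [CommRing B] [IsDomain B] [IsLocalInt B] [Algebra A B] [Field K] [Field L]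
  [Algebra A K] [IsFractionRing A K] [Algebra K L] [Algebra A L] [IsScalarTower A K L]
  [Algebra B L] [IsFractionRing B L] [IsScalarTower A B L] [IsIntegralClosure B A L]
  [FiniteDimensional K L] [IsGalois K L]

/-- in an unramified extension every unit is the norm of a unit -/
theorem unitGroup_le_map_unitsNorm_of_ramIdx_eq_one (h : ramIdx A K B L = 1) :
    unitGroup A K ≤ (unitGroup B L).map (unitsNorm K L) := by
  haveI := isCyclic_of_ramIdx_eq_one A K L B h
  have h1 := relIndex_map_unitsNorm_unitGroup_of_isCyclic A K L B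
  rw [h, Subgroup.relIndex_eq_one] at h1
  exact h1

/-- the norm group of an unramified extension of degree `n` is `{x : n ∣ ord x}` -/
theorem mem_range_unitsNorm_iff_of_ramIdx_eq_one (h : ramIdx A K B L = 1) (x : Kˣ) :
    x ∈ (unitsNorm K L).range ↔ (finrank K L : ℤ) ∣ ordZ A K x := by
  have hfin := finite_AB A K L B
  have hfaith := faithfulSMul_AB A K L B
  have hord : ∀ y : Lˣ, ordZ A K (unitsNorm K L y) = finrank K L * ordZ B L y := by
    intro y
    rw [ordZ_unitsNorm A K L B, h, Nat.div_one]
  constructor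
  · rintro ⟨y, rfl⟩
    exact ⟨_, hord y⟩
  · rintro ⟨m, hm⟩
    -- `x = N(π^m) · u`, `u` a unit, and `u` is a norm
    obtain ⟨ϖ, π, hϖ, hπ⟩ := exists_uniformizer A K
    have hπL : ordZ B L (unitsIncl K L π) = 1 := by
      rw [ordZ_unitsIncl (A := A), h, ordZ_irreducible hϖ π hπ]
      simp
    set y : Lˣ := (unitsIncl K L π) ^ m with hy
    have hy1 : ordZ A K (unitsNorm K L y) = finrank K L * m := by
      rw [hord, hy, ordZ_zpow, hπL, mul_one]
    have hu : x / unitsNorm K L y ∈ unitGroup A K := by
      rw [mem_unitGroup_iff, ordZ_div, hy1, hm, sub_self]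
    obtain ⟨w, -, hw⟩ := unitGroup_le_map_unitsNorm_of_ramIdx_eq_one A K L B h hu
    refine ⟨w * y, ?_⟩
    rw [map_mul, hw, div_mul_cancel]

/-- `H¹` of the units of an unramified extension vanishes (element form, for a generator) -/
theorem exists_unit_DL_eq_of_ramIdx_eq_one (h : ramIdx A K B L = 1) (σ : L ≃ₐ[K] L)
    (hσ : ∀ τ : L ≃ₐ[K] L, τ ∈ Subgroup.zpowers σ) (u : Lˣ) (hu : u ∈ unitGroup B L)
    (hN : unitsNorm K L u = 1) : ∃ w ∈ unitGroup B L, DL σ w = u := by
  have hfin := finite_AB A K L B
  have hfaith := faithfulSMul_AB A K L B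
  have hu' : u ∈ (DL σ).range := by
    rw [range_DL σ hσ]; exact hN
  obtain ⟨y, rfl⟩ := hu'
  obtain ⟨ϖ, π, hϖ, hπ⟩ := exists_uniformizer A K
  have hπL : ordZ B L (unitsIncl K L π) = 1 := by
    rw [ordZ_unitsIncl (A := A), h, ordZ_irreducible hϖ π hπ]
    simp
  set m := ordZ B L y with hm
  refine ⟨y / (unitsIncl K L π) ^ m, ?_, ?_⟩
  · rw [mem_unitGroup_iff, ordZ_div, ordZ_zpow, hπL, mul_one, hm, sub_self]
  · rw [map_div, map_zpow]
    have : DL σ (unitsIncl K L π) = 1 := by
      have : unitsIncl K L π ∈ (DL σ).ker := by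
        rw [ker_DL σ hσ]; exact ⟨π, rfl⟩
      exact this
    rw [this, one_zpow, div_one]

end AKLB

end Fermat.Agent.CFT.Local
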