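/-
P4 / Layer B: a finite group `G` acting faithfully (by `ℚ_q`-algebra automorphisms) on a finite
extension `M` of `ℚ_q`.  The fixed field `FixedF q M G`, the `AKLB` set-up
`(OInt (FixedF), FixedF, M, OInt M)` and the translation of the basic results of this directory
(norm index, unramified norms) into this language.
-/
import Fermat.Agent.Lib.CFT.Local.QField
import Fermat.Agent.Lib.CFT.Local.UnramifiedNorm

set_option autoImplicit false
set_option linter.unusedSectionVars false
set_option linter.style.haveILetI false
set_option linter.unusedVariables false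

open IsLocalRing

namespace Fermat.Agent.CFT.Local

section FixedU

attribute [local instance] Units.mulDistribMulActionRight

variable (M G : Type) [Field M] [Group G] [MulSemiringAction G M]

/-- the `G`-invariant units of `M` -/
def fixedU : Subgroup Mˣ where
  carrier := {x | ∀ g : G, g • x = x}
  one_mem' g := smul_one g
  mul_mem' {x y} hx hy g := by rw [smul_mul', hx g, hy g]
  inv_mem' {x} hx g := by rw [smul_inv', hx g]

variable {M G} in
theorem mem_fixedU {x : Mˣ} : x ∈ fixedU M G ↔ ∀ g : G, g • x = x := Iff.rfl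

/-- the norm `x ↦ ∏ g, g • x` -/
def normU [Fintype G] : Mˣ →* Mˣ where
  toFun x := ∏ g : G, g • x
  map_one' := by simp
  map_mul' x y := by simp [smul_mul', Finset.prod_mul_distrib]

theorem normU_apply [Fintype G] (x : Mˣ) : normU M G x = ∏ g : G, g • x := rfl

theorem normU_mem_fixedU [Fintype G] (x : Mˣ) : normU M G x ∈ fixedU M G := by
  intro g
  rw [normU_apply, Finset.smul_prod']
  simp_rw [← mul_smul]
  exact Fintype.prod_bijective (fun h => g * h) (Group.mulLeft_bijective g) _ _ (fun _ => rfl)

end FixedU

noncomputable section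

variable (q : ℕ) [Fact q.Prime]
variable (M : Type) [Field M] [Algebra ℚ_[q] M] [FiniteDimensional ℚ_[q] M] [Algebra ℤ_[q] M]
  [IsScalarTower ℤ_[q] ℚ_[q] M]
variable (G : Type) [Group G] [Finite G] [MulSemiringAction G M] [SMulCommClass G ℚ_[q] M]
  [FaithfulSMul G M]

/-- the fixed field of `G`, as an intermediate field of `M / ℚ_q` -/
abbrev FixedF : IntermediateField ℚ_[q] M := FixedPoints.intermediateField G

instance instSMulCommClassFixedF : SMulCommClass G (FixedF q M G) M where
  smul_comm g k m := by
    change g • ((k : M) * m) = (k : M) * g • m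
    rw [smul_mul', k.2 g]

instance instIsGaloisGroupFixedF : IsGaloisGroup G (FixedF q M G) M where
  faithful := inferInstance
  commutes := inferInstance
  isInvariant := ⟨fun x hx => ⟨⟨x, hx⟩, rfl⟩⟩

instance instIsGaloisFixedF : IsGalois (FixedF q M G) M :=
  IsGaloisGroup.isGalois G (FixedF q M G) M

/-- `G ≃ Gal(M / M^G)` -/
def galEquiv : G ≃* (M ≃ₐ[FixedF q M G] M) := IsGaloisGroup.mulEquivAlgEquiv G (FixedF q M G) M

@[simp] theorem galEquiv_apply (g : G) (x : M) : galEquiv q M G g x = g • x := rfl

theorem finrank_fixedF : Module.finrank (FixedF q M G) M = Nat.card G :=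
  (IsGaloisGroup.card_eq_finrank G (FixedF q M G) M).symm

/-- the ramification index of `M / M^G` -/
def ramE : ℕ := relRamIdx q (FixedF q M G) M

/-- the residue degree of `M / M^G` -/
def resF : ℕ := relInertia q (FixedF q M G) M

theorem ramE_mul_resF : ramE q M G * resF q M G = Nat.card G := by
  rw [ramE, resF, relRamIdx_mul_relInertia, finrank_fixedF]

theorem ramE_pos : 0 < ramE q M G := relRamIdx_pos q _ _

instance instSMulCommClassInt : SMulCommClass G ℤ_[q] M where
  smul_comm g a m := by
    rw [Algebra.smul_def, Algebra.smul_def, smul_mul', IsScalarTower.algebraMap_apply ℤ_[q] ℚ_[q] M,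
      smul_algebraMap]

theorem smul_mem_OInt (g : G) {x : M} (hx : x ∈ OInt q M) : g • x ∈ OInt q M :=
  IsIntegral.map (MulSemiringAction.toAlgHom ℤ_[q] M g) hx

/-- `G` acts on the ring of integers -/
instance instMulSemiringActionOInt : MulSemiringAction G (OInt q M) where
  smul g x := ⟨g • (x : M), smul_mem_OInt q M G g x.2⟩
  one_smul x := Subtype.ext (one_smul G (x : M))
  mul_smul g h x := Subtype.ext (mul_smul g h (x : M))
  smul_zero g := Subtype.ext (smul_zero g)
  smul_add g x y := Subtype.ext (smul_add g (x : M) (y : M))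
  smul_one g := Subtype.ext (smul_one g)
  smul_mul g x y := Subtype.ext (smul_mul' g (x : M) (y : M))

@[simp] theorem coe_smul_OInt (g : G) (x : OInt q M) : ((g • x : OInt q M) : M) = g • (x : M) := rfl

attribute [local instance] Units.mulDistribMulActionRight
attribute [local instance] algOInt isScalarTower_oInt isIntegralClosure_oInt

theorem units_smul_eq (g : G) (x : Mˣ) :
    g • x = Units.map ((galEquiv q M G g : M ≃ₐ[FixedF q M G] M) : M →* M) x := by
  ext
  rfl

/-- the valuation is `G`-invariant -/
theorem ordMZ_smul (g : G) (x : Mˣ) : ordMZ q M (g • x) = ordMZ q M x := by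
  rw [units_smul_eq q M G]
  exact ordZ_map_algEquiv (A := OInt q (FixedF q M G)) (K := FixedF q M G) (B := OInt q M) (L := M)
    (galEquiv q M G g) x

theorem ordM_smul (g : G) (x : Mˣ) : ordM q M (g • x) = ordM q M x := by
  have := ordMZ_smul q M G g x
  exact Multiplicative.toAdd.injective this

theorem fixedU_eq_range :
    fixedU M G = (unitsIncl (FixedF q M G) M).range := by
  ext x
  constructor
  · intro hx
    have h1 : ∀ g : G, g • (x : M) = x := fun g => congrArg Units.val (hx g)
    have h2 : ∀ g : G, g • ((x⁻¹ : Mˣ) : M) = (x⁻¹ : Mˣ) := fun g => by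
      have := congrArg Units.val (((fixedU M G).inv_mem hx) g)
      exact this
    refine ⟨⟨⟨x, h1⟩, ⟨(x⁻¹ : Mˣ), h2⟩, Subtype.ext (by simp), Subtype.ext (by simp)⟩, ?_⟩
    ext
    rfl
  · rintro ⟨y, rfl⟩ g
    ext
    exact (y : FixedF q M G).2 g

theorem normU_eq [Fintype G] (x : Mˣ) :
    normU M G x = unitsIncl (FixedF q M G) M (unitsNorm (FixedF q M G) M x) := by
  haveI : Module.Finite (OInt q (FixedF q M G)) (OInt q M) :=
    finite_AB (OInt q (FixedF q M G)) (FixedF q M G) M (OInt q M)
  haveI : FaithfulSMul (OInt q (FixedF q M G)) (OInt q M) :=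
    faithfulSMul_AB (OInt q (FixedF q M G)) (FixedF q M G) M (OInt q M)
  rw [unitsIncl_unitsNorm, normU_apply]
  exact Fintype.prod_bijective (galEquiv q M G) (galEquiv q M G).bijective _ _
    (fun g => units_smul_eq q M G g x)

theorem range_normU [Fintype G] :
    (normU M G).range = (unitsNorm (FixedF q M G) M).range.map (unitsIncl (FixedF q M G) M) := by
  ext y
  constructor
  · rintro ⟨x, rfl⟩
    exact ⟨_, ⟨x, rfl⟩, (normU_eq q M G x).symm⟩
  · rintro ⟨_, ⟨x, rfl⟩, rfl⟩
    exact ⟨x, normU_eq q M G x⟩

include q in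
/-- **local norm index** for a cyclic group action: `[(Mˣ)^G : N Mˣ] = |G|` -/
theorem relIndex_range_normU_of_isCyclic [Fintype G] [IsCyclic G] :
    (normU M G).range.relIndex (fixedU M G) = Nat.card G := by
  haveI : IsCyclic (M ≃ₐ[FixedF q M G] M) :=
    isCyclic_of_surjective (galEquiv q M G) (galEquiv q M G).surjective
  rw [range_normU q M G, fixedU_eq_range q M G, MonoidHom.range_eq_map (unitsIncl _ _),
    Subgroup.relIndex_map_map_of_injective _ _ (unitsIncl_injective (FixedF q M G) M),
    Subgroup.relIndex_top_right,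
    index_range_unitsNorm_of_isCyclic (OInt q (FixedF q M G)) (FixedF q M G) M (OInt q M),
    finrank_fixedF]

end

end Fermat.Agent.CFT.Local
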