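/-
P4 / Layer B: the multiplicative group of a local field as a Galois module.

`unitsRep M G : Rep ℤ G` is `Mˣ` (written additively) with the action of `G`.
* Hilbert 90: `H¹(G, Mˣ) = 0` for a finite group acting faithfully.
-/
import Fermat.Agent.Lib.CFT.Local.GalAction

set_option autoImplicit false
set_option linter.unusedSectionVars false
set_option linter.style.haveILetI false
set_option linter.unusedVariables false

open CategoryTheory groupCohomology

namespace Fermat.Agent.CFT.Local

attribute [local instance] Units.mulDistribMulActionRight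

section Def

variable (M G : Type) [Field M] [Group G] [MulSemiringAction G M]

/-- `Mˣ` as a `ℤ[G]`-module (written additively) -/
def unitsRep : Rep ℤ G := Rep.ofMulDistribMulAction G Mˣ

@[simp] theorem unitsRep_ρ_apply (g : G) (a : Additive Mˣ) :
    (unitsRep M G).ρ g a = Additive.ofMul (g • a.toMul) := rfl

/-- the underlying unit of an element of `unitsRep` -/
def unitsRep.toU (y : unitsRep M G) : Mˣ := Additive.toMul (show Additive Mˣ from y)

/-- a unit, as an element of `unitsRep` -/
def unitsRep.ofU (x : Mˣ) : unitsRep M G := (show Additive Mˣ from Additive.ofMul x)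

@[simp] theorem unitsRep.toU_ofU (x : Mˣ) : unitsRep.toU M G (unitsRep.ofU M G x) = x := rfl
@[simp] theorem unitsRep.ofU_toU (y : unitsRep M G) :
    unitsRep.ofU M G (unitsRep.toU M G y) = y := rfl

@[simp] theorem unitsRep.toU_add (y z : unitsRep M G) :
    unitsRep.toU M G (y + z) = unitsRep.toU M G y * unitsRep.toU M G z := rfl

@[simp] theorem unitsRep.toU_zero : unitsRep.toU M G 0 = 1 := rfl

@[simp] theorem unitsRep.toU_neg (y : unitsRep M G) :
    unitsRep.toU M G (-y) = (unitsRep.toU M G y)⁻¹ := rfl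

@[simp] theorem unitsRep.toU_sub (y z : unitsRep M G) :
    unitsRep.toU M G (y - z) = unitsRep.toU M G y / unitsRep.toU M G z := rfl

@[simp] theorem unitsRep.toU_ρ (g : G) (y : unitsRep M G) :
    unitsRep.toU M G ((unitsRep M G).ρ g y) = g • unitsRep.toU M G y := rfl

@[simp] theorem unitsRep.ofU_mul (x y : Mˣ) :
    unitsRep.ofU M G (x * y) = unitsRep.ofU M G x + unitsRep.ofU M G y := rfl

@[simp] theorem unitsRep.ofU_one : unitsRep.ofU M G 1 = 0 := rfl

@[simp] theorem unitsRep.ofU_inv (x : Mˣ) : unitsRep.ofU M G x⁻¹ = -unitsRep.ofU M G x := rfl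

@[simp] theorem unitsRep.ρ_ofU (g : G) (x : Mˣ) :
    (unitsRep M G).ρ g (unitsRep.ofU M G x) = unitsRep.ofU M G (g • x) := rfl

theorem unitsRep.toU_sum {ι : Type*} (s : Finset ι) (f : ι → unitsRep M G) :
    unitsRep.toU M G (∑ i ∈ s, f i) = ∏ i ∈ s, unitsRep.toU M G (f i) := by
  classical
  induction s using Finset.induction_on with
  | empty => simp
  | insert a s ha ih => rw [Finset.sum_insert ha, Finset.prod_insert ha, toU_add, ih]

theorem unitsRep.toU_injective : Function.Injective (unitsRep.toU M G) := fun _ _ h => h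

theorem unitsRep.ofU_injective : Function.Injective (unitsRep.ofU M G) := fun _ _ h => h

theorem toU_norm_unitsRep [Fintype G] (y : unitsRep M G) :
    unitsRep.toU M G ((unitsRep M G).ρ.norm y) = normU M G (unitsRep.toU M G y) := by
  rw [Representation.norm, LinearMap.sum_apply, normU_apply, unitsRep.toU_sum]
  rfl

theorem mem_invariants_unitsRep (y : unitsRep M G) :
    y ∈ (unitsRep M G).ρ.invariants ↔ unitsRep.toU M G y ∈ fixedU M G := by
  rw [Representation.mem_invariants, mem_fixedU]
  rfl

end Def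

section H90

variable (q : ℕ) [Fact q.Prime]
variable (M : Type) [Field M] [Algebra ℚ_[q] M] [FiniteDimensional ℚ_[q] M] [Algebra ℤ_[q] M]
  [IsScalarTower ℤ_[q] ℚ_[q] M]
variable (G : Type) [Group G] [Finite G] [MulSemiringAction G M] [SMulCommClass G ℚ_[q] M]
  [FaithfulSMul G M]

include q in
/-- Noether's form of Hilbert 90 for a finite group acting faithfully on a field -/
theorem isMulCoboundary₁_of_isMulCocycle₁ (f : G → Mˣ) (hf : IsMulCocycle₁ f) :
    IsMulCoboundary₁ f := by
  set e := galEquiv q M G with he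
  have hsmul : ∀ (σ : M ≃ₐ[FixedF q M G] M) (y : Mˣ), σ • y = (e.symm σ) • y := by
    intro σ y
    ext
    change σ (y : M) = (e.symm σ) • (y : M)
    rw [← galEquiv_apply q M G (e.symm σ) (y : M)]
    rw [← he, MulEquiv.apply_symm_apply]
  have hf' : IsMulCocycle₁ (fun σ : M ≃ₐ[FixedF q M G] M => f (e.symm σ)) := by
    intro σ τ
    change f (e.symm (σ * τ)) = σ • f (e.symm τ) * f (e.symm σ)
    rw [map_mul, hf, hsmul]
  obtain ⟨β, hβ⟩ := isMulCoboundary₁_of_isMulCocycle₁_of_aut_to_units _ hf'
  refine ⟨β, fun g => ?_⟩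
  have := hβ (e g)
  simp only [MulEquiv.symm_apply_apply] at this
  rw [← this, hsmul, MulEquiv.symm_apply_apply]

include q in
/-- **Hilbert 90**: `H¹(G, Mˣ) = 0` -/
theorem isZero_H1_unitsRep : Limits.IsZero (groupCohomology (unitsRep M G) 1) := by
  rw [ModuleCat.isZero_iff_subsingleton]
  refine ⟨fun a b => ?_⟩
  suffices h : ∀ a : groupCohomology (unitsRep M G) 1, a = 0 by rw [h a, h b]
  intro a
  induction a using H1_induction_on with | h x =>
  rw [H1π_eq_zero_iff]
  refine (coboundariesOfIsMulCoboundary₁ ?_).2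
  rcases isMulCoboundary₁_of_isMulCocycle₁ q M G x.1
    (isMulCocycle₁_of_mem_cocycles₁ _ x.2) with ⟨β, hβ⟩
  exact ⟨β, hβ⟩

end H90

end Fermat.Agent.CFT.Local
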