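/-
P4 / Layer B → C interface: Herbrand quotients of the multiplicative group and of the unit group
of a cyclic pair `(M, G)` of local fields, in the `HasHerbrand` language of
`Lib/CFT/Global/HerbrandMul.lean`:

* `hasHerbrand_top_of_isCyclic`    : `h(Mˣ) = |G|`   (`h⁰ = |G|`, `h¹ = 1`);
* `hasHerbrand_unitsM_of_isCyclic` : `h(U_M) = 1`    (`h⁰ = h¹ = e`).
-/
import Fermat.Agent.Lib.CFT.Local.GalAction
import Fermat.Agent.Lib.CFT.Global.HerbrandMul

set_option autoImplicit false
set_option linter.unusedSectionVars false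
set_option linter.style.haveILetI false
set_option linter.unusedVariables false

namespace Fermat.Agent.CFT.Coh.Herbrand

open Finset

section General

variable {X : Type*} [CommGroup X]

/-- `x ↦ ∏_{i < n} σ^i x` -/
def cycNorm (σ : Monoid.End X) (n : ℕ) : X →* X where
  toFun x := ∏ i ∈ range n, (σ ^ i) x
  map_one' := by simp
  map_mul' x y := by simp [Finset.prod_mul_distrib]

@[simp] lemma cycNorm_apply (σ : Monoid.End X) (n : ℕ) (x : X) :
    cycNorm σ n x = ∏ i ∈ range n, (σ ^ i) x := rfl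

/-- `x ↦ σ x / x` -/
def cycDiv (σ : Monoid.End X) : X →* X where
  toFun x := σ x / x
  map_one' := by simp
  map_mul' x y := by rw [map_mul, mul_div_mul_comm]

@[simp] lemma cycDiv_apply (σ : Monoid.End X) (x : X) : cycDiv σ x = σ x / x := rfl

variable (σ : Monoid.End X) (n : ℕ) (hσ : σ ^ n = 1) (H : Subgroup X) (hH : ∀ x ∈ H, σ x ∈ H)

/-- the norm of the restricted endomorphism, as a homomorphism `H →* H` -/
def subNorm : H →* H := cycNorm (subEnd σ H hH) n

/-- `σ / 1` on `H` -/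
def subDiv : H →* H := cycDiv (subEnd σ H hH)

lemma coe_subNorm (x : H) : ((subNorm σ n H hH x : H) : X) = cycNorm σ n x := by
  rw [subNorm, cycNorm_apply, cycNorm_apply, Subgroup.val_finsetProd]
  exact Finset.prod_congr rfl fun i _ => coe_subEnd_pow σ H hH i x

lemma coe_subDiv (x : H) : ((subDiv σ H hH x : H) : X) = cycDiv σ x := rfl

lemma mulPair_g_eq : (mulPair (subEnd σ H hH) n (subEnd_pow_eq_one σ n hσ H hH)).g =
    MonoidHom.toAdditive (subNorm σ n H hH) := by
  refine AddMonoidHom.ext fun x => ?_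
  rw [mulPair_g_apply]
  rfl

lemma mulPair_f_eq : (mulPair (subEnd σ H hH) n (subEnd_pow_eq_one σ n hσ H hH)).f =
    MonoidHom.toAdditive (subDiv σ H hH) := rfl

lemma map_range_subNorm : (subNorm σ n H hH).range.map H.subtype = H.map (cycNorm σ n) := by
  ext y
  constructor
  · rintro ⟨_, ⟨x, rfl⟩, rfl⟩
    exact ⟨x, x.2, (coe_subNorm σ n H hH x).symm⟩
  · rintro ⟨x, hx, rfl⟩
    exact ⟨_, ⟨⟨x, hx⟩, rfl⟩, coe_subNorm σ n H hH ⟨x, hx⟩⟩

lemma map_range_subDiv : (subDiv σ H hH).range.map H.subtype = H.map (cycDiv σ) := by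
  ext y
  constructor
  · rintro ⟨_, ⟨x, rfl⟩, rfl⟩
    exact ⟨x, x.2, rfl⟩
  · rintro ⟨x, hx, rfl⟩
    exact ⟨_, ⟨⟨x, hx⟩, rfl⟩, rfl⟩

lemma map_ker_subNorm : (subNorm σ n H hH).ker.map H.subtype = H ⊓ (cycNorm σ n).ker := by
  ext y
  rw [Subgroup.mem_map, Subgroup.mem_inf]
  constructor
  · rintro ⟨x, hx, rfl⟩
    refine ⟨x.2, ?_⟩
    rw [MonoidHom.mem_ker] at hx ⊢
    rw [Subgroup.coe_subtype, ← coe_subNorm σ n H hH x, hx]
    rfl
  · rintro ⟨hy1, hy2⟩
    refine ⟨⟨y, hy1⟩, ?_, rfl⟩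
    rw [MonoidHom.mem_ker] at hy2 ⊢
    apply Subtype.ext
    rw [coe_subNorm]
    exact hy2

lemma map_ker_subDiv : (subDiv σ H hH).ker.map H.subtype = H ⊓ (cycDiv σ).ker := by
  ext y
  rw [Subgroup.mem_map, Subgroup.mem_inf]
  constructor
  · rintro ⟨x, hx, rfl⟩
    refine ⟨x.2, ?_⟩
    rw [MonoidHom.mem_ker] at hx ⊢
    rw [Subgroup.coe_subtype, ← coe_subDiv σ H hH x, hx]
    rfl
  · rintro ⟨hy1, hy2⟩
    refine ⟨⟨y, hy1⟩, ?_, rfl⟩
    rw [MonoidHom.mem_ker] at hy2 ⊢
    apply Subtype.ext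
    rw [coe_subDiv]
    exact hy2

/-- `h⁰` of a stable subgroup, in ambient terms -/
theorem h0_mulPair_subEnd :
    (mulPair (subEnd σ H hH) n (subEnd_pow_eq_one σ n hσ H hH)).h0 =
      (H.map (cycNorm σ n)).relIndex (H ⊓ (cycDiv σ).ker) := by
  rw [Pair.h0, mulPair_g_eq σ n hσ H hH, mulPair_f_eq σ n hσ H hH]
  change (Subgroup.toAddSubgroup (subNorm σ n H hH).range).relIndex
    (Subgroup.toAddSubgroup (subDiv σ H hH).ker) = _
  rw [Subgroup.relIndex_toAddSubgroup,
    ← Subgroup.relIndex_map_map_of_injective _ _ H.subtype_injective, map_range_subNorm,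
    map_ker_subDiv]

/-- `h¹` of a stable subgroup, in ambient terms -/
theorem h1_mulPair_subEnd :
    (mulPair (subEnd σ H hH) n (subEnd_pow_eq_one σ n hσ H hH)).h1 =
      (H.map (cycDiv σ)).relIndex (H ⊓ (cycNorm σ n).ker) := by
  rw [Pair.h1, mulPair_g_eq σ n hσ H hH, mulPair_f_eq σ n hσ H hH]
  change (Subgroup.toAddSubgroup (subDiv σ H hH).range).relIndex
    (Subgroup.toAddSubgroup (subNorm σ n H hH).ker) = _
  rw [Subgroup.relIndex_toAddSubgroup,
    ← Subgroup.relIndex_map_map_of_injective _ _ H.subtype_injective, map_range_subDiv,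
    map_ker_subNorm]

include hH in
/-- a criterion for `HasHerbrand` in ambient terms -/
theorem hasHerbrand_of_relIndex {a b : ℕ}
    (ha : (H.map (cycNorm σ n)).relIndex (H ⊓ (cycDiv σ).ker) = a)
    (hb : (H.map (cycDiv σ)).relIndex (H ⊓ (cycNorm σ n).ker) = b)
    (ha0 : a ≠ 0) (hb0 : b ≠ 0) : HasHerbrand σ n hσ H ((a : ℚ) / b) := by
  refine ⟨hH, ⟨?_, ?_⟩, ?_⟩
  · rw [h0_mulPair_subEnd σ n hσ H hH, ha]; exact ha0
  · rw [h1_mulPair_subEnd σ n hσ H hH, hb]; exact hb0
  · rw [Pair.q, h0_mulPair_subEnd σ n hσ H hH, h1_mulPair_subEnd σ n hσ H hH, ha, hb]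

end General

end Fermat.Agent.CFT.Coh.Herbrand

namespace Fermat.Agent.CFT.Local

open Fermat.Agent.CFT.Coh.Herbrand IsLocalRing

attribute [local instance] Units.mulDistribMulActionRight

section ActU

variable (M G : Type) [Field M] [Group G] [MulSemiringAction G M]

/-- the action of `g` on `Mˣ` as a monoid endomorphism -/
def actU (g : G) : Monoid.End Mˣ := MulDistribMulAction.toMonoidEnd G Mˣ g

@[simp] lemma actU_apply (g : G) (x : Mˣ) : actU M G g x = g • x := rfl

lemma actU_pow (g : G) (i : ℕ) : actU M G g ^ i = actU M G (g ^ i) :=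
  (map_pow (MulDistribMulAction.toMonoidEnd G Mˣ) g i).symm

lemma actU_pow_card [Finite G] (g : G) : actU M G g ^ Nat.card G = 1 := by
  rw [actU_pow, pow_card_eq_one']
  exact map_one (MulDistribMulAction.toMonoidEnd G Mˣ)

/-- product over a cyclic group as a product over powers of a generator -/
theorem prod_univ_eq_prod_range_pow {X : Type*} [CommMonoid X] [Fintype G] (g : G)
    (hg : ∀ h : G, h ∈ Subgroup.zpowers g) (F : G → X) :
    ∏ h : G, F h = ∏ i ∈ Finset.range (Nat.card G), F (g ^ i) := by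
  classical
  have hord : orderOf g = Nat.card G := orderOf_eq_card_of_forall_mem_zpowers hg
  have hinj : Set.InjOn (fun i : ℕ => g ^ i) (Finset.range (Nat.card G) : Set ℕ) := by
    intro i hi j hj h
    rw [Finset.coe_range] at hi hj
    rw [← hord] at hi hj
    exact pow_injOn_Iio_orderOf hi hj h
  have himage : (Finset.range (Nat.card G)).image (fun i : ℕ => g ^ i) = Finset.univ := by
    apply Finset.eq_univ_of_card
    rw [Finset.card_image_of_injOn hinj, Finset.card_range, Nat.card_eq_fintype_card]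
  rw [← himage, Finset.prod_image hinj]

theorem cycNorm_actU_eq [Fintype G] (g : G) (hg : ∀ h : G, h ∈ Subgroup.zpowers g) :
    cycNorm (actU M G g) (Nat.card G) = normU M G := by
  ext x : 1
  rw [cycNorm_apply, normU_apply, prod_univ_eq_prod_range_pow G g hg (fun h => h • x)]
  refine Finset.prod_congr rfl fun i _ => ?_
  rw [actU_pow, actU_apply]

theorem ker_cycDiv_actU (g : G) (hg : ∀ h : G, h ∈ Subgroup.zpowers g) :
    (cycDiv (actU M G g)).ker = fixedU M G := by
  ext x
  rw [MonoidHom.mem_ker, cycDiv_apply, div_eq_one, actU_apply, mem_fixedU]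
  constructor
  · intro h k
    obtain ⟨m, rfl⟩ := Subgroup.mem_zpowers_iff.1 (hg k)
    have hstab : g ∈ MulAction.stabilizer G x := h
    exact (MulAction.stabilizer G x).zpow_mem hstab m
  · intro h
    exact h g

end ActU

noncomputable section

attribute [local instance] algOInt isScalarTower_oInt isIntegralClosure_oInt

variable (q : ℕ) [Fact q.Prime]
variable (M : Type) [Field M] [Algebra ℚ_[q] M] [FiniteDimensional ℚ_[q] M] [Algebra ℤ_[q] M]
  [IsScalarTower ℤ_[q] ℚ_[q] M]
variable (G : Type) [Group G] [Finite G] [MulSemiringAction G M] [SMulCommClass G ℚ_[q] M]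
  [FaithfulSMul G M]

variable (g : G) (hg : ∀ h : G, h ∈ Subgroup.zpowers g)

include hg in
theorem galEquiv_generator :
    ∀ τ : M ≃ₐ[FixedF q M G] M, τ ∈ Subgroup.zpowers (galEquiv q M G g) := by
  intro τ
  obtain ⟨h, rfl⟩ := (galEquiv q M G).surjective τ
  obtain ⟨m, rfl⟩ := Subgroup.mem_zpowers_iff.1 (hg h)
  rw [map_zpow]
  exact Subgroup.zpow_mem_zpowers _ m

theorem cycDiv_actU_eq_DL : cycDiv (actU M G g) = DL (galEquiv q M G g) := by
  ext x : 1
  rw [cycDiv_apply, DL_apply, actU_apply, units_smul_eq q M G]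

theorem ker_normU_eq [Fintype G] :
    (normU M G).ker = (unitsNorm (FixedF q M G) M).ker := by
  ext x
  rw [MonoidHom.mem_ker, MonoidHom.mem_ker, normU_eq q M G]
  constructor
  · intro h
    apply unitsIncl_injective (FixedF q M G) M
    rw [h, map_one]
  · intro h
    rw [h, map_one]

include q hg in
/-- **`h(Mˣ) = |G|`** for a cyclic pair: `h⁰ = |G|` (norm index), `h¹ = 1` (Hilbert 90) -/
theorem hasHerbrand_top_of_isCyclic :
    HasHerbrand (actU M G g) (Nat.card G) (actU_pow_card M G g) ⊤ (Nat.card G) := by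
  haveI : Fintype G := Fintype.ofFinite G
  haveI : IsCyclic G := ⟨g, hg⟩
  have hσ := galEquiv_generator q M G g hg
  have ha : ((⊤ : Subgroup Mˣ).map (cycNorm (actU M G g) (Nat.card G))).relIndex
      (⊤ ⊓ (cycDiv (actU M G g)).ker) = Nat.card G := by
    rw [top_inf_eq, ← MonoidHom.range_eq_map, cycNorm_actU_eq M G g hg, ker_cycDiv_actU M G g hg]
    exact relIndex_range_normU_of_isCyclic q M G
  have hb : ((⊤ : Subgroup Mˣ).map (cycDiv (actU M G g))).relIndex
      (⊤ ⊓ (cycNorm (actU M G g) (Nat.card G)).ker) = 1 := by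
    rw [top_inf_eq, ← MonoidHom.range_eq_map, cycNorm_actU_eq M G g hg, ker_normU_eq q M G,
      cycDiv_actU_eq_DL q M G g, range_DL _ hσ, Subgroup.relIndex_self]
  have key := hasHerbrand_of_relIndex (actU M G g) (Nat.card G) (actU_pow_card M G g) ⊤
    (fun x _ => Subgroup.mem_top _) ha hb Nat.card_pos.ne' one_ne_zero
  simpa using key

omit [FiniteDimensional ℚ_[q] M] [IsScalarTower ℤ_[q] ℚ_[q] M] in
/-- the unit group in terms of integrality -/
theorem mem_unitsM_iff (x : Mˣ) :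
    x ∈ unitsM q M ↔ IsIntegral ℤ_[q] (x : M) ∧ IsIntegral ℤ_[q] ((x⁻¹ : Mˣ) : M) := by
  constructor
  · rintro ⟨u, rfl⟩
    exact ⟨(u : OInt q M).2, ((u⁻¹ : (OInt q M)ˣ) : OInt q M).2⟩
  · rintro ⟨h1, h2⟩
    refine ⟨⟨⟨x, h1⟩, ⟨(x⁻¹ : Mˣ), h2⟩, Subtype.ext (by simp), Subtype.ext (by simp)⟩, ?_⟩
    ext
    rfl

theorem unitsM_inf_fixedU :
    unitsM q M ⊓ fixedU M G =
      (unitGroup (OInt q (FixedF q M G)) (FixedF q M G)).map (unitsIncl (FixedF q M G) M) := by
  haveI : Module.Finite (OInt q (FixedF q M G)) (OInt q M) :=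
    finite_AB (OInt q (FixedF q M G)) (FixedF q M G) M (OInt q M)
  haveI : FaithfulSMul (OInt q (FixedF q M G)) (OInt q M) :=
    faithfulSMul_AB (OInt q (FixedF q M G)) (FixedF q M G) M (OInt q M)
  ext x
  rw [Subgroup.mem_inf, fixedU_eq_range q M G, Subgroup.mem_map]
  constructor
  · rintro ⟨hx, ⟨y, rfl⟩⟩
    refine ⟨y, ?_, rfl⟩
    rw [mem_unitGroup_iff] at hx ⊢
    rw [ordZ_unitsIncl (A := OInt q (FixedF q M G))] at hx
    have hpos : (0 : ℤ) < ramIdx (OInt q (FixedF q M G)) (FixedF q M G) (OInt q M) M := by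
      exact_mod_cast ramIdx_pos _ _ _ _
    rcases mul_eq_zero.1 hx with h | h
    · omega
    · exact h
  · rintro ⟨y, hy, rfl⟩
    refine ⟨?_, ⟨y, rfl⟩⟩
    rw [mem_unitGroup_iff] at hy ⊢
    rw [ordZ_unitsIncl (A := OInt q (FixedF q M G)), hy, mul_zero]

include hg in
/-- **`h(U_M) = 1`** for a cyclic pair: `h⁰ = h¹ = e` -/
theorem hasHerbrand_unitsM_of_isCyclic :
    HasHerbrand (actU M G g) (Nat.card G) (actU_pow_card M G g) (unitsM q M) 1 := by
  haveI : Fintype G := Fintype.ofFinite G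
  haveI : IsCyclic G := ⟨g, hg⟩
  haveI : IsCyclic (M ≃ₐ[FixedF q M G] M) :=
    isCyclic_of_surjective (galEquiv q M G) (galEquiv q M G).surjective
  haveI : Module.Finite (OInt q (FixedF q M G)) (OInt q M) :=
    finite_AB (OInt q (FixedF q M G)) (FixedF q M G) M (OInt q M)
  haveI : FaithfulSMul (OInt q (FixedF q M G)) (OInt q M) :=
    faithfulSMul_AB (OInt q (FixedF q M G)) (FixedF q M G) M (OInt q M)
  have hσ := galEquiv_generator q M G g hg
  have hstab : ∀ x ∈ unitsM q M, actU M G g x ∈ unitsM q M := by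
    intro x hx
    rw [actU_apply]
    rw [unitsM, mem_unitGroup_iff] at hx ⊢
    have := ordMZ_smul q M G g x
    rw [ordMZ] at this
    rw [this]
    exact hx
  have ha : ((unitsM q M).map (cycNorm (actU M G g) (Nat.card G))).relIndex
      (unitsM q M ⊓ (cycDiv (actU M G g)).ker) = ramE q M G := by
    rw [cycNorm_actU_eq M G g hg, ker_cycDiv_actU M G g hg, unitsM_inf_fixedU q M G]
    have hmap : (unitsM q M).map (normU M G) =
        ((unitsM q M).map (unitsNorm (FixedF q M G) M)).map (unitsIncl (FixedF q M G) M) := by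
      rw [Subgroup.map_map]
      congr 1
      ext x : 1
      exact normU_eq q M G x
    rw [hmap, Subgroup.relIndex_map_map_of_injective _ _ (unitsIncl_injective (FixedF q M G) M)]
    exact relIndex_map_unitsNorm_unitGroup_of_isCyclic (OInt q (FixedF q M G)) (FixedF q M G) M
      (OInt q M)
  have hb : ((unitsM q M).map (cycDiv (actU M G g))).relIndex
      (unitsM q M ⊓ (cycNorm (actU M G g) (Nat.card G)).ker) = ramE q M G := by
    rw [cycNorm_actU_eq M G g hg, ker_normU_eq q M G, cycDiv_actU_eq_DL q M G g,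
      inf_eq_right.2 (ker_unitsNorm_le (A := OInt q (FixedF q M G)) (B := OInt q M)),
      ← range_DL _ hσ, MonoidHom.range_eq_map, Subgroup.relIndex_map_map, top_sup_eq,
      Subgroup.relIndex_top_right, ker_DL _ hσ]
    exact index_unitGroup_sup_range_unitsIncl _ hσ
  have key := hasHerbrand_of_relIndex (actU M G g) (Nat.card G) (actU_pow_card M G g) (unitsM q M)
    hstab ha hb (ramE_pos q M G).ne' (ramE_pos q M G).ne'
  rwa [div_self (by exact_mod_cast (ramE_pos q M G).ne')] at key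

end

end Fermat.Agent.CFT.Local
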