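/-
P4 / Layer B: the filtration of the unit group of a complete discrete valuation ring by the
higher unit groups `U n = 1 + 𝔪^n`.
-/
import Fermat.Agent.Lib.CFT.Local.Basic

set_option autoImplicit false
set_option linter.unusedSectionVars false
set_option linter.unnecessarySimpa false

namespace Fermat.Agent.CFT.Local

open IsLocalRing Finset

section Def

variable (A : Type*) [CommRing A] [IsLocalRing A]

/-- the higher unit groups `U n = {u : u ≡ 1 mod 𝔪^n}` -/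
def U (n : ℕ) : Subgroup Aˣ where
  carrier := {u | (u : A) - 1 ∈ maximalIdeal A ^ n}
  one_mem' := by simp
  mul_mem' := by
    intro u v hu hv
    have : ((u * v : Aˣ) : A) - 1 = (u : A) * ((v : A) - 1) + ((u : A) - 1) := by
      rw [Units.val_mul]; ring
    show ((u * v : Aˣ) : A) - 1 ∈ maximalIdeal A ^ n
    rw [this]
    exact Ideal.add_mem _ (Ideal.mul_mem_left _ _ hv) hu
  inv_mem' := by
    intro u hu
    have : ((u⁻¹ : Aˣ) : A) - 1 = -(((u⁻¹ : Aˣ) : A) * ((u : A) - 1)) := by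
      have h1 : ((u⁻¹ : Aˣ) : A) * (u : A) = 1 := by simp
      linear_combination h1
    show ((u⁻¹ : Aˣ) : A) - 1 ∈ maximalIdeal A ^ n
    rw [this]
    exact Ideal.neg_mem_iff _ |>.2 (Ideal.mul_mem_left _ _ hu)

variable {A}

theorem mem_U {n : ℕ} {u : Aˣ} : u ∈ U A n ↔ (u : A) - 1 ∈ maximalIdeal A ^ n := Iff.rfl

variable (A)

theorem U_zero : U A 0 = ⊤ := by
  ext u
  simp [mem_U]

theorem U_anti {m n : ℕ} (h : m ≤ n) : U A n ≤ U A m := fun _ hu =>
  Ideal.pow_le_pow_right h hu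

end Def

section DVR

variable {A : Type*} [CommRing A] [IsDomain A] [IsDiscreteValuationRing A] {ϖ : A}

theorem mem_U_iff (hϖ : Irreducible ϖ) {n : ℕ} {u : Aˣ} :
    u ∈ U A n ↔ ∃ b : A, (u : A) = 1 + ϖ ^ n * b := by
  rw [mem_U, hϖ.maximalIdeal_eq, Ideal.span_singleton_pow, Ideal.mem_span_singleton]
  constructor
  · rintro ⟨b, hb⟩
    exact ⟨b, by rw [← hb]; ring⟩
  · rintro ⟨b, hb⟩
    exact ⟨b, by rw [hb]; ring⟩

theorem isUnit_one_add_mul (hϖ : Irreducible ϖ) (b : A) : IsUnit (1 + ϖ * b) := by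
  have h1 : ϖ * b ∈ maximalIdeal A := by
    rw [hϖ.maximalIdeal_eq]
    exact Ideal.mul_mem_right _ _ (Ideal.mem_span_singleton_self ϖ)
  by_contra h
  have h2 : 1 + ϖ * b ∈ maximalIdeal A := (mem_maximalIdeal _).2 h
  have h3 : (1 : A) ∈ maximalIdeal A := by
    have := Ideal.sub_mem _ h2 h1
    simpa using this
  exact (maximalIdeal.isMaximal A).ne_top ((Ideal.eq_top_iff_one _).2 h3)

/-- the unit `1 + ϖ^n b`, `n ≥ 1` -/
theorem exists_unit_eq_one_add (hϖ : Irreducible ϖ) {n : ℕ} (hn : 1 ≤ n) (b : A) :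
    ∃ u : Aˣ, (u : A) = 1 + ϖ ^ n * b := by
  obtain ⟨k, rfl⟩ := Nat.exists_eq_add_of_le hn
  have := isUnit_one_add_mul hϖ (ϖ ^ k * b)
  refine ⟨this.unit, ?_⟩
  rw [IsUnit.unit_spec]
  ring

theorem pow_mul_cancel (hϖ : Irreducible ϖ) (n : ℕ) {b c : A} (h : ϖ ^ n * b = ϖ ^ n * c) :
    b = c :=
  mul_left_cancel₀ (pow_ne_zero n hϖ.ne_zero) h

theorem mem_pow_iff (hϖ : Irreducible ϖ) (e : ℕ) (b : A) :
    b ∈ maximalIdeal A ^ e ↔ ∃ c, b = ϖ ^ e * c := by
  rw [hϖ.maximalIdeal_eq, Ideal.span_singleton_pow, Ideal.mem_span_singleton]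
  exact ⟨fun ⟨c, hc⟩ => ⟨c, hc⟩, fun ⟨c, hc⟩ => ⟨c, hc⟩⟩

/-- the "logarithm" `U n → A / 𝔪^e`, `1 + ϖ^n b ↦ b`, a homomorphism for `e ≤ n` -/
noncomputable def unitLog (hϖ : Irreducible ϖ) (n e : ℕ) (he : e ≤ n) :
    U A n →* Multiplicative (A ⧸ maximalIdeal A ^ e) where
  toFun u := Multiplicative.ofAdd
    (Ideal.Quotient.mk (maximalIdeal A ^ e) (Classical.choose ((mem_U_iff hϖ).1 u.2)))
  map_one' := by
    have h := Classical.choose_spec ((mem_U_iff hϖ).1 (1 : U A n).2)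
    have h0 : Classical.choose ((mem_U_iff hϖ).1 (1 : U A n).2) = 0 := by
      apply pow_mul_cancel hϖ n
      rw [mul_zero]
      have h2 : (1 : A) = 1 + ϖ ^ n * Classical.choose ((mem_U_iff hϖ).1 (1 : U A n).2) := h
      linear_combination -h2
    rw [h0, map_zero]
    rfl
  map_mul' u v := by
    have hu := Classical.choose_spec ((mem_U_iff hϖ).1 u.2)
    have hv := Classical.choose_spec ((mem_U_iff hϖ).1 v.2)
    have huv := Classical.choose_spec ((mem_U_iff hϖ).1 (u * v).2)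
    set b := Classical.choose ((mem_U_iff hϖ).1 u.2)
    set c := Classical.choose ((mem_U_iff hϖ).1 v.2)
    set d := Classical.choose ((mem_U_iff hϖ).1 (u * v).2)
    have h1 : d = b + c + ϖ ^ n * (b * c) := by
      apply pow_mul_cancel hϖ n
      have : (((u * v : U A n) : Aˣ) : A) = ((u : Aˣ) : A) * ((v : Aˣ) : A) := by
        rw [Subgroup.coe_mul, Units.val_mul]
      rw [this, hu, hv] at huv
      linear_combination -huv
    rw [← ofAdd_add, ← map_add]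
    congr 1
    rw [Ideal.Quotient.eq, h1]
    have : b + c + ϖ ^ n * (b * c) - (b + c) = ϖ ^ n * (b * c) := by ring
    rw [this, mem_pow_iff hϖ]
    obtain ⟨k, rfl⟩ := Nat.exists_eq_add_of_le he
    exact ⟨ϖ ^ k * (b * c), by ring⟩

theorem unitLog_apply (hϖ : Irreducible ϖ) (n e : ℕ) (he : e ≤ n) (u : U A n) (b : A)
    (hb : ((u : Aˣ) : A) = 1 + ϖ ^ n * b) :
    unitLog hϖ n e he u = Multiplicative.ofAdd (Ideal.Quotient.mk (maximalIdeal A ^ e) b) := by
  have hu := Classical.choose_spec ((mem_U_iff hϖ).1 u.2)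
  have : Classical.choose ((mem_U_iff hϖ).1 u.2) = b := by
    apply pow_mul_cancel hϖ n
    have h2 := hb.symm.trans hu
    linear_combination -h2
  change Multiplicative.ofAdd (Ideal.Quotient.mk (maximalIdeal A ^ e)
    (Classical.choose ((mem_U_iff hϖ).1 u.2))) = _
  rw [this]

theorem unitLog_surjective (hϖ : Irreducible ϖ) (n e : ℕ) (he : e ≤ n) (hn : 1 ≤ n) :
    Function.Surjective (unitLog hϖ n e he) := by
  intro x
  obtain ⟨b, hb⟩ := Ideal.Quotient.mk_surjective (Multiplicative.toAdd x)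
  obtain ⟨u, hu⟩ := exists_unit_eq_one_add hϖ hn b
  refine ⟨⟨u, (mem_U_iff hϖ).2 ⟨b, hu⟩⟩, ?_⟩
  rw [unitLog_apply hϖ n e he _ b hu, hb]
  rfl

theorem ker_unitLog (hϖ : Irreducible ϖ) (n e : ℕ) (he : e ≤ n) :
    (unitLog hϖ n e he).ker = (U A (n + e)).subgroupOf (U A n) := by
  ext u
  obtain ⟨b, hb⟩ := (mem_U_iff hϖ).1 u.2
  rw [MonoidHom.mem_ker, unitLog_apply hϖ n e he u b hb, Subgroup.mem_subgroupOf, mem_U_iff hϖ]
  change Ideal.Quotient.mk (maximalIdeal A ^ e) b = 0 ↔ _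
  rw [Ideal.Quotient.eq_zero_iff_mem, mem_pow_iff hϖ]
  constructor
  · rintro ⟨c, rfl⟩
    exact ⟨c, by rw [hb]; ring⟩
  · rintro ⟨c, hc⟩
    refine ⟨c, pow_mul_cancel hϖ n ?_⟩
    rw [hb] at hc
    linear_combination hc

/-- `[U n : U (n+e)] = |A / 𝔪^e|` for `e ≤ n`, `1 ≤ n` -/
theorem relIndex_U_add (n e : ℕ) (he : e ≤ n) (hn : 1 ≤ n) :
    (U A (n + e)).relIndex (U A n) = Nat.card (A ⧸ maximalIdeal A ^ e) := by
  obtain ⟨ϖ, hϖ⟩ := IsDiscreteValuationRing.exists_irreducible A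
  rw [Subgroup.relIndex, ← ker_unitLog hϖ n e he, Subgroup.index_ker,
    MonoidHom.range_eq_top.2 (unitLog_surjective hϖ n e he hn)]
  rw [Nat.card_congr (Subgroup.topEquiv (G := Multiplicative (A ⧸ maximalIdeal A ^ e))).toEquiv]
  rfl

end DVR

end Fermat.Agent.CFT.Local
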