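/-
P4 / Layer B: the index of the `n`-th powers in the unit group of a complete discrete valuation
ring with finite residue field, and in the multiplicative group of its fraction field.

  `[Aˣ : (Aˣ)ⁿ] = |A / nA| · |μ_n(A)|`,   `[Kˣ : (Kˣ)ⁿ] = n · |A / nA| · |μ_n(K)|`   (`n ≠ 0` in `A`).
-/
import Fermat.Agent.Lib.CFT.Local.UnitFiltration
import Fermat.Agent.Lib.CFT.Local.Filtered
import Fermat.Agent.Lib.CFT.Local.IndexLemmas
import Fermat.Agent.Lib.CFT.Local.CohTrivialLattice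
import Fermat.Agent.Lib.CFT.Local.Ord

set_option autoImplicit false
set_option linter.unusedSectionVars false
set_option linter.unnecessarySimpa false

namespace Fermat.Agent.CFT.Local

open IsLocalRing Finset

section Binomial

variable {R : Type*} [CommRing R]

/-- `(1 + x)^n = 1 + n x + x² r` -/
theorem exists_one_add_pow_eq (n : ℕ) (x : R) :
    ∃ r : R, (1 + x) ^ n = 1 + n * x + x ^ 2 * r := by
  induction n with
  | zero => exact ⟨0, by simp⟩
  | succ n ih =>
    obtain ⟨r, hr⟩ := ih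
    refine ⟨r + n + x * r, ?_⟩
    rw [pow_succ, hr]
    push_cast
    ring

end Binomial

section Complete

variable {A : Type*} [CommRing A] [IsDomain A] [IsLocalInt A]

/-- the filtration `U n` is separated -/
theorem eq_one_of_forall_mem_U (u : Aˣ) (h : ∀ n, u ∈ U A n) : u = 1 := by
  have h1 : (u : A) - 1 ∈ (⨅ n : ℕ, maximalIdeal A ^ n : Ideal A) := by
    rw [Ideal.mem_iInf]
    exact h
  rw [Ideal.iInf_pow_eq_bot_of_isLocalRing _ (maximalIdeal.isMaximal A).ne_top, Ideal.mem_bot,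
    sub_eq_zero] at h1
  exact Units.ext h1

/-- the filtration `U (m + i)` (`m ≥ 1`) is complete -/
theorem exists_limit_U (m : ℕ) (hm : 1 ≤ m) (x : ℕ → Aˣ) (hx : ∀ i, x i ∈ U A (m + i)) :
    ∃ z : Aˣ, ∀ k, z / ∏ i ∈ range k, x i ∈ U A (m + k) := by
  set P : ℕ → Aˣ := fun k => ∏ i ∈ range k, x i with hP
  have hPsucc : ∀ k, ((P (k + 1) : Aˣ) : A) - (P k : A) ∈ maximalIdeal A ^ (m + k) := by
    intro k
    have : ((P (k + 1) : Aˣ) : A) - (P k : A) = (P k : A) * ((x k : A) - 1) := by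
      simp only [hP, prod_range_succ, Units.val_mul]
      ring
    rw [this]
    exact Ideal.mul_mem_left _ _ (hx k)
  have hPle : ∀ {a b : ℕ}, a ≤ b → ((P b : Aˣ) : A) - (P a : A) ∈ maximalIdeal A ^ (m + a) := by
    intro a b hab
    induction b, hab using Nat.le_induction with
    | base => simp
    | succ b hab ih =>
      have : ((P (b + 1) : Aˣ) : A) - (P a : A) =
          (((P (b + 1) : Aˣ) : A) - (P b : A)) + ((P b : A) - (P a : A)) := by ring
      rw [this]
      exact Ideal.add_mem _ (Ideal.pow_le_pow_right (by omega) (hPsucc b)) ih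
  -- the Cauchy sequence `f a = P (a - m)`
  have hf : ∀ {a b : ℕ}, a ≤ b →
      ((P (a - m) : Aˣ) : A) ≡ (P (b - m) : A) [SMOD (maximalIdeal A ^ a • ⊤ : Submodule A A)] := by
    intro a b hab
    rw [SModEq.sub_mem, smul_eq_mul, Ideal.mul_top]
    have h1 := hPle (Nat.sub_le_sub_right hab m)
    have h2 : ((P (a - m) : Aˣ) : A) - (P (b - m) : A) =
        -(((P (b - m) : Aˣ) : A) - (P (a - m) : A)) := by ring
    rw [h2]
    exact neg_mem (Ideal.pow_le_pow_right (by omega) h1)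
  obtain ⟨L, hL⟩ := IsPrecomplete.prec' (I := maximalIdeal A)
    (fun a => ((P (a - m) : Aˣ) : A)) hf
  have hL' : ∀ k, L - (P k : A) ∈ maximalIdeal A ^ (m + k) := by
    intro k
    have := hL (m + k)
    rw [SModEq.sub_mem, smul_eq_mul, Ideal.mul_top] at this
    simp only [Nat.add_sub_cancel_left] at this
    have h2 : L - (P k : A) = -(((P k : Aˣ) : A) - L) := by ring
    rw [h2]
    exact neg_mem this
  have hLunit : IsUnit L := by
    by_contra h
    have h2 : L ∈ maximalIdeal A := (mem_maximalIdeal _).2 h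
    have h3 := hL' 0
    have h4 : L - ((P 0 : Aˣ) : A) ∈ maximalIdeal A :=
      Ideal.pow_le_self (by omega) h3
    have h5 : (1 : A) ∈ maximalIdeal A := by
      have := Ideal.sub_mem _ h2 h4
      simpa [hP] using this
    exact (maximalIdeal.isMaximal A).ne_top ((Ideal.eq_top_iff_one _).2 h5)
  refine ⟨hLunit.unit, fun k => ?_⟩
  rw [mem_U]
  have : ((hLunit.unit / P k : Aˣ) : A) - 1 = ((P k)⁻¹ : Aˣ) * (L - (P k : A)) := by
    rw [div_eq_mul_inv, Units.val_mul, IsUnit.unit_spec, mul_sub, Units.inv_mul]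
    ring
  rw [this]
  exact Ideal.mul_mem_left _ _ (hL' k)

end Complete

section Power

variable {A : Type*} [CommRing A] [IsDomain A] [IsLocalInt A]

/-- data: `n = v ϖ^e` in `A` -/
theorem exists_eq_unit_mul_pow (n : ℕ) (hn : (n : A) ≠ 0) {ϖ : A} (hϖ : Irreducible ϖ) :
    ∃ (e : ℕ) (v : Aˣ), (n : A) = v * ϖ ^ e := by
  obtain ⟨e, v, hv⟩ := IsDiscreteValuationRing.eq_unit_mul_pow_irreducible hn hϖ
  exact ⟨e, v, hv⟩

/-- `n`-th powers of elements of `U m` lie in `U (m + e)` (`e = ord n ≤ m`) -/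
theorem pow_mem_U_add {ϖ : A} (hϖ : Irreducible ϖ) (n e : ℕ) (v : Aˣ) (hv : (n : A) = v * ϖ ^ e)
    (m : ℕ) (hm : e ≤ m) (x : Aˣ) (hx : x ∈ U A m) : x ^ n ∈ U A (m + e) := by
  obtain ⟨b, hb⟩ := (mem_U_iff hϖ).1 hx
  obtain ⟨r, hr⟩ := exists_one_add_pow_eq n (ϖ ^ m * b)
  obtain ⟨k, rfl⟩ := Nat.exists_eq_add_of_le hm
  rw [mem_U_iff hϖ]
  refine ⟨v * b + ϖ ^ k * b ^ 2 * r, ?_⟩
  rw [Units.val_pow_eq_pow_val, hb, hr, hv]
  ring

/-- approximation step: every element of `U (m + e)` is an `n`-th power of an element of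
`U m` modulo `U (m + e + 1)`, for `m ≥ e + 1`. -/
theorem exists_pow_div_mem_U {ϖ : A} (hϖ : Irreducible ϖ) (n e : ℕ) (v : Aˣ)
    (hv : (n : A) = v * ϖ ^ e) (m : ℕ) (hm : e + 1 ≤ m) (y : Aˣ) (hy : y ∈ U A (m + e)) :
    ∃ x ∈ U A m, y / x ^ n ∈ U A (m + e + 1) := by
  obtain ⟨b, hb⟩ := (mem_U_iff hϖ).1 hy
  obtain ⟨x, hx⟩ := exists_unit_eq_one_add hϖ (n := m) (by omega) ((v⁻¹ : Aˣ) * b)
  obtain ⟨r, hr⟩ := exists_one_add_pow_eq n (ϖ ^ m * ((v⁻¹ : Aˣ) * b))
  obtain ⟨k, rfl⟩ := Nat.exists_eq_add_of_le hm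
  refine ⟨x, (mem_U_iff hϖ).2 ⟨_, hx⟩, ?_⟩
  rw [mem_U]
  have h1 : ((y / x ^ n : Aˣ) : A) - 1 = ((x ^ n)⁻¹ : Aˣ) * ((y : A) - ((x ^ n : Aˣ) : A)) := by
    rw [div_eq_mul_inv, Units.val_mul, mul_sub, Units.inv_mul]
    ring
  rw [h1]
  refine Ideal.mul_mem_left _ _ ?_
  rw [mem_pow_iff hϖ]
  refine ⟨-(ϖ ^ k * ((v⁻¹ : Aˣ) * b) ^ 2 * r), ?_⟩
  rw [Units.val_pow_eq_pow_val, hx, hr, hb, hv]
  have hvv : (v : A) * ((v⁻¹ : Aˣ) : A) = 1 := by simp
  linear_combination (-(ϖ ^ (e + 1 + k + e) * b)) * hvv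

/-- **the `n`-th power map is onto `U (m + e)` from `U m`** for `m ≥ e + 1`, `e = ord n`. -/
theorem exists_pow_eq_of_mem_U {ϖ : A} (hϖ : Irreducible ϖ) (n e : ℕ) (v : Aˣ)
    (hv : (n : A) = v * ϖ ^ e) (m : ℕ) (hm : e + 1 ≤ m) (y : Aˣ) (hy : y ∈ U A (m + e)) :
    ∃ x ∈ U A m, x ^ n = y := by
  have := exists_map_eq_of_filtered (powMonoidHom n : Aˣ →* Aˣ)
    (fun i => U A (m + i)) (fun i => U A (m + i + e)) ⊤
    (fun i x hx => pow_mem_U_add hϖ n e v hv (m + i) (by omega) x hx)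
    (fun _ => Subgroup.mem_top _)
    (fun x hx => exists_limit_U m (by omega) x hx)
    (fun y hy => eq_one_of_forall_mem_U y fun i => U_anti A (by omega) (hy i))
    (fun i y hy _ => by
      obtain ⟨x, hx, hx'⟩ := exists_pow_div_mem_U hϖ n e v hv (m + i) (by omega) y hy
      exact ⟨x, hx, by
        have : m + i + e + 1 = m + (i + 1) + e := by omega
        rw [← this]; exact hx'⟩)
    y (by simpa using hy) (Subgroup.mem_top _)
  simpa using this

/-- the `n`-th power map is injective on `U m`, `m ≥ e + 1` -/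
theorem eq_one_of_pow_eq_one_of_mem_U {ϖ : A} (hϖ : Irreducible ϖ) (n e : ℕ) (v : Aˣ)
    (hv : (n : A) = v * ϖ ^ e) (m : ℕ) (hm : e + 1 ≤ m) (x : Aˣ) (hx : x ∈ U A m)
    (hxn : x ^ n = 1) : x = 1 := by
  obtain ⟨b, hb⟩ := (mem_U_iff hϖ).1 hx
  obtain ⟨r, hr⟩ := exists_one_add_pow_eq n (ϖ ^ m * b)
  obtain ⟨k, rfl⟩ := Nat.exists_eq_add_of_le hm
  have h1 : ((x ^ n : Aˣ) : A) = 1 := by rw [hxn]; rfl
  rw [Units.val_pow_eq_pow_val, hb, hr, hv] at h1
  -- `ϖ^(m+e) b (v + ϖ^(k+1) b r) = 0`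
  have h2 : ϖ ^ (e + 1 + k + e) * (b * ((v : A) + ϖ * (ϖ ^ k * b * r))) = 0 := by
    linear_combination h1
  have h3 : IsUnit ((v : A) + ϖ * (ϖ ^ k * b * r)) := by
    have := isUnit_one_add_mul hϖ (((v⁻¹ : Aˣ) : A) * (ϖ ^ k * b * r))
    have h4 : (v : A) + ϖ * (ϖ ^ k * b * r) =
        (v : A) * (1 + ϖ * (((v⁻¹ : Aˣ) : A) * (ϖ ^ k * b * r))) := by
      have hvv : (v : A) * ((v⁻¹ : Aˣ) : A) = 1 := by simp
      linear_combination (-(ϖ * (ϖ ^ k * b * r))) * hvv
    rw [h4]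
    exact v.isUnit.mul this
  have h5 : b = 0 := by
    rcases mul_eq_zero.1 h2 with h | h
    · exact absurd h (pow_ne_zero _ hϖ.ne_zero)
    · rcases mul_eq_zero.1 h with h | h
      · exact h
      · exact absurd h h3.ne_zero
  apply Units.ext
  rw [hb, h5]
  simp

end Power

section Index

variable {A : Type*} [CommRing A] [IsDomain A] [IsLocalInt A]

/-- `U 1` has finite index in `Aˣ` -/
theorem index_U_one_ne_zero : (U A 1).index ≠ 0 := by
  set φ : Aˣ →* (ResidueField A)ˣ := Units.map (residue A : A →* ResidueField A) with hφ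
  have hker : φ.ker = U A 1 := by
    ext u
    rw [MonoidHom.mem_ker, mem_U, pow_one, ← residue_eq_zero_iff, map_sub, map_one, sub_eq_zero,
      Units.ext_iff]
    rfl
  rw [← hker, Subgroup.index_ker]
  exact Nat.card_pos.ne'

/-- `U k` has finite index in `Aˣ` -/
theorem index_U_ne_zero (k : ℕ) : (U A k).index ≠ 0 := by
  induction k with
  | zero => rw [U_zero]; simp
  | succ k ih =>
    rcases Nat.eq_zero_or_pos k with rfl | hk
    · exact index_U_one_ne_zero
    · rw [← Subgroup.relIndex_mul_index (U_anti A (Nat.le_succ k))]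
      refine mul_ne_zero ?_ ih
      rw [relIndex_U_add k 1 hk hk]
      have : Finite (A ⧸ maximalIdeal A ^ 1) :=
        finite_quotient_of_ne_bot A _ (by
          rw [pow_one]
          exact IsDiscreteValuationRing.not_a_field A)
      exact Nat.card_pos.ne'

/-- **`[Aˣ : (Aˣ)ⁿ] = |A / nA| · |μ_n(A)|`** for `n ≠ 0` in `A`. -/
theorem index_range_powMonoidHom_units (n : ℕ) (hn : (n : A) ≠ 0) :
    (powMonoidHom n : Aˣ →* Aˣ).range.index =
      Nat.card (A ⧸ Ideal.span {(n : A)}) * Nat.card (powMonoidHom n : Aˣ →* Aˣ).ker := by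
  obtain ⟨ϖ, hϖ⟩ := IsDiscreteValuationRing.exists_irreducible A
  obtain ⟨e, v, hv⟩ := exists_eq_unit_mul_pow n hn hϖ
  set f : Aˣ →* Aˣ := powMonoidHom n with hf
  set M' := U A (e + 1) with hM'
  have hmap : M'.map f = U A (e + 1 + e) := by
    apply le_antisymm
    · rintro _ ⟨x, hx, rfl⟩
      exact pow_mem_U_add hϖ n e v hv (e + 1) (by omega) x hx
    · intro y hy
      obtain ⟨x, hx, hxy⟩ := exists_pow_eq_of_mem_U hϖ n e v hv (e + 1) le_rfl y hy
      exact ⟨x, hx, hxy⟩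
  have hker : f.ker ⊓ M' = ⊥ := by
    rw [eq_bot_iff]
    rintro x ⟨hx1, hx2⟩
    rw [Subgroup.mem_bot]
    exact eq_one_of_pow_eq_one_of_mem_U hϖ n e v hv (e + 1) le_rfl x hx2 hx1
  have H := herbrand_pair_finite_index f (1 : Aˣ →* Aˣ) (fun x => by simp [hf])
    (fun x => by simp) M' (by rw [hmap]; exact U_anti A (by omega))
    (by
      rintro _ ⟨x, _, rfl⟩
      simp only [MonoidHom.one_apply]
      exact M'.one_mem)
    (index_U_ne_zero _)
  have h1 : (1 : Aˣ →* Aˣ).ker = ⊤ := by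
    ext x; simp
  have h2 : M'.map (1 : Aˣ →* Aˣ) = ⊥ := by
    rw [eq_bot_iff]
    rintro _ ⟨x, _, rfl⟩
    simp
  have h3 : (1 : Aˣ →* Aˣ).range = ⊥ := by
    rw [eq_bot_iff]
    rintro _ ⟨x, rfl⟩
    simp
  rw [h1, h2, h3, hker, Subgroup.relIndex_top_right, top_inf_eq, Subgroup.relIndex_bot_left,
    Subgroup.relIndex_bot_left, hmap, relIndex_U_add (e + 1) e (by omega) (by omega)] at H
  have hspan : Ideal.span {(n : A)} = maximalIdeal A ^ e := by
    rw [hv, hϖ.maximalIdeal_eq, Ideal.span_singleton_pow]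
    exact Ideal.span_singleton_eq_span_singleton.2
      (Associated.symm ⟨v, by ring⟩)
  rw [hspan]
  have hbot : Nat.card (⊥ : Subgroup Aˣ) = 1 := Subgroup.card_bot
  rw [hbot, mul_one] at H
  exact H

/-- the `n`-th powers have finite index in `Aˣ` -/
theorem index_range_powMonoidHom_units_ne_zero (n : ℕ) (hn : (n : A) ≠ 0) :
    (powMonoidHom n : Aˣ →* Aˣ).range.index ≠ 0 := by
  obtain ⟨ϖ, hϖ⟩ := IsDiscreteValuationRing.exists_irreducible A
  obtain ⟨e, v, hv⟩ := exists_eq_unit_mul_pow n hn hϖ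
  have hle : U A (e + 1 + e) ≤ (powMonoidHom n : Aˣ →* Aˣ).range := by
    intro y hy
    obtain ⟨x, _, hxy⟩ := exists_pow_eq_of_mem_U hϖ n e v hv (e + 1) le_rfl y hy
    exact ⟨x, hxy⟩
  intro h
  have := Subgroup.index_dvd_of_le hle
  rw [h, zero_dvd_iff] at this
  exact index_U_ne_zero (A := A) (e + 1 + e) this

end Index

section Field

variable {A K : Type*} [CommRing A] [IsDomain A] [IsLocalInt A] [Field K] [Algebra A K]
  [IsFractionRing A K]

theorem index_range_powMonoidHom_multiplicative_int (n : ℕ) :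
    (powMonoidHom n : Multiplicative ℤ →* Multiplicative ℤ).range.index = n := by
  have h : (powMonoidHom n : Multiplicative ℤ →* Multiplicative ℤ).range =
      AddSubgroup.toSubgroup (AddSubgroup.zmultiples (n : ℤ)) := by
    ext x
    simp only [MonoidHom.mem_range, powMonoidHom_apply]
    constructor
    · rintro ⟨y, rfl⟩
      change Multiplicative.toAdd (y ^ n) ∈ AddSubgroup.zmultiples (n : ℤ)
      rw [toAdd_pow, AddSubgroup.mem_zmultiples_iff]
      exact ⟨Multiplicative.toAdd y, by simp [mul_comm]⟩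
    · intro hx
      change Multiplicative.toAdd x ∈ AddSubgroup.zmultiples (n : ℤ) at hx
      rw [AddSubgroup.mem_zmultiples_iff] at hx
      obtain ⟨k, hk⟩ := hx
      refine ⟨Multiplicative.ofAdd k, ?_⟩
      rw [← ofAdd_nsmul]
      apply Multiplicative.toAdd.injective
      simp [← hk, mul_comm]
  rw [h]
  have := Int.index_zmultiples (n : ℤ)
  simpa using this

/-- **`[Kˣ : (Kˣ)ⁿ] = n · [Aˣ : (Aˣ)ⁿ]`** -/
theorem index_range_powMonoidHom_field (n : ℕ) (hn0 : n ≠ 0) :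
    (powMonoidHom n : Kˣ →* Kˣ).range.index =
      n * (powMonoidHom n : Aˣ →* Aˣ).range.index := by
  set ι : Aˣ →* Kˣ := Units.map (algebraMap A K : A →* K) with hι
  have hιinj : Function.Injective ι :=
    Units.map_injective (IsFractionRing.injective A K)
  have L := relIndex_eq_map_mul_ker (ord A K) (le_top : (powMonoidHom n : Kˣ →* Kˣ).range ≤ ⊤)
  rw [Subgroup.relIndex_top_right, top_inf_eq] at L
  have h1 : (powMonoidHom n : Kˣ →* Kˣ).range.map (ord A K) =
      (powMonoidHom n : Multiplicative ℤ →* Multiplicative ℤ).range := by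
    ext m
    constructor
    · rintro ⟨_, ⟨x, rfl⟩, rfl⟩
      exact ⟨ord A K x, by simp⟩
    · rintro ⟨m', rfl⟩
      obtain ⟨x, rfl⟩ := ord_surjective A K m'
      exact ⟨x ^ n, ⟨x, rfl⟩, by simp⟩
  have h2 : (⊤ : Subgroup Kˣ).map (ord A K) = ⊤ := by
    rw [← MonoidHom.range_eq_map, MonoidHom.range_eq_top]
    exact ord_surjective A K
  have h3 : (powMonoidHom n : Kˣ →* Kˣ).range ⊓ (ord A K).ker =
      ((powMonoidHom n : Aˣ →* Aˣ).range).map ι := by
    ext x
    constructor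
    · rintro ⟨⟨y, rfl⟩, hy⟩
      have h4 : ordZ A K (y ^ n) = 0 := by
        have : ord A K (y ^ n) = 1 := hy
        simp [ordZ, this]
      rw [ordZ_pow] at h4
      have h5 : ordZ A K y = 0 := by
        rcases mul_eq_zero.1 h4 with h | h
        · exact absurd (by exact_mod_cast h) hn0
        · exact h
      obtain ⟨u, rfl⟩ := (ordZ_eq_zero_iff y).1 h5
      exact ⟨u ^ n, ⟨u, rfl⟩, by simp [hι]⟩
    · rintro ⟨_, ⟨u, rfl⟩, rfl⟩
      refine ⟨⟨ι u, by simp⟩, ?_⟩
      rw [ker_ord]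
      exact ⟨u ^ n, rfl⟩
  have h4 : (ord A K).ker = (⊤ : Subgroup Aˣ).map ι := by
    rw [ker_ord, MonoidHom.range_eq_map]
  rw [h1, h2, Subgroup.relIndex_top_right, index_range_powMonoidHom_multiplicative_int, h3, h4,
    Subgroup.relIndex_map_map_of_injective _ _ hιinj, Subgroup.relIndex_top_right] at L
  exact L

/-- **`[Kˣ : (Kˣ)ⁿ] = n · |A / nA| · |μ_n(A)|`** -/
theorem index_range_powMonoidHom_field_eq (n : ℕ) (hn : (n : A) ≠ 0) :
    (powMonoidHom n : Kˣ →* Kˣ).range.index =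
      n * (Nat.card (A ⧸ Ideal.span {(n : A)}) * Nat.card (powMonoidHom n : Aˣ →* Aˣ).ker) := by
  have hn0 : n ≠ 0 := by
    rintro rfl
    exact hn (by simp)
  rw [index_range_powMonoidHom_field (A := A) n hn0, index_range_powMonoidHom_units n hn]

/-- the `n`-th roots of unity of `K` lie in `A` -/
theorem card_ker_powMonoidHom_field (n : ℕ) (hn0 : n ≠ 0) :
    Nat.card (powMonoidHom n : Kˣ →* Kˣ).ker = Nat.card (powMonoidHom n : Aˣ →* Aˣ).ker := by
  set ι : Aˣ →* Kˣ := Units.map (algebraMap A K : A →* K) with hι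
  have hιinj : Function.Injective ι :=
    Units.map_injective (IsFractionRing.injective A K)
  have h : (powMonoidHom n : Kˣ →* Kˣ).ker = ((powMonoidHom n : Aˣ →* Aˣ).ker).map ι := by
    ext x
    constructor
    · intro hx
      have hx' : x ^ n = 1 := hx
      have h4 : ordZ A K (x ^ n) = 0 := by rw [hx', ordZ_one]
      rw [ordZ_pow] at h4
      have h5 : ordZ A K x = 0 := by
        rcases mul_eq_zero.1 h4 with h | h
        · exact absurd (by exact_mod_cast h) hn0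
        · exact h
      obtain ⟨u, rfl⟩ := (ordZ_eq_zero_iff x).1 h5
      refine ⟨u, ?_, rfl⟩
      apply hιinj
      rw [powMonoidHom_apply, map_pow, map_one]
      exact hx'
    · rintro ⟨u, hu, rfl⟩
      have hu' : u ^ n = 1 := hu
      change (ι u) ^ n = 1
      rw [← map_pow, hu', map_one]
  rw [h]
  exact (Nat.card_congr ((powMonoidHom n : Aˣ →* Aˣ).ker.equivMapOfInjective ι hιinj).toEquiv).symm

/-- **`[Kˣ : (Kˣ)ⁿ] = n · |μ_n(K)| · |A / nA|`** -/
theorem index_range_powMonoidHom_field_eq' (n : ℕ) (hn : (n : A) ≠ 0) :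
    (powMonoidHom n : Kˣ →* Kˣ).range.index =
      n * Nat.card (powMonoidHom n : Kˣ →* Kˣ).ker * Nat.card (A ⧸ Ideal.span {(n : A)}) := by
  have hn0 : n ≠ 0 := by
    rintro rfl
    exact hn (by simp)
  rw [index_range_powMonoidHom_field_eq (A := A) n hn, card_ker_powMonoidHom_field (A := A) n hn0]
  ring

/-- the `n`-th powers have finite index in `Kˣ` (`n ≠ 0` in `A`) -/
theorem index_range_powMonoidHom_field_ne_zero (n : ℕ) (hn : (n : A) ≠ 0) :
    (powMonoidHom n : Kˣ →* Kˣ).range.index ≠ 0 := by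
  have hn0 : n ≠ 0 := by
    rintro rfl
    exact hn (by simp)
  rw [index_range_powMonoidHom_field (A := A) n hn0]
  exact mul_ne_zero hn0 (index_range_powMonoidHom_units_ne_zero n hn)

end Field

end Fermat.Agent.CFT.Local
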