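/-
P4 / Layer B: towers of local fields and their fundamental `p`-classes.

`LocalTower q T` : over a tower of finite groups `T`, local fields `F j / ℚ_q` with faithful
actions of `T.G j`, equivariant embeddings and Galois descent.  `LocalTower.units` is the tower
module `j ↦ (F j)ˣ`.  If the tower has enough unramified levels (`p ^ n ∣ f(F k)` for some `k ≥ j`),
there are classes `u j ∈ H²(T.G j, (F j)ˣ)` of order `|T.G j|_p` with `infl (u i) = [ker] • u j`.
-/
import Fermat.Agent.Lib.CFT.Local.UrClass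
import Fermat.Agent.Lib.CFT.Duality.Tower
import Fermat.Agent.Lib.CFT.Coh.PPart
import Fermat.Agent.Lib.CFT.Local.PowerIndex

set_option autoImplicit false
set_option linter.unusedSectionVars false
set_option linter.style.haveILetI false
set_option linter.unusedVariables false

open CategoryTheory groupCohomology IsLocalRing

namespace Fermat.Agent.CFT.Local

open Fermat.Agent.CFT.Duality

attribute [local instance] Units.mulDistribMulActionRight

noncomputable section

/-- a tower of local fields over a tower of finite groups -/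
structure LocalTower (q : ℕ) [Fact q.Prime] (T : Tower) where
  /-- the fields -/
  F : T.ι → Type
  [instField : ∀ i, Field (F i)]
  [instAlgQ : ∀ i, Algebra ℚ_[q] (F i)]
  [instFinDim : ∀ i, FiniteDimensional ℚ_[q] (F i)]
  [instAlgZ : ∀ i, Algebra ℤ_[q] (F i)]
  [instTower : ∀ i, IsScalarTower ℤ_[q] ℚ_[q] (F i)]
  [instAction : ∀ i, MulSemiringAction (T.G i) (F i)]
  [instComm : ∀ i, SMulCommClass (T.G i) ℚ_[q] (F i)]
  [instFaithful : ∀ i, FaithfulSMul (T.G i) (F i)]
  /-- the transition embeddings -/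
  emb : ∀ {i j : T.ι}, i ≤ j → (F i →ₐ[ℚ_[q]] F j)
  emb_smul : ∀ {i j : T.ι} (h : i ≤ j) (g : T.G j) (x : F i), emb h (T.π h g • x) = g • emb h x
  emb_refl : ∀ (i : T.ι) (x : F i), emb (le_refl i) x = x
  emb_comp : ∀ {i j k : T.ι} (h : i ≤ j) (h' : j ≤ k) (x : F i),
    emb h' (emb h x) = emb (h.trans h') x
  /-- Galois descent -/
  descent : ∀ {i j : T.ι} (h : i ≤ j) (y : F j),
    (∀ g ∈ (T.π h).ker, g • y = y) → ∃ x : F i, emb h x = y

attribute [instance] LocalTower.instField LocalTower.instAlgQ LocalTower.instFinDim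
  LocalTower.instAlgZ LocalTower.instTower LocalTower.instAction LocalTower.instComm
  LocalTower.instFaithful

namespace LocalTower

variable {q : ℕ} [Fact q.Prime] {T : Tower} (Λ : LocalTower q T)

theorem emb_smul' {i j : T.ι} (h : i ≤ j) (g : T.G j) (x : Λ.F i) :
    (Λ.emb h).toRingHom (T.π h g • x) = g • (Λ.emb h).toRingHom x := Λ.emb_smul h g x

/-- the tower module `j ↦ (F j)ˣ` -/
def units : TowerModule ℤ T where
  C i := unitsRep (Λ.F i) (T.G i)
  φ h := pairHom (T.π h) (Λ.emb h).toRingHom (Λ.emb_smul' h)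
  φ_refl i x := by
    apply unitsRep.toU_injective (Λ.F i) (T.G i)
    ext
    exact Λ.emb_refl i _
  φ_comp h h' x := by
    apply unitsRep.toU_injective
    ext
    exact Λ.emb_comp h h' _

theorem units_C (i : T.ι) : Λ.units.C i = unitsRep (Λ.F i) (T.G i) := rfl

theorem map_units_φ {i j : T.ι} (h : i ≤ j) (n : ℕ) :
    groupCohomology.map (T.π h) (Λ.units.φ h) n =
      pairMap (T.π h) (Λ.emb h).toRingHom (Λ.emb_smul' h) n := rfl

/-- Galois descent for the units -/
theorem units_hasDescent : Λ.units.HasDescent where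
  injective {i j} h := by
    intro x y hxy
    apply unitsRep.toU_injective (Λ.F i) (T.G i)
    ext
    have h1 := congrArg (fun z => ((unitsRep.toU (Λ.F j) (T.G j) z : (Λ.F j)ˣ) : Λ.F j)) hxy
    exact (Λ.emb h).toRingHom.injective h1
  surjective {i j} h y hy := by
    have hfix : ∀ g ∈ (T.π h).ker, g • ((unitsRep.toU (Λ.F j) (T.G j) y : (Λ.F j)ˣ) : Λ.F j) =
        (unitsRep.toU (Λ.F j) (T.G j) y : (Λ.F j)ˣ) := by
      intro g hg
      have := hy g hg
      exact congrArg (fun z => ((unitsRep.toU (Λ.F j) (T.G j) z : (Λ.F j)ˣ) : Λ.F j)) this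
    obtain ⟨x, hx⟩ := Λ.descent h _ hfix
    have hx0 : x ≠ 0 := by
      rintro rfl
      rw [map_zero] at hx
      exact (unitsRep.toU (Λ.F j) (T.G j) y).ne_zero hx.symm
    refine ⟨unitsRep.ofU (Λ.F i) (T.G i) (Units.mk0 x hx0), ?_⟩
    apply unitsRep.toU_injective (Λ.F j) (T.G j)
    ext
    exact hx

/-- Hilbert 90 for all subgroups -/
theorem units_h1 (j : T.ι) (P : Subgroup (T.G j)) :
    Subsingleton (groupCohomology (Λ.units.atSub j P) 1) := by
  have hres : Λ.units.atSub j P = unitsRep (Λ.F j) P := rfl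
  rw [hres]
  exact ModuleCat.isZero_iff_subsingleton.1 (isZero_H1_unitsRep q (Λ.F j) P)

/-- the second inequality for `p`-subgroups -/
theorem units_h2P (p : ℕ) [Fact p.Prime] (j : T.ι) (P : Subgroup (T.G j)) (hP : IsPGroup p P) :
    Finite (groupCohomology (Λ.units.atSub j P) 2) ∧
      Nat.card (groupCohomology (Λ.units.atSub j P) 2) ≤ Nat.card P := by
  have hres : Λ.units.atSub j P = unitsRep (Λ.F j) P := rfl
  rw [hres]
  exact card_H2_unitsRep_le_of_isPGroup q (Λ.F j) p P hP

/-- `(F j ^ U)ˣ / p` is finite -/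
theorem units_finite_mod (p : ℕ) (hp : p ≠ 0) (j : T.ι) (U : Subgroup (T.G j)) :
    ∃ F : Finset (Λ.units.C j), ∀ c : Λ.units.C j, (∀ u ∈ U, (Λ.units.C j).ρ u c = c) →
      ∃ f ∈ F, ∃ e : Λ.units.C j, (∀ u ∈ U, (Λ.units.C j).ρ u e = e) ∧ c = f + p • e := by
  classical
  set K := FixedF q (Λ.F j) U with hK
  haveI : CharZero K := charZero_of_qField q K
  have hpA : (p : OInt q K) ≠ 0 := by
    intro h0
    have h1 : ((p : OInt q K) : K) = 0 := by rw [h0]; rfl
    rw [show ((p : OInt q K) : K) = (p : K) from map_natCast (OInt q K).subtype p] at h1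
    exact (Nat.cast_ne_zero.2 hp) h1
  have hidx : (powMonoidHom p : Kˣ →* Kˣ).range.index ≠ 0 :=
    index_range_powMonoidHom_field_ne_zero (A := OInt q K) (K := K) p hpA
  haveI : (powMonoidHom p : Kˣ →* Kˣ).range.FiniteIndex := ⟨hidx⟩
  haveI : Finite (Kˣ ⧸ (powMonoidHom p : Kˣ →* Kˣ).range) :=
    Subgroup.finite_quotient_of_finiteIndex
  let rep : Kˣ ⧸ (powMonoidHom p : Kˣ →* Kˣ).range → Λ.units.C j := fun c =>
    unitsRep.ofU (Λ.F j) (T.G j) (unitsIncl K (Λ.F j) c.out)
  refine ⟨(Set.finite_range rep).toFinset, ?_⟩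
  intro c hc
  have hc' : unitsRep.toU (Λ.F j) (T.G j) c ∈ fixedU (Λ.F j) U := by
    intro u
    exact congrArg (unitsRep.toU (Λ.F j) (T.G j)) (hc u u.2)
  rw [fixedU_eq_range q (Λ.F j) U] at hc'
  obtain ⟨k, hk⟩ := hc'
  set r : Kˣ := (QuotientGroup.mk k : Kˣ ⧸ (powMonoidHom p : Kˣ →* Kˣ).range).out with hr
  have hmem : r⁻¹ * k ∈ (powMonoidHom p : Kˣ →* Kˣ).range := by
    rw [← QuotientGroup.eq, hr, QuotientGroup.out_eq']
  obtain ⟨e, he⟩ := hmem
  refine ⟨rep (QuotientGroup.mk k), ?_, unitsRep.ofU (Λ.F j) (T.G j) (unitsIncl K (Λ.F j) e), ?_, ?_⟩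
  · rw [Set.Finite.mem_toFinset]
    exact ⟨_, rfl⟩
  · intro u hu
    apply unitsRep.toU_injective (Λ.F j) (T.G j)
    ext
    exact (e : K).2 ⟨u, hu⟩
  · apply unitsRep.toU_injective (Λ.F j) (T.G j)
    change unitsRep.toU (Λ.F j) (T.G j) c = unitsIncl K (Λ.F j) r * (unitsIncl K (Λ.F j) e) ^ p
    rw [← hk, ← map_pow, ← map_mul]
    congr 1
    have : e ^ p = r⁻¹ * k := he
    rw [this, mul_inv_cancel_left]

end LocalTower

section Single

variable (q : ℕ) [Fact q.Prime]
variable (M : Type) [Field M] [Algebra ℚ_[q] M] [FiniteDimensional ℚ_[q] M] [Algebra ℤ_[q] M]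
  [IsScalarTower ℤ_[q] ℚ_[q] M]
variable (G : Type) [Group G] [Finite G] [MulSemiringAction G M] [SMulCommClass G ℚ_[q] M]
  [FaithfulSMul G M]

open Module in
/-- `[M : ℚ_q] = [M^G : ℚ_q] · |G|` -/
theorem finrank_fixedF_mul_card :
    finrank ℚ_[q] (FixedF q M G) * Nat.card G = finrank ℚ_[q] M := by
  rw [← finrank_fixedF q M G]
  exact Module.finrank_mul_finrank ℚ_[q] (FixedF q M G) M

open Module in
/-- `[M^H : ℚ_q] = [G : H] · [M^G : ℚ_q]` -/
theorem finrank_fixedF_subgroup (H : Subgroup G) :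
    finrank ℚ_[q] (FixedF q M H) = H.index * finrank ℚ_[q] (FixedF q M G) := by
  have h1 := finrank_fixedF_mul_card q M G
  have h2 := finrank_fixedF_mul_card q M H
  have h3 : Nat.card H * H.index = Nat.card G := H.card_mul_index
  have hH : 0 < Nat.card H := Nat.card_pos
  apply Nat.eq_of_mul_eq_mul_right hH
  rw [h2, ← h1, ← h3]
  ring

variable {q M G} in
/-- restriction of an unramified class to a subgroup multiplies the invariant by the index -/
theorem IsUrClass.res (H : Subgroup G) {x : groupCohomology (unitsRep M G) 2}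
    {t : AddCircle (1 : ℚ)} (h : IsUrClass q M G x t) :
    IsUrClass q M H ((resPair M G H 2).hom x) (H.index • t) := by
  have := IsUrClass.map q H.subtype (AlgHom.id ℚ_[q] M) (fun g x => rfl) H.index
    (finrank_fixedF_subgroup q M G H) h
  exact this

end Single

namespace LocalTower

variable {q : ℕ} [Fact q.Prime] {T : Tower} (Λ : LocalTower q T)

/-- inflation `H²(G i, (F i)ˣ) → H²(G j, (F j)ˣ)` -/
abbrev infl {i j : T.ι} (h : i ≤ j) :
    groupCohomology (unitsRep (Λ.F i) (T.G i)) 2 ⟶ groupCohomology (unitsRep (Λ.F j) (T.G j)) 2 :=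
  pairMap (T.π h) (Λ.emb h).toRingHom (Λ.emb_smul' h) 2

theorem infl_injective {i j : T.ι} (h : i ≤ j) : Function.Injective (Λ.infl h).hom :=
  pairMap_injective_of_descent q (T.π h) (Λ.emb h).toRingHom (Λ.emb_smul' h) (T.π_surjective h)
    (Λ.descent h)

theorem infl_comp {i j k : T.ι} (h : i ≤ j) (h' : j ≤ k)
    (x : groupCohomology (unitsRep (Λ.F i) (T.G i)) 2) :
    (Λ.infl h').hom ((Λ.infl h).hom x) = (Λ.infl (h.trans h')).hom x := by
  refine (pairMap_comp_apply (T.π h) (Λ.emb h).toRingHom (Λ.emb_smul' h) (T.π h')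
    (Λ.emb h').toRingHom (Λ.emb_smul' h') 2 x).trans ?_
  refine congrArg (fun f => ModuleCat.Hom.hom f x) ?_
  apply pairMap_congr
  · exact MonoidHom.ext fun g => T.π_comp h h' g
  · exact RingHom.ext fun x => Λ.emb_comp h h' x

theorem infl_eq_of_exists {i j : T.ι} (h : i ≤ j)
    (x : groupCohomology (unitsRep (Λ.F j) (T.G j)) 2)
    (hx : (resPair (Λ.F j) (T.G j) (T.π h).ker 2).hom x = 0) :
    ∃ y, (Λ.infl h).hom y = x :=
  exists_pairMap_eq_of_descent q (T.π h) (Λ.emb h).toRingHom (Λ.emb_smul' h) (T.π_surjective h)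
    (Λ.descent h) x hx

/-- the base fields `(F i)^{G i}` are all the same -/
def fixedEquiv {i j : T.ι} (h : i ≤ j) :
    FixedF q (Λ.F i) (T.G i) ≃ₐ[ℚ_[q]] FixedF q (Λ.F j) (T.G j) :=
  AlgEquiv.ofBijective
    (((Λ.emb h).comp (FixedF q (Λ.F i) (T.G i)).val).codRestrict
      (FixedF q (Λ.F j) (T.G j)).toSubalgebra (fun x g => by
        change g • Λ.emb h (x : Λ.F i) = Λ.emb h (x : Λ.F i)
        rw [← Λ.emb_smul h g, x.2 (T.π h g)]))
    (by
      constructor
      · intro x y hxy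
        have h1 : Λ.emb h (x : Λ.F i) = Λ.emb h (y : Λ.F i) := congrArg Subtype.val hxy
        exact Subtype.ext ((Λ.emb h).toRingHom.injective h1)
      · intro y
        obtain ⟨x, hx⟩ := Λ.descent h (y : Λ.F j) (fun g _ => y.2 g)
        refine ⟨⟨x, fun g' => ?_⟩, Subtype.ext hx⟩
        obtain ⟨g, rfl⟩ := T.π_surjective h g'
        apply (Λ.emb h).toRingHom.injective
        change Λ.emb h (T.π h g • x) = Λ.emb h x
        rw [Λ.emb_smul h g, hx, y.2 g])

open Module in
theorem finrank_fixedF_eq {i j : T.ι} (h : i ≤ j) :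
    finrank ℚ_[q] (FixedF q (Λ.F j) (T.G j)) = 1 * finrank ℚ_[q] (FixedF q (Λ.F i) (T.G i)) := by
  rw [one_mul]
  exact (Λ.fixedEquiv h).toLinearEquiv.finrank_eq.symm

/-- unramified classes inflate to unramified classes of the same invariant -/
theorem isUrClass_infl {i j : T.ι} (h : i ≤ j) {x : groupCohomology (unitsRep (Λ.F i) (T.G i)) 2}
    {t : AddCircle (1 : ℚ)} (hx : IsUrClass q (Λ.F i) (T.G i) x t) :
    IsUrClass q (Λ.F j) (T.G j) ((Λ.infl h).hom x) t := by
  have := IsUrClass.map q (T.π h) (Λ.emb h) (Λ.emb_smul h) 1 (Λ.finrank_fixedF_eq h) hx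
  rwa [one_smul] at this

section Fund

open Fermat.Agent.CFT.Coh

variable (p : ℕ) [hp : Fact p.Prime]

/-- `N • (1/N)_p = 0` -/
theorem nsmul_pPart_self (N : ℕ) : N • pPart p N = 0 := by
  obtain ⟨c, hc⟩ : p ^ N.factorization p ∣ N := Nat.ordProj_dvd N p
  have h1 : N • pPart p N = c • (p ^ N.factorization p • pPart p N) := by
    rw [← mul_smul, mul_comm, ← hc]
  rw [h1, pow_factorization_nsmul_pPart, smul_zero]

/-- the order of `(1/N)_p` is `p ^ v_p(N)` -/
theorem addOrderOf_pPart {N : ℕ} (hN : N ≠ 0) :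
    addOrderOf (pPart p N) = p ^ N.factorization p := by
  apply Nat.dvd_antisymm
  · exact addOrderOf_dvd_of_nsmul_eq_zero (pow_factorization_nsmul_pPart p N)
  · have h1 : (addOrderOf (pPart p N) : ℤ) • pPart p N = 0 := by
      rw [natCast_zsmul]
      exact addOrderOf_nsmul_eq_zero _
    exact Int.natCast_dvd_natCast.1 (dvd_of_zsmul_pPart_eq_zero p hN _ h1)

variable (hur : ∀ (j : T.ι) (n : ℕ), ∃ (k : T.ι) (_ : j ≤ k), p ^ n ∣ resF q (Λ.F k) (T.G k))

include hur in
/-- existence of the fundamental `p`-class at level `j` -/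
theorem exists_fundClass (j : T.ι) :
    ∃ u : groupCohomology (unitsRep (Λ.F j) (T.G j)) 2, ∃ (k : T.ι) (h : j ≤ k),
      IsUrClass q (Λ.F k) (T.G k) ((Λ.infl h).hom u) (pPart p (Nat.card (T.G j))) := by
  obtain ⟨k, h, hk⟩ := hur j ((Nat.card (T.G j)).factorization p)
  have h0 : resF q (Λ.F k) (T.G k) • pPart p (Nat.card (T.G j)) = 0 := by
    obtain ⟨c, hc⟩ := hk
    rw [hc, mul_comm, mul_smul, pow_factorization_nsmul_pPart, smul_zero]
  obtain ⟨x, hx⟩ := IsUrClass.exists (q := q) (M := Λ.F k) (G := T.G k) _ h0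
  have hres := hx.res (T.π h).ker
  have hidx : (T.π h).ker.index = Nat.card (T.G j) := by
    rw [Subgroup.index_ker, MonoidHom.range_eq_top.2 (T.π_surjective h)]
    exact Nat.card_congr (Subgroup.topEquiv).toEquiv
  rw [hidx, nsmul_pPart_self] at hres
  obtain ⟨u, hu⟩ := Λ.infl_eq_of_exists h x hres.eq_zero
  exact ⟨u, k, h, hu ▸ hx⟩

/-- the fundamental `p`-class at level `j` -/
def fundClass (j : T.ι) : groupCohomology (unitsRep (Λ.F j) (T.G j)) 2 :=
  Classical.choose (Λ.exists_fundClass p hur j)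

theorem fundClass_spec (j : T.ι) : ∃ (k : T.ι) (h : j ≤ k),
    IsUrClass q (Λ.F k) (T.G k) ((Λ.infl h).hom (Λ.fundClass p hur j))
      (pPart p (Nat.card (T.G j))) :=
  Classical.choose_spec (Λ.exists_fundClass p hur j)

/-- `u j` has order `|G j|_p` -/
theorem addOrderOf_fundClass (j : T.ι) :
    addOrderOf (Λ.fundClass p hur j) = p ^ (Nat.card (T.G j)).factorization p := by
  obtain ⟨k, h, hk⟩ := Λ.fundClass_spec p hur j
  rw [← addOrderOf_pPart p (Nat.card_pos (α := T.G j)).ne', ← hk.addOrderOf_eq]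
  exact (addOrderOf_injective (Λ.infl h).hom.toAddMonoidHom (Λ.infl_injective h) _).symm

/-- `infl (u i) = |ker (G j → G i)| • u j` -/
theorem fundClass_infl {i j : T.ι} (h : i ≤ j) :
    (groupCohomology.map (T.π h) (Λ.units.φ h) 2).hom (Λ.fundClass p hur i) =
      Nat.card (T.π h).ker • Λ.fundClass p hur j := by
  change (Λ.infl h).hom (Λ.fundClass p hur i) = _
  obtain ⟨ki, hi, hki⟩ := Λ.fundClass_spec p hur i
  obtain ⟨kj, hj, hkj⟩ := Λ.fundClass_spec p hur j
  obtain ⟨k, hik, hjk⟩ := exists_ge_ge ki kj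
  have h1 := Λ.isUrClass_infl hik hki
  have h2 := (Λ.isUrClass_infl hjk hkj).nsmul (Nat.card (T.π h).ker)
  rw [Λ.infl_comp] at h1 h2
  have hcard : Nat.card (T.G j) = Nat.card (T.π h).ker * Nat.card (T.G i) := by
    rw [← (T.π h).ker.card_mul_index, Subgroup.index_ker,
      MonoidHom.range_eq_top.2 (T.π_surjective h)]
    congr 1
    exact Nat.card_congr (Subgroup.topEquiv).toEquiv
  rw [hcard, nsmul_pPart_mul p (Nat.card_pos (α := (T.π h).ker)).ne'
    (Nat.card_pos (α := T.G i)).ne'] at h2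
  have h3 := h1.unique h2
  apply Λ.infl_injective (hj.trans hjk)
  rw [map_nsmul, ← h3, Λ.infl_comp]

include hur in
/-- `p^∞` divides the order of every open subgroup -/
theorem pinf_of_hur (j : T.ι) (U : Subgroup (T.G j)) (n : ℕ) :
    ∃ (k : T.ι) (h : j ≤ k), p ^ n ∣ Nat.card (T.pre h U) := by
  obtain ⟨k, h, hk⟩ := hur j (n + U.index.factorization p)
  refine ⟨k, h, ?_⟩
  have hidx : (T.pre h U).index = U.index := Subgroup.index_comap_of_surjective U (T.π_surjective h)
  have hcard : Nat.card (T.pre h U) * U.index = Nat.card (T.G k) := by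
    rw [← hidx]
    exact (T.pre h U).card_mul_index
  have hdvd : p ^ (n + U.index.factorization p) ∣ Nat.card (T.pre h U) * U.index := by
    rw [hcard]
    exact hk.trans (Dvd.intro_left _ (ramE_mul_resF q (Λ.F k) (T.G k)))
  have hU : U.index ≠ 0 := Subgroup.index_ne_zero_of_finite
  have hP : Nat.card (T.pre h U) ≠ 0 := (Nat.card_pos).ne'
  rw [hp.out.pow_dvd_iff_le_factorization (Nat.mul_ne_zero hP hU), Nat.factorization_mul hP hU,
    Finsupp.add_apply] at hdvd
  rw [hp.out.pow_dvd_iff_le_factorization hP]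
  omega

/-- **the fundamental `p`-classes of a tower of local fields with enough unramified levels** -/
def pFundamental : PFundamental p T Λ.units where
  descent := Λ.units_hasDescent
  pinf := Λ.pinf_of_hur p hur
  h1P j P _ := Λ.units_h1 j P
  h2P j P hP := Λ.units_h2P p j P hP
  u := Λ.fundClass p hur
  u_order := Λ.addOrderOf_fundClass p hur
  u_infl h := Λ.fundClass_infl p hur h
  finite_mod_p := Λ.units_finite_mod p hp.out.ne_zero

end Fund

end LocalTower

end

end Fermat.Agent.CFT.Local
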