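/-
P4 / Layer B: `|H²(G, Mˣ)| = |G|` for a finite cyclic group acting faithfully on a local field.
-/
import Fermat.Agent.Lib.CFT.Local.UnitsRep
import Fermat.Agent.Lib.CFT.Coh.CyclicLink

set_option autoImplicit false
set_option linter.unusedSectionVars false

open CategoryTheory groupCohomology

namespace Fermat.Agent.CFT.Local

attribute [local instance] Units.mulDistribMulActionRight

section Cyclic

variable (q : ℕ) [Fact q.Prime]
variable (M : Type) [Field M] [Algebra ℚ_[q] M] [FiniteDimensional ℚ_[q] M] [Algebra ℤ_[q] M]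
  [IsScalarTower ℤ_[q] ℚ_[q] M]
variable (G : Type) [Group G] [Fintype G] [MulSemiringAction G M] [SMulCommClass G ℚ_[q] M]
  [FaithfulSMul G M]

attribute [local instance] IsCyclic.commGroup in
include q in
/-- for a cyclic group: `|H²(G, Mˣ)| = |G|` -/
theorem card_H2_unitsRep_of_isCyclic [IsCyclic G] :
    Nat.card (groupCohomology (unitsRep M G) 2) = Nat.card G := by
  obtain ⟨g, hg⟩ := IsCyclic.exists_generator (α := G)
  rw [Coh.card_H2_eq_h0 (unitsRep M G) g hg, Coh.Herbrand.Pair.h0,
    ← relIndex_range_normU_of_isCyclic q M G, ← Subgroup.relIndex_toAddSubgroup]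
  congr 1
  · ext x
    constructor
    · rintro ⟨y, rfl⟩
      refine ⟨unitsRep.toU M G y, ?_⟩
      rw [Coh.cyclicPair_g_apply (unitsRep M G) g hg, ← toU_norm_unitsRep]
      rfl
    · rintro ⟨y, hy⟩
      refine ⟨unitsRep.ofU M G y, ?_⟩
      rw [Coh.cyclicPair_g_apply (unitsRep M G) g hg]
      apply unitsRep.toU_injective
      rw [toU_norm_unitsRep, unitsRep.toU_ofU]
      exact hy
  · ext x
    rw [Coh.mem_ker_cyclicPair_f (unitsRep M G) g hg, mem_invariants_unitsRep]
    rfl

end Cyclic

end Fermat.Agent.CFT.Local
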