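/-
P4 / Layer B: the quotient `G ⧸ N` acting on the fixed field `M^N`, and the identification of
`(Mˣ)^N` with `(M^N)ˣ` as `G ⧸ N`-modules.
-/
import Fermat.Agent.Lib.CFT.Local.H2Cyclic

set_option autoImplicit false
set_option linter.unusedSectionVars false
set_option linter.style.haveILetI false
set_option linter.unusedVariables false

open CategoryTheory groupCohomology

namespace Fermat.Agent.CFT.Local

attribute [local instance] Units.mulDistribMulActionRight

noncomputable section

variable (q : ℕ) [Fact q.Prime]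
variable (M : Type) [Field M] [Algebra ℚ_[q] M] [FiniteDimensional ℚ_[q] M] [Algebra ℤ_[q] M]
  [IsScalarTower ℤ_[q] ℚ_[q] M]
variable (G : Type) [Group G] [Finite G] [MulSemiringAction G M] [SMulCommClass G ℚ_[q] M]
  [FaithfulSMul G M]
variable (N : Subgroup G) [N.Normal]

/-- the action of `G ⧸ N` on `M^N` is the restriction of the action of `G` -/
theorem coe_quot_smul (g : G) (x : FixedF q M N) :
    (((g : G ⧸ N) • x : FixedF q M N) : M) = g • (x : M) := by
  letI := IsGaloisGroup.smulOfNormal G (FixedF q M N) M N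
  haveI := IsGaloisGroup.smulDistribClass_smulOfNormal G (FixedF q M N) M N
  letI := mulSemiringActionOfSmulDistribClass (FixedF q M N) M G
  have h1 := IsGaloisGroup.mulSemiringActionQuotient_smul_def G (FixedF q M N) M N g x
  have h2 := IsGaloisGroup.algebraMap_smulOfNormal G (FixedF q M N) M N g x
  rw [h1]
  exact h2

instance instSMulCommClassQuot : SMulCommClass (G ⧸ N) ℚ_[q] (FixedF q M N) where
  smul_comm g a x := by
    induction g using QuotientGroup.induction_on with | H g =>
    apply Subtype.ext
    rw [coe_quot_smul]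
    change g • (a • (x : M)) = a • (((g : G ⧸ N) • x : FixedF q M N) : M)
    rw [coe_quot_smul, smul_comm]

instance instFaithfulSMulQuot : FaithfulSMul (G ⧸ N) (FixedF q M N) where
  eq_of_smul_eq_smul {g₁ g₂} h := by
    induction g₁ using QuotientGroup.induction_on with | H g₁ =>
    induction g₂ using QuotientGroup.induction_on with | H g₂ =>
    rw [QuotientGroup.eq]
    have h1 : g₁⁻¹ * g₂ ∈ fixingSubgroup G
        ((FixedPoints.intermediateField N : IntermediateField (FixedF q M G) M) : Set M) := by
      rw [mem_fixingSubgroup_iff]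
      intro x hx
      have hx' : x ∈ FixedF q M N := hx
      have := congrArg Subtype.val (h ⟨x, hx'⟩)
      rw [coe_quot_smul, coe_quot_smul] at this
      rw [mul_smul, ← this, inv_smul_smul]
    rwa [IsGaloisGroup.fixingSubgroup_fixedPoints] at h1

/-- units of the fixed field, as invariant units -/
def fixedUnitsFwd (y : unitsRep (FixedF q M N) (G ⧸ N)) :
    (unitsRep M G).quotientToInvariants N :=
  ⟨unitsRep.ofU M G (Units.map (algebraMap (FixedF q M N) M : FixedF q M N →* M)
      (unitsRep.toU (FixedF q M N) (G ⧸ N) y)), by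
    intro n
    apply unitsRep.toU_injective
    ext
    exact (unitsRep.toU (FixedF q M N) (G ⧸ N) y : FixedF q M N).2 n⟩

theorem coe_fixedUnitsFwd (y : unitsRep (FixedF q M N) (G ⧸ N)) :
    ((unitsRep.toU M G (fixedUnitsFwd q M G N y).1 : Mˣ) : M) =
      ((unitsRep.toU (FixedF q M N) (G ⧸ N) y : (FixedF q M N)ˣ) : FixedF q M N) := rfl

theorem smul_toU_invariant (a : (unitsRep M G).quotientToInvariants N) (n : N) :
    (n : G) • unitsRep.toU M G a.1 = unitsRep.toU M G a.1 := by
  have := a.2 n
  exact congrArg (unitsRep.toU M G) this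

/-- invariant units, as units of the fixed field -/
def fixedUnitsBwd (a : (unitsRep M G).quotientToInvariants N) :
    unitsRep (FixedF q M N) (G ⧸ N) :=
  unitsRep.ofU (FixedF q M N) (G ⧸ N)
    ⟨⟨(unitsRep.toU M G a.1 : Mˣ), fun n => congrArg Units.val (smul_toU_invariant M G N a n)⟩,
     ⟨((unitsRep.toU M G a.1)⁻¹ : Mˣ), fun n => by
        have := congrArg (fun u : Mˣ => ((u⁻¹ : Mˣ) : M)) (smul_toU_invariant M G N a n)
        rw [Subgroup.smul_def]
        simpa [smul_inv'] using this⟩,
     Subtype.ext (by simp), Subtype.ext (by simp)⟩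

/-- `(M^N)ˣ ≃ (Mˣ)^N` as additive groups -/
def fixedUnitsAddEquiv :
    unitsRep (FixedF q M N) (G ⧸ N) ≃+ (unitsRep M G).quotientToInvariants N where
  toFun := fixedUnitsFwd q M G N
  invFun := fixedUnitsBwd q M G N
  left_inv y := by
    apply unitsRep.toU_injective
    ext
    rfl
  right_inv a := by
    apply Subtype.ext
    apply unitsRep.toU_injective
    ext
    rfl
  map_add' y z := by
    apply Subtype.ext
    apply unitsRep.toU_injective
    ext
    rfl

/-- `(M^N)ˣ ≃ (Mˣ)^N` as `ℤ`-modules -/
def fixedUnitsLinearEquiv :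
    unitsRep (FixedF q M N) (G ⧸ N) ≃ₗ[ℤ] (unitsRep M G).quotientToInvariants N :=
  { fixedUnitsAddEquiv q M G N with
    map_smul' := fun m y => map_zsmul (fixedUnitsAddEquiv q M G N) m y }

theorem fixedUnitsFwd_ρ (g : G ⧸ N) (y : unitsRep (FixedF q M N) (G ⧸ N)) :
    fixedUnitsFwd q M G N ((unitsRep (FixedF q M N) (G ⧸ N)).ρ g y) =
      ((unitsRep M G).quotientToInvariants N).ρ g (fixedUnitsFwd q M G N y) := by
  induction g using QuotientGroup.induction_on with | H g =>
  apply Subtype.ext
  apply unitsRep.toU_injective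
  ext
  exact coe_quot_smul q M G N g _

/-- `(M^N)ˣ ≅ (Mˣ)^N` as representations of `G ⧸ N` -/
def fixedUnitsIso :
    unitsRep (FixedF q M N) (G ⧸ N) ≅ (unitsRep M G).quotientToInvariants N :=
  Rep.mkIso (Representation.Equiv.mk (fixedUnitsLinearEquiv q M G N) (fun g => by
    refine LinearMap.ext fun y => ?_
    exact fixedUnitsFwd_ρ q M G N g y))

attribute [local instance] IsCyclic.commGroup in
include q in
/-- `|H²(G ⧸ N, (Mˣ)^N)| = [G : N]` if `G ⧸ N` is cyclic -/
theorem card_H2_quotientToInvariants_of_isCyclic [IsCyclic (G ⧸ N)] :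
    Nat.card (groupCohomology ((unitsRep M G).quotientToInvariants N) 2) = Nat.card (G ⧸ N) := by
  classical
  letI : Fintype (G ⧸ N) := Fintype.ofFinite _
  rw [← card_H2_unitsRep_of_isCyclic q (FixedF q M N) (G ⧸ N)]
  exact Nat.card_congr (((groupCohomology.functor ℤ (G ⧸ N) 2).mapIso
    (fixedUnitsIso q M G N)).toLinearEquiv.toEquiv).symm

end

end Fermat.Agent.CFT.Local
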