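/-
P4 / Layer B: inertia subgroup and Frobenius elements of a pair `(M, G)`
(`M` a finite extension of `ℚ_q`, `G` a finite group acting faithfully on `M`).
-/
import Fermat.Agent.Lib.CFT.Local.QuotAction

set_option autoImplicit false
set_option linter.unusedSectionVars false
set_option linter.style.haveILetI false
set_option linter.unusedVariables false

open IsLocalRing
open scoped Pointwise

namespace Fermat.Agent.CFT.Local

noncomputable section

attribute [local instance] algOInt isScalarTower_oInt isIntegralClosure_oInt

variable (q : ℕ) [Fact q.Prime]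
variable (M : Type) [Field M] [Algebra ℚ_[q] M] [FiniteDimensional ℚ_[q] M] [Algebra ℤ_[q] M]
  [IsScalarTower ℤ_[q] ℚ_[q] M]
variable (G : Type) [Group G] [Finite G] [MulSemiringAction G M] [SMulCommClass G ℚ_[q] M]
  [FaithfulSMul G M]

instance instSMulDistribClassOInt : SMulDistribClass G (OInt q M) M :=
  ⟨fun g b x => by
    rw [Algebra.smul_def, Algebra.smul_def, smul_mul']
    rfl⟩

instance instIsIntegralOIntTower :
    Algebra.IsIntegral (OInt q (FixedF q M G)) (OInt q M) :=
  IsIntegralClosure.isIntegral_algebra (OInt q (FixedF q M G)) M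

instance instIsGaloisGroupOInt : IsGaloisGroup G (OInt q (FixedF q M G)) (OInt q M) :=
  IsGaloisGroup.of_isFractionRing G (OInt q (FixedF q M G)) (OInt q M) (FixedF q M G) M

/-- every element of `G` stabilizes the maximal ideal -/
theorem stabilizer_maximalIdeal_eq_top :
    MulAction.stabilizer G (maximalIdeal (OInt q M)) = ⊤ := by
  rw [eq_top_iff]
  intro g _
  rw [MulAction.mem_stabilizer_iff]
  have hmax : (g • maximalIdeal (OInt q M)).IsMaximal := by
    change (Ideal.map (MulSemiringAction.toRingEquiv G (OInt q M) g)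
      (maximalIdeal (OInt q M))).IsMaximal
    exact Ideal.map_isMaximal_of_equiv _
  exact IsLocalRing.eq_maximalIdeal hmax

/-- the inertia subgroup: the elements acting trivially on the residue field -/
def inertia : Subgroup G := (maximalIdeal (OInt q M)).inertia G

theorem mem_inertia {g : G} :
    g ∈ inertia q M G ↔ ∀ b : OInt q M, g • b - b ∈ maximalIdeal (OInt q M) := Iff.rfl

instance instNormalInertia : (inertia q M G).Normal := by
  constructor
  intro n hn g b
  have h1 := hn (g⁻¹ • b)
  have h2 : g • (n • g⁻¹ • b - g⁻¹ • b) ∈ maximalIdeal (OInt q M) := by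
    have hst : g • maximalIdeal (OInt q M) = maximalIdeal (OInt q M) := by
      have : g ∈ MulAction.stabilizer G (maximalIdeal (OInt q M)) := by
        rw [stabilizer_maximalIdeal_eq_top]; exact Subgroup.mem_top g
      exact this
    rw [← hst]
    exact Ideal.smul_mem_pointwise_smul g _ _ h1
  rw [smul_sub, smul_inv_smul, ← mul_smul, ← mul_smul] at h2
  simpa [mul_assoc] using h2

theorem liesOver_oInt :
    (maximalIdeal (OInt q M)).LiesOver (maximalIdeal (OInt q (FixedF q M G))) :=
  liesOver_maximalIdeal (OInt q (FixedF q M G)) (FixedF q M G) M (OInt q M)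

/-- `|G| = |I| · f` -/
theorem card_inertia_mul_resF : Nat.card (inertia q M G) * resF q M G = Nat.card G := by
  haveI := liesOver_oInt q M G
  haveI : Finite (OInt q (FixedF q M G) ⧸ maximalIdeal (OInt q (FixedF q M G))) :=
    (inferInstance : Finite (ResidueField (OInt q (FixedF q M G))))
  have key := Ideal.card_stabilizer_eq_card_inertia_mul_finrank (G := G)
    (maximalIdeal (OInt q (FixedF q M G))) (maximalIdeal (OInt q M))
  rw [stabilizer_maximalIdeal_eq_top, Nat.card_congr (Subgroup.topEquiv (G := G)).toEquiv] at key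
  exact key.symm

/-- `|I| = e` -/
theorem card_inertia : Nat.card (inertia q M G) = ramE q M G := by
  have h1 := card_inertia_mul_resF q M G
  have h2 := ramE_mul_resF q M G
  have hpos : 0 < resF q M G := by
    rcases Nat.eq_zero_or_pos (resF q M G) with h | h
    · rw [h, mul_zero] at h2
      exact absurd h2.symm Nat.card_pos.ne'
    · exact h
  exact Nat.eq_of_mul_eq_mul_right hpos (h1.trans h2.symm)

theorem resF_pos : 0 < resF q M G := by
  have h2 := ramE_mul_resF q M G
  rcases Nat.eq_zero_or_pos (resF q M G) with h | h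
  · rw [h, mul_zero] at h2
    exact absurd h2.symm Nat.card_pos.ne'
  · exact h

/-- `[G : I] = f` -/
theorem index_inertia : (inertia q M G).index = resF q M G := by
  have h1 := card_inertia_mul_resF q M G
  have h2 := (inertia q M G).card_mul_index
  have hpos : 0 < Nat.card (inertia q M G) := Nat.card_pos
  exact Nat.eq_of_mul_eq_mul_left hpos (h2.trans h1.symm)

/-- an unramified pair has trivial inertia -/
theorem inertia_eq_bot_of_ramE_eq_one (h : ramE q M G = 1) : inertia q M G = ⊥ := by
  rw [← Subgroup.card_eq_one, card_inertia, h]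

/-! ### Frobenius elements -/

/-- the cardinality of the residue field of the fixed field -/
def qFix : ℕ := Nat.card (resM q (FixedF q M G))

theorem one_lt_qFix : 1 < qFix q M G := by
  haveI : Finite (resM q (FixedF q M G)) := inferInstance
  exact Finite.one_lt_card

/-- `φ` is a Frobenius element of the pair `(M, G)` -/
def IsFrob (φ : G) : Prop :=
  ∀ b : OInt q M, φ • b - b ^ qFix q M G ∈ maximalIdeal (OInt q M)

theorem exists_isFrob : ∃ φ : G, IsFrob q M G φ := by
  haveI := liesOver_oInt q M G
  haveI : Finite (OInt q M ⧸ maximalIdeal (OInt q M)) :=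
    (inferInstance : Finite (ResidueField (OInt q M)))
  obtain ⟨σ, hσ⟩ := IsArithFrobAt.exists_of_isInvariant (OInt q (FixedF q M G)) G
    (maximalIdeal (OInt q M))
  refine ⟨σ, fun b => ?_⟩
  have h := hσ b
  rw [← Ideal.over_def (maximalIdeal (OInt q M)) (maximalIdeal (OInt q (FixedF q M G)))] at h
  exact h

variable {q M G}

theorem IsFrob.pow_smul {φ : G} (hφ : IsFrob q M G φ) (k : ℕ) (b : OInt q M) :
    (φ ^ k) • b - b ^ (qFix q M G ^ k) ∈ maximalIdeal (OInt q M) := by
  induction k generalizing b with
  | zero => simp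
  | succ k ih =>
    rw [pow_succ', mul_smul, pow_succ, pow_mul]
    have h1 := hφ ((φ ^ k) • b)
    have h2 : ((φ ^ k) • b) ^ qFix q M G - (b ^ qFix q M G ^ k) ^ qFix q M G ∈
        maximalIdeal (OInt q M) :=
      (Ideal.Quotient.eq.1 (by
        rw [map_pow, map_pow, Ideal.Quotient.eq.2 (ih b)]))
    have := add_mem h1 h2
    rwa [sub_add_sub_cancel] at this

variable (q M G) in
/-- `|k_M| = |k_K|^f` for the pair -/
theorem card_resM_eq_qFix_pow : Nat.card (resM q M) = qFix q M G ^ resF q M G :=
  card_resM_eq_pow q (FixedF q M G) M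

/-- in a finite field whose elements all satisfy `x ^ m = x`, there are at most `m` elements -/
theorem card_le_of_forall_pow_eq {k : Type*} [Field k] [Finite k] {m : ℕ} (hm : 1 < m)
    (h : ∀ x : k, x ^ m = x) : Nat.card k ≤ m := by
  classical
  haveI : Fintype k := Fintype.ofFinite k
  have hne : (Polynomial.X ^ m - Polynomial.X : Polynomial k) ≠ 0 :=
    FiniteField.X_pow_card_sub_X_ne_zero k hm
  have hsub : (Finset.univ : Finset k).val ⊆ (Polynomial.X ^ m - Polynomial.X : Polynomial k).roots := by
    intro x _
    rw [Polynomial.mem_roots hne, Polynomial.IsRoot.def]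
    simp [h x]
  have := Polynomial.card_le_degree_of_subset_roots hsub
  rw [FiniteField.X_pow_card_sub_X_natDegree_eq k hm, Finset.card_univ,
    ← Nat.card_eq_fintype_card] at this
  exact this

/-- the order of a Frobenius element is at least `f` -/
theorem IsFrob.resF_le_orderOf {φ : G} (hφ : IsFrob q M G φ) : resF q M G ≤ orderOf φ := by
  have hd : 0 < orderOf φ := orderOf_pos φ
  have hN := one_lt_qFix q M G
  have hm : 1 < qFix q M G ^ orderOf φ := Nat.one_lt_pow hd.ne' hN
  have hall : ∀ x : resM q M, x ^ (qFix q M G ^ orderOf φ) = x := by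
    intro x
    obtain ⟨b, rfl⟩ := IsLocalRing.residue_surjective x
    have h := hφ.pow_smul (orderOf φ) b
    rw [pow_orderOf_eq_one, one_smul] at h
    have h' := (IsLocalRing.residue_eq_zero_iff _).2 h
    rw [map_sub, sub_eq_zero, map_pow] at h'
    exact h'.symm
  have hcard := card_le_of_forall_pow_eq hm hall
  rw [card_resM_eq_qFix_pow q M G] at hcard
  exact (Nat.pow_le_pow_iff_right hN).1 hcard

/-- **in an unramified pair, the Frobenius element generates the group** -/
theorem IsFrob.forall_mem_zpowers {φ : G} (hφ : IsFrob q M G φ) (h : ramE q M G = 1) :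
    ∀ g : G, g ∈ Subgroup.zpowers φ := by
  have h1 := hφ.resF_le_orderOf
  have h2 := ramE_mul_resF q M G
  rw [h, one_mul] at h2
  have h3 : orderOf φ ≤ Nat.card G := Nat.le_of_dvd Nat.card_pos (orderOf_dvd_natCard φ)
  have h4 : Nat.card (Subgroup.zpowers φ) = Nat.card G := by
    rw [Nat.card_zpowers]
    omega
  have := Subgroup.eq_top_of_card_eq _ h4
  intro g
  rw [this]
  exact Subgroup.mem_top g

/-! ### transport along isomorphisms -/

section Congr

variable (q)
variable {M M' : Type} [Field M] [Algebra ℚ_[q] M] [FiniteDimensional ℚ_[q] M] [Algebra ℤ_[q] M]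
  [IsScalarTower ℤ_[q] ℚ_[q] M] [Field M'] [Algebra ℚ_[q] M'] [FiniteDimensional ℚ_[q] M']
  [Algebra ℤ_[q] M'] [IsScalarTower ℤ_[q] ℚ_[q] M']

theorem map_mem_OInt (e : M →ₐ[ℚ_[q]] M') {x : M} (hx : x ∈ OInt q M) : e x ∈ OInt q M' :=
  IsIntegral.map (e.restrictScalars ℤ_[q]) hx

/-- an isomorphism of fields induces an isomorphism of rings of integers -/
def oIntEquiv (e : M ≃ₐ[ℚ_[q]] M') : OInt q M ≃+* OInt q M' where
  toFun x := ⟨e x, map_mem_OInt q e.toAlgHom x.2⟩
  invFun y := ⟨e.symm y, map_mem_OInt q e.symm.toAlgHom y.2⟩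
  left_inv x := Subtype.ext (e.symm_apply_apply x)
  right_inv y := Subtype.ext (e.apply_symm_apply y)
  map_mul' x y := Subtype.ext (map_mul e _ _)
  map_add' x y := Subtype.ext (map_add e _ _)

theorem card_resM_congr (e : M ≃ₐ[ℚ_[q]] M') : Nat.card (resM q M) = Nat.card (resM q M') :=
  Nat.card_congr (IsLocalRing.ResidueField.mapEquiv (oIntEquiv q e)).toEquiv

end Congr

/-! ### the quotient pair `(M^N, G ⧸ N)` -/

section Quot

variable (N : Subgroup G) [N.Normal]

/-- the fixed field of the quotient pair is the fixed field of `G` -/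
def fixedQuotEquiv : FixedF q (FixedF q M N) (G ⧸ N) ≃ₐ[ℚ_[q]] FixedF q M G where
  toFun x := ⟨((x : FixedF q M N) : M), fun g => by
    have h := congrArg Subtype.val (x.2 (g : G ⧸ N))
    rwa [coe_quot_smul] at h⟩
  invFun y := ⟨⟨(y : M), fun n => y.2 n⟩, fun g' => by
    induction g' using QuotientGroup.induction_on with | H g =>
    apply Subtype.ext
    rw [coe_quot_smul]
    exact y.2 g⟩
  left_inv x := rfl
  right_inv y := rfl
  map_mul' x y := rfl
  map_add' x y := rfl
  commutes' a := rfl

variable (q M G) in
theorem qFix_quot : qFix q (FixedF q M N) (G ⧸ N) = qFix q M G :=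
  card_resM_congr q (fixedQuotEquiv N)

variable (q M G) in
theorem finrank_fixedF_quot :
    Module.finrank ℚ_[q] (FixedF q (FixedF q M N) (G ⧸ N)) =
      Module.finrank ℚ_[q] (FixedF q M G) :=
  (fixedQuotEquiv N).toLinearEquiv.finrank_eq

end Quot

/-! ### the quotient by the inertia subgroup is unramified -/

section Unram

variable (q M G)

theorem mem_inertia_subgroup (H : Subgroup G) (h : H) :
    h ∈ inertia q M H ↔ (h : G) ∈ inertia q M G := Iff.rfl

theorem inertia_subgroup_eq (H : Subgroup G) :
    inertia q M H = (inertia q M G).subgroupOf H := by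
  ext h
  rw [Subgroup.mem_subgroupOf]
  exact mem_inertia_subgroup q M G H h

/-- the residue degree of `M / M^I` is one -/
theorem resF_inertia : resF q M (inertia q M G) = 1 := by
  have h1 := card_inertia_mul_resF q M (inertia q M G)
  rw [inertia_subgroup_eq, Subgroup.subgroupOf_self,
    Nat.card_congr (Subgroup.topEquiv (G := inertia q M G)).toEquiv] at h1
  have hpos : 0 < Nat.card (inertia q M G) := Nat.card_pos
  have : Nat.card (inertia q M G) * resF q M (inertia q M G) = Nat.card (inertia q M G) * 1 := by
    rw [h1, mul_one]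
  exact Nat.eq_of_mul_eq_mul_left hpos this

/-- the residue degree of the quotient pair by the inertia subgroup -/
theorem resF_quot_inertia :
    resF q (FixedF q M (inertia q M G)) (G ⧸ inertia q M G) = resF q M G := by
  have h1 : Nat.card (resM q M) = Nat.card (resM q (FixedF q M (inertia q M G))) := by
    have := card_resM_eq_pow q (FixedF q M (inertia q M G)) M
    have h2 : relInertia q (FixedF q M (inertia q M G)) M = 1 := resF_inertia q M G
    rw [h2, pow_one] at this
    exact this
  have h3 := card_resM_eq_qFix_pow q (FixedF q M (inertia q M G)) (G ⧸ inertia q M G)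
  have h4 := card_resM_eq_qFix_pow q M G
  rw [qFix_quot q M G] at h3
  rw [h1, h3] at h4
  exact Nat.pow_right_injective (one_lt_qFix q M G) h4

/-- **the quotient pair by the inertia subgroup is unramified** -/
theorem ramE_quot_inertia :
    ramE q (FixedF q M (inertia q M G)) (G ⧸ inertia q M G) = 1 := by
  have h1 := ramE_mul_resF q (FixedF q M (inertia q M G)) (G ⧸ inertia q M G)
  rw [resF_quot_inertia, ← index_inertia, ← Subgroup.index_eq_card] at h1
  have hpos : 0 < (inertia q M G).index := by
    rw [index_inertia]; exact resF_pos q M G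
  have : ramE q (FixedF q M (inertia q M G)) (G ⧸ inertia q M G) * (inertia q M G).index =
      1 * (inertia q M G).index := by rw [h1, one_mul]
  exact Nat.eq_of_mul_eq_mul_right hpos this

theorem card_quot_inertia : Nat.card (G ⧸ inertia q M G) = resF q M G := by
  rw [← Subgroup.index_eq_card, index_inertia]

end Unram

end

end Fermat.Agent.CFT.Local
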