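/-
P4 / Layer B: roots of unity of order prime to `q` in a finite extension `M` of `ℚ_q` inject into
the residue field; consequence: if `M ∋ ζ_N` with `N = q ^ m - 1`, then `m ∣ f(M / ℚ_q)`.
-/
import Fermat.Agent.Lib.CFT.Local.Inertia

set_option autoImplicit false
set_option linter.unusedSectionVars false
set_option linter.style.haveILetI false
set_option linter.unusedVariables false

open IsLocalRing

namespace Fermat.Agent.CFT.Local

noncomputable section

section LocalRing

variable {R : Type*} [CommRing R] [IsDomain R] [IsLocalRing R]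

/-- an `n`-th root of unity congruent to `1` modulo the maximal ideal is `1`, if `n` is invertible
in the residue field -/
theorem eq_one_of_pow_eq_one_of_residue_eq_one {n : ℕ} (hn : (n : ResidueField R) ≠ 0) {u : R}
    (hu : u ^ n = 1) (hres : residue R u = 1) : u = 1 := by
  have hgeom : (u - 1) * ∑ i ∈ Finset.range n, u ^ i = 0 := by
    rw [mul_geom_sum, hu, sub_self]
  have hsum : ∑ i ∈ Finset.range n, u ^ i ≠ 0 := by
    intro h0
    have h1 := congrArg (residue R) h0
    rw [map_sum, map_zero] at h1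
    simp only [map_pow, hres, one_pow, Finset.sum_const, Finset.card_range, nsmul_eq_mul,
      mul_one] at h1
    exact hn h1
  rcases mul_eq_zero.1 hgeom with h | h
  · exact sub_eq_zero.1 h
  · exact absurd h hsum

/-- a primitive `n`-th root of unity stays primitive in the residue field, if `n` is invertible
there -/
theorem isPrimitiveRoot_residue {n : ℕ} (hn : (n : ResidueField R) ≠ 0) {z : R}
    (hz : IsPrimitiveRoot z n) : IsPrimitiveRoot (residue R z) n := by
  rw [IsPrimitiveRoot.iff_def]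
  refine ⟨by rw [← map_pow, hz.pow_eq_one, map_one], fun l hl => ?_⟩
  apply hz.dvd_of_pow_eq_one
  apply eq_one_of_pow_eq_one_of_residue_eq_one hn
  · rw [← pow_mul, mul_comm, pow_mul, hz.pow_eq_one, one_pow]
  · rw [map_pow, hl]

/-- if a local domain with finite residue field contains a primitive `n`-th root of unity and `n` is
invertible in the residue field, then `n ∣ |k| - 1` -/
theorem dvd_card_residueField_sub_one [Finite (ResidueField R)] {n : ℕ}
    (hn : (n : ResidueField R) ≠ 0) {z : R} (hz : IsPrimitiveRoot z n) :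
    n ∣ Nat.card (ResidueField R) - 1 := by
  have h1 := isPrimitiveRoot_residue hn hz
  apply h1.dvd_of_pow_eq_one
  haveI : Fintype (ResidueField R) := Fintype.ofFinite _
  rw [Nat.card_eq_fintype_card]
  exact FiniteField.pow_card_sub_one_eq_one _ (h1.ne_zero (by rintro rfl; simp at hn))

end LocalRing

instance neZero_pow_sub_one (q : Nat.Primes) (m : ℕ) [NeZero m] : NeZero ((q : ℕ) ^ m - 1) := by
  have hq2 : 2 ≤ (q : ℕ) := q.2.two_le
  have hm : 1 ≤ m := Nat.one_le_iff_ne_zero.2 (NeZero.ne m)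
  have : 2 ≤ (q : ℕ) ^ m := by
    calc 2 ≤ (q : ℕ) := hq2
      _ = (q : ℕ) ^ 1 := (pow_one _).symm
      _ ≤ (q : ℕ) ^ m := Nat.pow_le_pow_right (by omega) hm
  exact ⟨by omega⟩

section QField

variable (q : ℕ) [Fact q.Prime]
variable (M : Type) [Field M] [Algebra ℚ_[q] M] [FiniteDimensional ℚ_[q] M] [Algebra ℤ_[q] M]
  [IsScalarTower ℤ_[q] ℚ_[q] M]

/-- `q = 0` in the residue field of `M` -/
theorem natCast_q_resM : ((q : ℕ) : resM q M) = 0 := by
  haveI : Algebra.IsSeparable ℚ_[q] M := inferInstance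
  haveI := liesOver_maximalIdeal ℤ_[q] ℚ_[q] M (OInt q M)
  have h1 : (q : ℤ_[q]) ∈ maximalIdeal ℤ_[q] := by
    rw [PadicInt.maximalIdeal_eq_span_p]
    exact Ideal.mem_span_singleton_self _
  have h2 : algebraMap ℤ_[q] (OInt q M) (q : ℤ_[q]) ∈ maximalIdeal (OInt q M) := by
    have := Ideal.over_def (maximalIdeal (OInt q M)) (maximalIdeal ℤ_[q])
    rw [this] at h1
    exact h1
  rw [map_natCast] at h2
  have h3 := (residue_eq_zero_iff (R := OInt q M) _).2 h2
  rwa [map_natCast] at h3

/-- `N` prime to `q` is invertible in the residue field of `M` -/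
theorem natCast_resM_ne_zero {N : ℕ} (hN : Nat.Coprime N q) : ((N : ℕ) : resM q M) ≠ 0 := by
  intro h0
  obtain ⟨a, b, hab⟩ := Nat.isCoprime_iff_coprime.2 hN
  have h1 := congrArg (Int.cast : ℤ → resM q M) hab
  push_cast at h1
  rw [h0, natCast_q_resM, mul_zero, mul_zero, add_zero] at h1
  exact zero_ne_one h1

/-- if `M` contains a primitive `N`-th root of unity, `N` prime to `q`, then `N ∣ |k_M| - 1` -/
theorem dvd_card_resM_sub_one {N : ℕ} (hN : Nat.Coprime N q) {z : M} (hz : IsPrimitiveRoot z N) :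
    N ∣ Nat.card (resM q M) - 1 := by
  have hN0 : N ≠ 0 := by
    rintro rfl
    exact natCast_resM_ne_zero q M hN (by simp)
  have hzint : z ∈ OInt q M := by
    rw [mem_OInt_iff]
    refine ⟨Polynomial.X ^ N - 1, Polynomial.monic_X_pow_sub_C 1 hN0, ?_⟩
    simp [hz.pow_eq_one]
  have hz' : IsPrimitiveRoot (⟨z, hzint⟩ : OInt q M) N :=
    IsPrimitiveRoot.of_map_of_injective (f := (OInt q M).val) hz Subtype.val_injective
  exact dvd_card_residueField_sub_one (natCast_resM_ne_zero q M hN) hz'

open Module in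
/-- the residue field of a field of degree one over `ℚ_q` has `q` elements -/
theorem card_resM_of_finrank_eq_one (h : finrank ℚ_[q] M = 1) : Nat.card (resM q M) = q := by
  haveI : Algebra.IsSeparable ℚ_[q] M := inferInstance
  have h1 := card_quot_maximalIdeal_eq_pow ℤ_[q] ℚ_[q] M (OInt q M)
  have h2 := ramIdx_mul_inertiaDeg ℤ_[q] ℚ_[q] M (OInt q M)
  rw [h] at h2
  have h3 : (maximalIdeal (OInt q M)).inertiaDeg ℤ_[q] = 1 := Nat.eq_one_of_mul_eq_one_left h2
  rw [h3, pow_one] at h1
  have h4 : Nat.card (ℤ_[q] ⧸ maximalIdeal ℤ_[q]) = q := by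
    have e : (ℤ_[q] ⧸ maximalIdeal ℤ_[q]) ≃ ZMod q := (PadicInt.residueField (p := q)).toEquiv
    rw [Nat.card_congr e, Nat.card_zmod]
  rw [h4] at h1
  exact h1

variable (G : Type) [Group G] [Finite G] [MulSemiringAction G M] [SMulCommClass G ℚ_[q] M]
  [FaithfulSMul G M]

open Module in
/-- if `M^G = ℚ_q` and `M ∋ ζ_N` with `N = q ^ m - 1`, then `m ∣ f(M / ℚ_q)` -/
theorem dvd_resF_of_isPrimitiveRoot (hfix : finrank ℚ_[q] (FixedF q M G) = 1) {m : ℕ}
    (hm : 0 < m) {z : M} (hz : IsPrimitiveRoot z (q ^ m - 1)) : m ∣ resF q M G := by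
  have hq2 : 2 ≤ q := (Fact.out : q.Prime).two_le
  have hcop : Nat.Coprime (q ^ m - 1) q := by
    have h1 : 1 ≤ q ^ m := Nat.one_le_pow _ _ (by omega)
    have h2 : Nat.Coprime (q ^ m - 1) (q ^ m) := by
      have h3 : Nat.Coprime (q ^ m - 1) (q ^ m - 1 + 1) := by simp
      rwa [Nat.sub_add_cancel h1] at h3
    exact (Nat.coprime_pow_right_iff hm _ _).1 h2
  have hdvd := dvd_card_resM_sub_one q M hcop hz
  rw [card_resM_eq_qFix_pow q M G, qFix, card_resM_of_finrank_eq_one q _ hfix] at hdvd
  have hmod := Nat.pow_sub_one_mod_pow_sub_one q m (resF q M G)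
  rw [Nat.mod_eq_zero_of_dvd hdvd] at hmod
  have h1 : q ^ (resF q M G % m) = 1 := by
    have : 1 ≤ q ^ (resF q M G % m) := Nat.one_le_pow _ _ (by omega)
    omega
  have h2 : resF q M G % m = 0 := by
    by_contra hne
    have : 2 ≤ q ^ (resF q M G % m) := by
      calc 2 ≤ q := hq2
        _ = q ^ 1 := (pow_one q).symm
        _ ≤ q ^ (resF q M G % m) := Nat.pow_le_pow_right (by omega) (Nat.one_le_iff_ne_zero.2 hne)
    omega
  exact Nat.dvd_of_mod_eq_zero h2

end QField

end

end Fermat.Agent.CFT.Local
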