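/-
P4 / Layer B (for C5-LOC-INJ): every element of the Galois group of a finite Galois extension
`M / ℚ_q` acts on the residue field as a power of the Frobenius, hence on the roots of unity of
order prime to `q` as `z ↦ z ^ (q ^ i)` (no assumption on the ramification).
-/
import Fermat.Agent.Lib.CFT.Local.RootsResidue

set_option autoImplicit false
set_option linter.unusedSectionVars false
set_option linter.style.haveILetI false
set_option linter.unusedVariables false

open IsLocalRing
open scoped Pointwise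

namespace Fermat.Agent.CFT.Local

noncomputable section

variable (q : ℕ) [Fact q.Prime]
variable (M : Type) [Field M] [Algebra ℚ_[q] M] [FiniteDimensional ℚ_[q] M] [Algebra ℤ_[q] M]
  [IsScalarTower ℤ_[q] ℚ_[q] M]
variable (G : Type) [Group G] [Finite G] [MulSemiringAction G M] [SMulCommClass G ℚ_[q] M]
  [FaithfulSMul G M]

/-- congruent elements have congruent powers -/
theorem pow_sub_pow_mem_maximalIdeal {b c : OInt q M} (h : b - c ∈ maximalIdeal (OInt q M))
    (n : ℕ) : b ^ n - c ^ n ∈ maximalIdeal (OInt q M) :=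
  Ideal.Quotient.eq.1 (by rw [map_pow, map_pow, Ideal.Quotient.eq.2 h])

variable {q M G} in
/-- the image of a Frobenius element generates `G ⧸ I` -/
theorem IsFrob.resF_le_orderOf_mk {φ : G} (hφ : IsFrob q M G φ) :
    resF q M G ≤ orderOf (QuotientGroup.mk φ : G ⧸ inertia q M G) := by
  set k := orderOf (QuotientGroup.mk φ : G ⧸ inertia q M G) with hk
  have hd : 0 < k := orderOf_pos _
  have hN := one_lt_qFix q M G
  have hm : 1 < qFix q M G ^ k := Nat.one_lt_pow hd.ne' hN
  have hmem : φ ^ k ∈ inertia q M G := by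
    rw [← QuotientGroup.eq_one_iff, QuotientGroup.mk_pow, hk, pow_orderOf_eq_one]
  have hall : ∀ x : resM q M, x ^ (qFix q M G ^ k) = x := by
    intro x
    obtain ⟨b, rfl⟩ := IsLocalRing.residue_surjective x
    have h1 := hφ.pow_smul k b
    have h2 := (mem_inertia q M G).1 hmem b
    have h3 : b - b ^ (qFix q M G ^ k) ∈ maximalIdeal (OInt q M) := by
      have := sub_mem h1 h2
      rwa [sub_sub_sub_cancel_left] at this
    have h' := (IsLocalRing.residue_eq_zero_iff _).2 h3
    rw [map_sub, sub_eq_zero, map_pow] at h'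
    exact h'.symm
  have hcard := card_le_of_forall_pow_eq hm hall
  rw [card_resM_eq_qFix_pow q M G] at hcard
  exact (Nat.pow_le_pow_iff_right hN).1 hcard

/-- **every element of `G` acts on the residue field as a power of the Frobenius** -/
theorem exists_forall_smul_sub_pow_mem (g : G) :
    ∃ i : ℕ, ∀ b : OInt q M, g • b - b ^ (qFix q M G ^ i) ∈ maximalIdeal (OInt q M) := by
  obtain ⟨φ, hφ⟩ := exists_isFrob q M G
  have h1 := hφ.resF_le_orderOf_mk
  have h2 : Nat.card (G ⧸ inertia q M G) = resF q M G := card_quot_inertia q M G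
  have h3 : orderOf (QuotientGroup.mk φ : G ⧸ inertia q M G) ≤ Nat.card (G ⧸ inertia q M G) :=
    Nat.le_of_dvd Nat.card_pos (orderOf_dvd_natCard _)
  have h4 : Nat.card (Subgroup.zpowers (QuotientGroup.mk φ : G ⧸ inertia q M G)) =
      Nat.card (G ⧸ inertia q M G) := by
    rw [Nat.card_zpowers]
    omega
  have h5 := Subgroup.eq_top_of_card_eq _ h4
  have h6 : (QuotientGroup.mk g : G ⧸ inertia q M G) ∈
      Subgroup.zpowers (QuotientGroup.mk φ : G ⧸ inertia q M G) := by
    rw [h5]
    exact Subgroup.mem_top _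
  rw [← mem_powers_iff_mem_zpowers] at h6
  obtain ⟨i, hi⟩ := h6
  refine ⟨i, fun b => ?_⟩
  have hτ : (φ ^ i)⁻¹ * g ∈ inertia q M G := by
    rw [← QuotientGroup.eq, QuotientGroup.mk_pow]
    exact hi
  set τ := (φ ^ i)⁻¹ * g with hτdef
  have hg : g = φ ^ i * τ := by rw [hτdef, mul_inv_cancel_left]
  have e1 := (mem_inertia q M G).1 hτ b
  have e2 := hφ.pow_smul i (τ • b)
  have e3 := pow_sub_pow_mem_maximalIdeal q M e1 (qFix q M G ^ i)
  have e4 := add_mem e2 e3
  rw [sub_add_sub_cancel, ← mul_smul, ← hg] at e4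
  exact e4

open Module in
/-- **the Galois group of `M / ℚ_q` acts on the roots of unity of order prime to `q` through
powers of `q`** -/
theorem exists_smul_eq_pow_of_isPrimitiveRoot (hfix : finrank ℚ_[q] (FixedF q M G) = 1) {N : ℕ}
    (hN : Nat.Coprime N q) {z : M} (hz : IsPrimitiveRoot z N) (g : G) :
    ∃ i : ℕ, g • z = z ^ (q ^ i) := by
  have hN0 : N ≠ 0 := by
    rintro rfl
    exact natCast_resM_ne_zero q M hN (by simp)
  have hzint : z ∈ OInt q M := by
    rw [mem_OInt_iff]
    refine ⟨Polynomial.X ^ N - 1, Polynomial.monic_X_pow_sub_C 1 hN0, ?_⟩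
    simp [hz.pow_eq_one]
  obtain ⟨i, hi⟩ := exists_forall_smul_sub_pow_mem q M G g
  have hQ : qFix q M G = q := by
    rw [qFix, card_resM_of_finrank_eq_one q _ hfix]
  rw [hQ] at hi
  refine ⟨i, ?_⟩
  set b : OInt q M := ⟨z, hzint⟩ with hb
  have hbN : b ^ N = 1 := Subtype.ext (by simpa using hz.pow_eq_one)
  have hbu : IsUnit b := IsUnit.of_pow_eq_one hbN hN0
  -- `u = (g • b) * (b⁻¹) ^ (q ^ i)` is an `N`-th root of unity congruent to `1`
  obtain ⟨c, hc⟩ := hbu.exists_right_inv
  have hcN : c ^ N = 1 := by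
    have : (b * c) ^ N = 1 := by rw [hc, one_pow]
    rwa [mul_pow, hbN, one_mul] at this
  set u : OInt q M := g • b * c ^ (q ^ i) with hu
  have huN : u ^ N = 1 := by
    rw [hu, mul_pow, ← smul_pow', hbN, smul_one, one_mul, ← pow_mul, mul_comm, pow_mul, hcN,
      one_pow]
  have hures : residue (OInt q M) u = 1 := by
    have h1 := (IsLocalRing.residue_eq_zero_iff _).2 (hi b)
    rw [map_sub, sub_eq_zero] at h1
    rw [hu, map_mul, h1, ← map_mul, ← mul_pow, hc, one_pow, map_one]
  have hu1 : u = 1 :=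
    eq_one_of_pow_eq_one_of_residue_eq_one (natCast_resM_ne_zero q M hN) huN hures
  have hfin : g • b = b ^ (q ^ i) := by
    have : g • b * (c ^ (q ^ i) * b ^ (q ^ i)) = b ^ (q ^ i) := by
      rw [← mul_assoc, ← hu, hu1, one_mul]
    rwa [← mul_pow, mul_comm c b, hc, one_pow, mul_one] at this
  have := congrArg (Subtype.val : OInt q M → M) hfin
  simpa using this

end

end Fermat.Agent.CFT.Local
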