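/-
P4 / Layer B: morphisms of pairs `(π : G₂ →* G₁, ι : M₁ →ₐ[ℚ_q] M₂)`, `ι (π g • x) = g • ι x`:
behaviour of Frobenius elements, valuations and fixed fields.
-/
import Fermat.Agent.Lib.CFT.Local.Inertia

set_option autoImplicit false
set_option linter.unusedSectionVars false
set_option linter.style.haveILetI false
set_option linter.unusedVariables false

open IsLocalRing
open scoped Pointwise

namespace Fermat.Agent.CFT.Local

noncomputable section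

attribute [local instance] algOInt isScalarTower_oInt isIntegralClosure_oInt

variable (q : ℕ) [Fact q.Prime]
variable {M₁ : Type} [Field M₁] [Algebra ℚ_[q] M₁] [FiniteDimensional ℚ_[q] M₁] [Algebra ℤ_[q] M₁]
  [IsScalarTower ℤ_[q] ℚ_[q] M₁]
variable {G₁ : Type} [Group G₁] [Finite G₁] [MulSemiringAction G₁ M₁] [SMulCommClass G₁ ℚ_[q] M₁]
  [FaithfulSMul G₁ M₁]
variable {M₂ : Type} [Field M₂] [Algebra ℚ_[q] M₂] [FiniteDimensional ℚ_[q] M₂] [Algebra ℤ_[q] M₂]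
  [IsScalarTower ℤ_[q] ℚ_[q] M₂]
variable {G₂ : Type} [Group G₂] [Finite G₂] [MulSemiringAction G₂ M₂] [SMulCommClass G₂ ℚ_[q] M₂]
  [FaithfulSMul G₂ M₂]

section Hom

variable (ι : M₁ →ₐ[ℚ_[q]] M₂)

/-- the tower structure attached to an embedding -/
theorem isScalarTower_of_algHom :
    letI : Algebra M₁ M₂ := ι.toRingHom.toAlgebra
    IsScalarTower ℚ_[q] M₁ M₂ :=
  letI : Algebra M₁ M₂ := ι.toRingHom.toAlgebra
  IsScalarTower.of_algebraMap_eq fun a => (ι.commutes a).symm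

/-- an embedding is a local homomorphism on rings of integers -/
theorem map_mem_maximalIdeal_iff (b : OInt q M₁) :
    (⟨ι b, map_mem_OInt q ι b.2⟩ : OInt q M₂) ∈ maximalIdeal (OInt q M₂) ↔
      b ∈ maximalIdeal (OInt q M₁) := by
  letI : Algebra M₁ M₂ := ι.toRingHom.toAlgebra
  haveI := isScalarTower_of_algHom q ι
  haveI := finiteDimensional_tower q M₁ M₂
  haveI := isSeparable_tower q M₁ M₂
  have lies := liesOver_maximalIdeal (OInt q M₁) M₁ M₂ (OInt q M₂)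
  conv_rhs => rw [lies.over, Ideal.under_def, Ideal.mem_comap]
  rfl

end Hom

section Frob

variable (π : G₂ →* G₁) (ι : M₁ →ₐ[ℚ_[q]] M₂) (hπι : ∀ (g : G₂) (x : M₁), ι (π g • x) = g • ι x)

include hπι in
/-- **functoriality of Frobenius elements**: if the first pair is unramified, `π φ₂ = φ₁ ^ t`
where `N₂ = N₁ ^ t`. -/
theorem map_frob (h₁ : inertia q M₁ G₁ = ⊥) {φ₁ : G₁} {φ₂ : G₂} (hφ₁ : IsFrob q M₁ G₁ φ₁)
    (hφ₂ : IsFrob q M₂ G₂ φ₂) (t : ℕ) (ht : qFix q M₂ G₂ = qFix q M₁ G₁ ^ t) :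
    π φ₂ = φ₁ ^ t := by
  have key : ∀ b : OInt q M₁, π φ₂ • b - (φ₁ ^ t) • b ∈ maximalIdeal (OInt q M₁) := by
    intro b
    rw [← map_mem_maximalIdeal_iff q ι]
    set ιb : OInt q M₂ := ⟨ι b, map_mem_OInt q ι b.2⟩ with hιb
    have e1 : (⟨ι ((π φ₂ • b - (φ₁ ^ t) • b : OInt q M₁) : M₁), map_mem_OInt q ι
        (π φ₂ • b - (φ₁ ^ t) • b : OInt q M₁).2⟩ : OInt q M₂) =
        (φ₂ • ιb - ιb ^ qFix q M₂ G₂) -
          (⟨ι (((φ₁ ^ t) • b - b ^ (qFix q M₁ G₁ ^ t) : OInt q M₁) : M₁), map_mem_OInt q ι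
            ((φ₁ ^ t) • b - b ^ (qFix q M₁ G₁ ^ t) : OInt q M₁).2⟩ : OInt q M₂) := by
      apply Subtype.ext
      simp only [hιb, Subalgebra.coe_sub, coe_smul_OInt, map_sub, Subalgebra.coe_pow, map_pow,
        hπι, ht]
      ring
    rw [e1]
    refine sub_mem (hφ₂ ιb) ?_
    rw [map_mem_maximalIdeal_iff q ι]
    exact hφ₁.pow_smul t b
  have hmem : π φ₂ * (φ₁ ^ t)⁻¹ ∈ inertia q M₁ G₁ := by
    intro b
    have := key ((φ₁ ^ t)⁻¹ • b)
    rwa [smul_inv_smul, ← mul_smul] at this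
  rw [h₁, Subgroup.mem_bot, mul_inv_eq_one] at hmem
  exact hmem

end Frob

section Fixed

variable (π : G₂ →* G₁) (ι : M₁ →ₐ[ℚ_[q]] M₂) (hπι : ∀ (g : G₂) (x : M₁), ι (π g • x) = g • ι x)

/-- an embedding of pairs maps the fixed field into the fixed field -/
def fixedHom : FixedF q M₁ G₁ →ₐ[ℚ_[q]] FixedF q M₂ G₂ where
  toFun x := ⟨ι x, fun g => by rw [← hπι, x.2 (π g)]⟩
  map_one' := Subtype.ext (map_one ι)
  map_mul' x y := Subtype.ext (map_mul ι _ _)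
  map_zero' := Subtype.ext (map_zero ι)
  map_add' x y := Subtype.ext (map_add ι _ _)
  commutes' a := Subtype.ext (ι.commutes a)

@[simp] theorem coe_fixedHom (x : FixedF q M₁ G₁) :
    ((fixedHom q π ι hπι x : FixedF q M₂ G₂) : M₂) = ι (x : M₁) := rfl

open Module in
include hπι in
/-- **ramification and inertia of a morphism of unramified pairs**: if
`[M₂^{G₂} : ι (M₁^{G₁})] = d` there are `e t` with `e t = d`, `N₂ = N₁ ^ t` and
`ord₂ ∘ ι = e • ord₁`. -/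
theorem exists_ram_inertia (h₁ : ramE q M₁ G₁ = 1) (h₂ : ramE q M₂ G₂ = 1) (d : ℕ)
    (hd : finrank ℚ_[q] (FixedF q M₂ G₂) = d * finrank ℚ_[q] (FixedF q M₁ G₁)) :
    ∃ e t : ℕ, e * t = d ∧ qFix q M₂ G₂ = qFix q M₁ G₁ ^ t ∧
      ∀ x : M₁ˣ, ordMZ q M₂ (Units.map (ι : M₁ →* M₂) x) = e * ordMZ q M₁ x := by
  set κ := fixedHom q π ι hπι with hκ
  letI algF : Algebra (FixedF q M₁ G₁) (FixedF q M₂ G₂) := κ.toRingHom.toAlgebra
  haveI towF : IsScalarTower ℚ_[q] (FixedF q M₁ G₁) (FixedF q M₂ G₂) :=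
    isScalarTower_of_algHom q κ
  letI algM : Algebra M₁ M₂ := ι.toRingHom.toAlgebra
  haveI towM : IsScalarTower ℚ_[q] M₁ M₂ := isScalarTower_of_algHom q ι
  refine ⟨relRamIdx q (FixedF q M₁ G₁) (FixedF q M₂ G₂),
    relInertia q (FixedF q M₁ G₁) (FixedF q M₂ G₂), ?_, ?_, ?_⟩
  · rw [relRamIdx_mul_relInertia]
    have h := Module.finrank_mul_finrank ℚ_[q] (FixedF q M₁ G₁) (FixedF q M₂ G₂)
    rw [hd, mul_comm] at h
    have hpos : 0 < finrank ℚ_[q] (FixedF q M₁ G₁) := finrank_pos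
    exact Nat.eq_of_mul_eq_mul_right hpos h
  · exact card_resM_eq_pow q (FixedF q M₁ G₁) (FixedF q M₂ G₂)
  · have hram : relRamIdx q M₁ M₂ = relRamIdx q (FixedF q M₁ G₁) (FixedF q M₂ G₂) := by
      obtain ⟨ϖ, hϖ⟩ := ordZ_surjective (OInt q (FixedF q M₁ G₁)) (FixedF q M₁ G₁) 1
      have e1 := ordMZ_map q (FixedF q M₁ G₁) M₁ ϖ
      have e2 := ordMZ_map q M₁ M₂ (Units.map (algebraMap (FixedF q M₁ G₁) M₁ :
        FixedF q M₁ G₁ →* M₁) ϖ)
      have e3 := ordMZ_map q (FixedF q M₁ G₁) (FixedF q M₂ G₂) ϖ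
      have e4 := ordMZ_map q (FixedF q M₂ G₂) M₂ (Units.map (algebraMap (FixedF q M₁ G₁)
        (FixedF q M₂ G₂) : FixedF q M₁ G₁ →* FixedF q M₂ G₂) ϖ)
      have hr1 : relRamIdx q (FixedF q M₁ G₁) M₁ = 1 := h₁
      have hr2 : relRamIdx q (FixedF q M₂ G₂) M₂ = 1 := h₂
      have hϖ' : ordMZ q (FixedF q M₁ G₁) ϖ = 1 := hϖ
      have hcomm : Units.map (algebraMap M₁ M₂ : M₁ →* M₂) (Units.map (algebraMap
          (FixedF q M₁ G₁) M₁ : FixedF q M₁ G₁ →* M₁) ϖ) =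
          Units.map (algebraMap (FixedF q M₂ G₂) M₂ : FixedF q M₂ G₂ →* M₂) (Units.map
            (algebraMap (FixedF q M₁ G₁) (FixedF q M₂ G₂) : FixedF q M₁ G₁ →* FixedF q M₂ G₂) ϖ) := by
        ext
        rfl
      rw [hcomm, e4, e3, hr2, hϖ'] at e2
      rw [e1, hr1, hϖ'] at e2
      have : (relRamIdx q (FixedF q M₁ G₁) (FixedF q M₂ G₂) : ℤ) = relRamIdx q M₁ M₂ := by
        simpa using e2
      exact_mod_cast this.symm
    intro x
    rw [← hram]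
    exact ordMZ_map q M₁ M₂ x

end Fixed

end

end Fermat.Agent.CFT.Local
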