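/-
P4 / Layer B: the second inequality for `p`-groups:
`H²(G, Mˣ)` is finite of order at most `|G|` for a finite `p`-group `G` acting faithfully on a
local field `M` (induction on `|G|` via inflation-restriction and the cyclic case).
-/
import Fermat.Agent.Lib.CFT.Local.QuotAction
import Fermat.Agent.Lib.CFT.Coh.NakayamaTateLow

set_option autoImplicit false
set_option linter.unusedSectionVars false
set_option linter.style.haveILetI false
set_option linter.unusedVariables false

open CategoryTheory groupCohomology

namespace Fermat.Agent.CFT.Local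

attribute [local instance] Units.mulDistribMulActionRight

section Counting

/-- counting in an exact sequence `X → Y → Z` -/
theorem finite_and_card_le_of_exact {X Y Z : Type*} [AddCommGroup X] [AddCommGroup Y]
    [AddCommGroup Z] (f : X →+ Y) (g : Y →+ Z) (hex : ∀ y, g y = 0 → ∃ x, f x = y)
    [Finite X] [Finite Z] : Finite Y ∧ Nat.card Y ≤ Nat.card X * Nat.card Z := by
  have hker : g.ker ≤ f.range := fun y hy => hex y hy
  haveI : Finite f.range := Set.finite_range f
  haveI : Finite g.ker := Finite.of_injective (AddSubgroup.inclusion hker)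
    (AddSubgroup.inclusion_injective hker)
  haveI : Finite g.range := inferInstance
  have e := QuotientAddGroup.quotientKerEquivRange g
  haveI : Finite (Y ⧸ g.ker) := Finite.of_equiv _ e.symm.toEquiv
  have h1 : Nat.card Y = Nat.card (Y ⧸ g.ker) * Nat.card g.ker :=
    AddSubgroup.card_eq_card_quotient_mul_card_addSubgroup g.ker
  have hY : Finite Y := by
    apply Nat.finite_of_card_ne_zero
    rw [h1]
    exact mul_ne_zero Nat.card_pos.ne' Nat.card_pos.ne'
  refine ⟨hY, ?_⟩
  have h2 : Nat.card (Y ⧸ g.ker) = Nat.card g.range := Nat.card_congr e.toEquiv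
  have h3 : Nat.card g.range ≤ Nat.card Z := Nat.card_le_card_of_injective _ Subtype.val_injective
  have h4 : Nat.card g.ker ≤ Nat.card f.range :=
    Nat.card_le_card_of_injective _ (AddSubgroup.inclusion_injective hker)
  have h5 : Nat.card f.range ≤ Nat.card X :=
    Nat.card_le_card_of_surjective f.rangeRestrict f.rangeRestrict_surjective
  rw [h1, h2, mul_comm]
  exact Nat.mul_le_mul (h4.trans h5) h3

end Counting

section Bound

variable (q : ℕ) [Fact q.Prime]
variable (M : Type) [Field M] [Algebra ℚ_[q] M] [FiniteDimensional ℚ_[q] M] [Algebra ℤ_[q] M]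
  [IsScalarTower ℤ_[q] ℚ_[q] M]

include q in
theorem card_H2_unitsRep_le_of_isPGroup_aux (p : ℕ) [Fact p.Prime] (n : ℕ) :
    ∀ (G : Type) [Group G] [Finite G] [MulSemiringAction G M] [SMulCommClass G ℚ_[q] M]
      [FaithfulSMul G M], Nat.card G = n → IsPGroup p G →
      Finite (groupCohomology (unitsRep M G) 2) ∧
        Nat.card (groupCohomology (unitsRep M G) 2) ≤ Nat.card G := by
  induction n using Nat.strong_induction_on with
  | _ n ih =>
  intro G _ _ _ _ _ hcard hG
  by_cases htriv : Subsingleton G
  · have h0 := isZero_groupCohomology_succ_of_subsingleton (unitsRep M G) 1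
    have hsub : Subsingleton (groupCohomology (unitsRep M G) 2) :=
      ModuleCat.isZero_iff_subsingleton.1 h0
    refine ⟨inferInstance, ?_⟩
    rw [Nat.card_unique]
    exact Nat.card_pos
  · rw [not_subsingleton_iff_nontrivial] at htriv
    obtain ⟨N, hNn, hNp⟩ := Coh.exists_normal_index_eq_prime p hG htriv
    have hp : p.Prime := Fact.out
    have hres : Rep.res N.subtype (unitsRep M G) = unitsRep M N := rfl
    have hN1 : Limits.IsZero (groupCohomology (Rep.res N.subtype (unitsRep M G)) 1) := by
      rw [hres]
      exact isZero_H1_unitsRep q M N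
    have hlt : Nat.card N < n := by
      have h1 := N.card_mul_index
      rw [hNp, hcard] at h1
      have : 0 < Nat.card N := Nat.card_pos
      nlinarith [hp.one_lt]
    obtain ⟨hfinN, hcardN⟩ := ih (Nat.card N) hlt N rfl (hG.to_subgroup N)
    have hQ : IsCyclic (G ⧸ N) := isCyclic_of_prime_card (p := p) (by
      rw [← Subgroup.index_eq_card, hNp])
    have hcardQ := card_H2_quotientToInvariants_of_isCyclic q M G N
    haveI hfinQ : Finite (groupCohomology ((unitsRep M G).quotientToInvariants N) 2) := by
      apply Nat.finite_of_card_ne_zero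
      rw [hcardQ]
      exact Nat.card_pos.ne'
    have hfinN' : Finite (groupCohomology (Rep.res N.subtype (unitsRep M G)) 2) := by
      rw [hres]
      exact hfinN
    have hcardN' : Nat.card (groupCohomology (Rep.res N.subtype (unitsRep M G)) 2) ≤ Nat.card N := by
      rw [hres]
      exact hcardN
    set f := (Coh.H2InfRes (unitsRep M G) N).f.hom with hf
    set g := (Coh.H2InfRes (unitsRep M G) N).g.hom with hg
    have hex : ∀ y, g.toAddMonoidHom y = 0 → ∃ x, f.toAddMonoidHom x = y := by
      intro y hy
      exact Coh.exists_inf₂_eq (unitsRep M G) N hN1 y hy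
    haveI : Finite ↑(Coh.H2InfRes (unitsRep M G) N).X₁ := hfinQ
    haveI : Finite ↑(Coh.H2InfRes (unitsRep M G) N).X₃ := hfinN'
    obtain ⟨hfin, hle⟩ := finite_and_card_le_of_exact f.toAddMonoidHom g.toAddMonoidHom hex
    refine ⟨hfin, hle.trans ?_⟩
    change Nat.card (groupCohomology ((unitsRep M G).quotientToInvariants N) 2) *
      Nat.card (groupCohomology (Rep.res N.subtype (unitsRep M G)) 2) ≤ Nat.card G
    rw [hcardQ, ← Subgroup.index_eq_card, mul_comm, ← N.card_mul_index]
    exact Nat.mul_le_mul_right _ hcardN'

/-- **second inequality for `p`-groups** -/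
theorem card_H2_unitsRep_le_of_isPGroup (p : ℕ) [Fact p.Prime]
    (G : Type) [Group G] [Finite G] [MulSemiringAction G M] [SMulCommClass G ℚ_[q] M]
    [FaithfulSMul G M] (hG : IsPGroup p G) :
    Finite (groupCohomology (unitsRep M G) 2) ∧
      Nat.card (groupCohomology (unitsRep M G) 2) ≤ Nat.card G :=
  card_H2_unitsRep_le_of_isPGroup_aux q M p (Nat.card G) G rfl hG

end Bound

end Fermat.Agent.CFT.Local
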