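/-
P4 / Layer B: the concrete local fields `F_L = ℚ_q · ι(L) ⊆ ℚ̄_q` attached to the levels `L` of
`ℚ̄ / ℚ` by the Prelude embedding `ι = padicEmbedding q : ℚ̄ → ℚ̄_q`, with the action of the
decomposition group `decomp q L`.
-/
import Fermat.Agent.Lib.CFT.Local.TowerClass
import Fermat.Agent.Lib.CFT.Duality.LevelTower

set_option autoImplicit false
set_option linter.unusedSectionVars false
set_option linter.style.haveILetI false
set_option linter.unusedVariables false

open CategoryTheory groupCohomology IsLocalRing

namespace Fermat.Agent.CFT.Local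

open Fermat.Agent.CFT Fermat.Agent.CFT.Duality ExtCitation

noncomputable section

section Field

variable (q : ℕ) [Fact q.Prime]

/-- the local Galois group `Gal(ℚ̄_q / ℚ_q)` -/
abbrev GalQq : Type := PadicAlgCl q ≃ₐ[ℚ_[q]] PadicAlgCl q

/-- the local field `ℚ_q · ι(K) ⊆ ℚ̄_q` attached to a subfield `K` of `ℚ̄` -/
def locField (K : IntermediateField ℚ Qbar) : IntermediateField ℚ_[q] (PadicAlgCl q) :=
  IntermediateField.adjoin ℚ_[q] (padicEmbedding q '' (K : Set Qbar))

theorem padicEmbedding_mem_locField {K : IntermediateField ℚ Qbar} {x : Qbar} (hx : x ∈ K) :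
    padicEmbedding q x ∈ locField q K :=
  IntermediateField.subset_adjoin _ _ ⟨x, hx, rfl⟩

theorem locField_mono {K K' : IntermediateField ℚ Qbar} (h : K ≤ K') :
    locField q K ≤ locField q K' :=
  IntermediateField.adjoin.mono _ _ _ (Set.image_mono h)

/-- `ℚ_q · ι(ℚ(S)) = ℚ_q(ι S)` -/
theorem locField_adjoin (S : Set Qbar) :
    locField q (IntermediateField.adjoin ℚ S) =
      IntermediateField.adjoin ℚ_[q] (padicEmbedding q '' S) := by
  apply le_antisymm
  · rw [locField, IntermediateField.adjoin_le_iff]
    rintro _ ⟨x, hx, rfl⟩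
    have h1 : (IntermediateField.adjoin ℚ S).map (padicEmbedding q) ≤
        (IntermediateField.adjoin ℚ_[q] (padicEmbedding q '' S)).restrictScalars ℚ := by
      rw [IntermediateField.adjoin_map, IntermediateField.adjoin_le_iff]
      exact IntermediateField.subset_adjoin _ _
    exact h1 ⟨x, hx, rfl⟩
  · exact IntermediateField.adjoin.mono _ _ _
      (Set.image_mono (IntermediateField.subset_adjoin ℚ S))

theorem finiteDimensional_locField (K : IntermediateField ℚ Qbar) (hfg : K.FG) :
    FiniteDimensional ℚ_[q] (locField q K) := by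
  obtain ⟨s, hs⟩ := hfg
  rw [← hs, locField_adjoin]
  haveI : Finite (padicEmbedding q '' (s : Set Qbar)) := (s.finite_toSet.image _).to_subtype
  exact IntermediateField.finiteDimensional_adjoin fun x _ => Algebra.IsIntegral.isIntegral x

/-- the local Galois group acts on `ℚ̄` through `localGaloisToGlobal` -/
theorem map_padicEmbedding (τ : GalQq q) (x : Qbar) :
    τ (padicEmbedding q x) = padicEmbedding q (localGaloisToGlobal q τ x) :=
  (padicEmbedding_localGaloisToGlobal q τ x).symm

theorem normal_locField (K : IntermediateField ℚ Qbar)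
    (hK : ∀ σ : GQ, K.map (σ : Qbar →ₐ[ℚ] Qbar) ≤ K) :
    Normal ℚ_[q] (locField q K) := by
  rw [IntermediateField.normal_iff_forall_map_le']
  intro τ
  rw [locField, IntermediateField.adjoin_map, IntermediateField.adjoin_le_iff]
  rintro _ ⟨_, ⟨x, hx, rfl⟩, rfl⟩
  change τ (padicEmbedding q x) ∈ _
  rw [map_padicEmbedding]
  exact padicEmbedding_mem_locField q (hK (localGaloisToGlobal q τ) ⟨x, hx, rfl⟩)

/-- an automorphism fixing `ι(K)` pointwise fixes `ℚ_q · ι(K)` pointwise -/
theorem forall_mem_locField_iff (K : IntermediateField ℚ Qbar) (τ : GalQq q) :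
    (∀ y ∈ locField q K, τ y = y) ↔ ∀ x ∈ K, localGaloisToGlobal q τ x = x := by
  constructor
  · intro h x hx
    apply (padicEmbedding q).toRingHom.injective
    change padicEmbedding q (localGaloisToGlobal q τ x) = padicEmbedding q x
    rw [← map_padicEmbedding]
    exact h _ (padicEmbedding_mem_locField q hx)
  · intro h y hy
    have hle : locField q K ≤ IntermediateField.fixedField (Subgroup.zpowers τ) := by
      rw [locField, IntermediateField.adjoin_le_iff]
      rintro _ ⟨x, hx, rfl⟩
      rintro ⟨σ, hσ⟩
      obtain ⟨n, rfl⟩ := Subgroup.mem_zpowers_iff.1 hσ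
      change (τ ^ n) (padicEmbedding q x) = padicEmbedding q x
      have h1 : τ (padicEmbedding q x) = padicEmbedding q x := by
        rw [map_padicEmbedding, h x hx]
      have h2 : (τ ^ n) • (padicEmbedding q x) = padicEmbedding q x := by
        have : τ ∈ MulAction.stabilizer (GalQq q) (padicEmbedding q x) := h1
        exact (MulAction.stabilizer (GalQq q) (padicEmbedding q x)).zpow_mem this n
      exact h2
    exact hle hy ⟨τ, Subgroup.mem_zpowers τ⟩

end Field

section Action

variable (q : Nat.Primes)

/-- `q` is prime -/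
instance factPrimeCoe : Fact ((q : ℕ).Prime) := ⟨q.2⟩

/-- the local field `F_L = ℚ_q · ι(L)` of a level -/
abbrev levelField (L : Level) : IntermediateField ℚ_[(q : ℕ)] (PadicAlgCl (q : ℕ)) :=
  locField (q : ℕ) L.toIntermediateField

theorem Level.fg (L : Level) : L.toIntermediateField.FG := by
  apply IntermediateField.fg_of_fg_toSubalgebra
  apply Subalgebra.fg_of_fg_toSubmodule
  exact Module.Finite.iff_fg.1 L.finiteDimensional

theorem Level.map_le (L : Level) (σ : GQ) :
    L.toIntermediateField.map (σ : Qbar →ₐ[ℚ] Qbar) ≤ L.toIntermediateField :=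
  IntermediateField.normal_iff_forall_map_le'.1 (IsGalois.to_normal (self := L.isGalois)) σ

instance finiteDimensional_levelField (L : Level) :
    FiniteDimensional ℚ_[(q : ℕ)] (levelField q L) :=
  finiteDimensional_locField (q : ℕ) L.toIntermediateField (Level.fg L)

instance normal_levelField (L : Level) : Normal ℚ_[(q : ℕ)] (levelField q L) :=
  normal_locField (q : ℕ) L.toIntermediateField (Level.map_le L)

instance isGalois_levelField (L : Level) : IsGalois ℚ_[(q : ℕ)] (levelField q L) := ⟨⟩

/-- `Gal(ℚ̄_q / ℚ_q) → D_q(L)` -/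
def toDecomp (L : Level) : GalQq (q : ℕ) →* decomp q L :=
  (L.proj.comp (primeLocalToGlobal q)).codRestrict (decomp q L) (fun τ => ⟨_, ⟨τ, rfl⟩, rfl⟩)

theorem coe_toDecomp (L : Level) (τ : GalQq (q : ℕ)) :
    (toDecomp q L τ : L.G) = L.proj (localGaloisToGlobal (q : ℕ) τ) := rfl

theorem toDecomp_surjective (L : Level) : Function.Surjective (toDecomp q L) := by
  rintro ⟨_, _, ⟨τ, rfl⟩, rfl⟩
  exact ⟨τ, rfl⟩

theorem toDecomp_eq_one_iff (L : Level) (τ : GalQq (q : ℕ)) :
    toDecomp q L τ = 1 ↔ ∀ y ∈ levelField q L, τ y = y := by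
  rw [forall_mem_locField_iff, Subtype.ext_iff, coe_toDecomp, Subgroup.coe_one, Level.proj,
    QuotientGroup.mk'_apply, QuotientGroup.eq_one_iff, Level.N,
    IntermediateField.mem_fixingSubgroup_iff]

theorem toDecomp_eq_iff (L : Level) (τ τ' : GalQq (q : ℕ)) :
    toDecomp q L τ = toDecomp q L τ' ↔ ∀ y ∈ levelField q L, τ y = τ' y := by
  rw [← inv_mul_eq_one, ← map_inv, ← map_mul, toDecomp_eq_one_iff]
  constructor
  · intro h y hy
    have := h y hy
    rw [AlgEquiv.mul_apply] at this
    have h2 := congrArg τ this
    rw [← AlgEquiv.mul_apply, mul_inv_cancel, AlgEquiv.one_apply] at h2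
    exact h2.symm
  · intro h y hy
    rw [AlgEquiv.mul_apply, ← h y hy, ← AlgEquiv.mul_apply, inv_mul_cancel, AlgEquiv.one_apply]

theorem toDecomp_map {L L' : Level} (h : L ≤ L') (τ : GalQq (q : ℕ)) :
    decompMap q h (toDecomp q L' τ) = toDecomp q L τ := rfl

/-- a lift of an element of the decomposition group to the local Galois group -/
def liftD (L : Level) (g : decomp q L) : GalQq (q : ℕ) :=
  Function.surjInv (toDecomp_surjective q L) g

@[simp] theorem toDecomp_liftD (L : Level) (g : decomp q L) : toDecomp q L (liftD q L g) = g :=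
  Function.surjInv_eq _ g

/-- restriction to `F_L` -/
def resLevel (L : Level) : GalQq (q : ℕ) →* (levelField q L ≃ₐ[ℚ_[(q : ℕ)]] levelField q L) :=
  AlgEquiv.restrictNormalHom (levelField q L)

theorem coe_resLevel (L : Level) (τ : GalQq (q : ℕ)) (x : levelField q L) :
    ((resLevel q L τ x : levelField q L) : PadicAlgCl (q : ℕ)) = τ x :=
  AlgEquiv.restrictNormal_commutes τ (levelField q L) x

theorem resLevel_eq_iff (L : Level) (τ τ' : GalQq (q : ℕ)) :
    resLevel q L τ = resLevel q L τ' ↔ toDecomp q L τ = toDecomp q L τ' := by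
  rw [toDecomp_eq_iff]
  constructor
  · intro h y hy
    have := congrArg (fun σ => ((σ ⟨y, hy⟩ : levelField q L) : PadicAlgCl (q : ℕ))) h
    simpa only [coe_resLevel] using this
  · intro h
    ext x
    rw [coe_resLevel, coe_resLevel]
    exact h x x.2

theorem resLevel_surjective (L : Level) : Function.Surjective (resLevel q L) :=
  AlgEquiv.restrictNormalHom_surjective (PadicAlgCl (q : ℕ))

/-- the action of the decomposition group on `F_L`, as a homomorphism -/
def actHom (L : Level) : decomp q L →* (levelField q L ≃ₐ[ℚ_[(q : ℕ)]] levelField q L) where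
  toFun g := resLevel q L (liftD q L g)
  map_one' := by
    rw [← map_one (resLevel q L), resLevel_eq_iff, toDecomp_liftD, map_one]
  map_mul' g h := by
    rw [← map_mul (resLevel q L), resLevel_eq_iff, toDecomp_liftD, map_mul, toDecomp_liftD,
      toDecomp_liftD]

theorem actHom_toDecomp (L : Level) (τ : GalQq (q : ℕ)) :
    actHom q L (toDecomp q L τ) = resLevel q L τ := by
  change resLevel q L (liftD q L (toDecomp q L τ)) = _
  rw [resLevel_eq_iff, toDecomp_liftD]

theorem actHom_injective (L : Level) : Function.Injective (actHom q L) := by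
  intro g h hgh
  obtain ⟨τ, rfl⟩ := toDecomp_surjective q L g
  obtain ⟨τ', rfl⟩ := toDecomp_surjective q L h
  rw [actHom_toDecomp, actHom_toDecomp, resLevel_eq_iff] at hgh
  exact hgh

theorem actHom_surjective (L : Level) : Function.Surjective (actHom q L) := by
  intro σ
  obtain ⟨τ, rfl⟩ := resLevel_surjective q L σ
  exact ⟨toDecomp q L τ, actHom_toDecomp q L τ⟩

/-- the decomposition group acts on `F_L` -/
instance levelAction (L : Level) : MulSemiringAction (decomp q L) (levelField q L) :=
  MulSemiringAction.compHom _ (actHom q L)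

theorem smul_levelField_def (L : Level) (g : decomp q L) (x : levelField q L) :
    g • x = actHom q L g x := rfl

/-- `(τ mod L) • x = τ x` -/
theorem toDecomp_smul (L : Level) (τ : GalQq (q : ℕ)) (x : levelField q L) :
    ((toDecomp q L τ • x : levelField q L) : PadicAlgCl (q : ℕ)) = τ x := by
  rw [smul_levelField_def, actHom_toDecomp, coe_resLevel]

instance levelAction_smulComm (L : Level) :
    SMulCommClass (decomp q L) ℚ_[(q : ℕ)] (levelField q L) where
  smul_comm g c x := by
    rw [smul_levelField_def, smul_levelField_def]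
    exact (actHom q L g).toLinearEquiv.map_smul c x

instance levelAction_faithful (L : Level) : FaithfulSMul (decomp q L) (levelField q L) where
  eq_of_smul_eq_smul {g h} hgh := by
    apply actHom_injective q L
    ext x
    exact congrArg Subtype.val (hgh x)

end Action

end

end Fermat.Agent.CFT.Local
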