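/-
P4 / Layer B: the tower of local fields `F_L = ℚ_q · ι(L)` over the local tower `towerLoc q L₀`,
the tower module `Lq q L₀ : L ↦ F_Lˣ`, and its fundamental `p`-classes.
-/
import Fermat.Agent.Lib.CFT.Local.LocField
import Fermat.Agent.Lib.CFT.Local.RootsResidue
import Fermat.Agent.Lib.CFT.Duality.PinfTower
import Fermat.Agent.Lib.CFT.Duality.FilterFormation

set_option autoImplicit false
set_option linter.unusedSectionVars false
set_option linter.style.haveILetI false
set_option linter.unusedVariables false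

open CategoryTheory groupCohomology IsLocalRing

namespace Fermat.Agent.CFT.Local

open Fermat.Agent.CFT Fermat.Agent.CFT.Duality ExtCitation

noncomputable section

section Tower

variable (q : Nat.Primes) (L₀ : Level)

/-- the transition embeddings `F_L → F_L'` -/
def levelEmb {L L' : Level} (h : L ≤ L') : levelField q L →ₐ[ℚ_[(q : ℕ)]] levelField q L' :=
  IntermediateField.inclusion (locField_mono (q : ℕ) (K := L.toIntermediateField)
    (K' := L'.toIntermediateField) h)

theorem coe_levelEmb {L L' : Level} (h : L ≤ L') (x : levelField q L) :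
    ((levelEmb q h x : levelField q L') : PadicAlgCl (q : ℕ)) = x :=
  IntermediateField.coe_inclusion _ x

/-- `Gal(ℚ̄_q / ℚ_q) → (towerLoc q L₀).G j` -/
def toG (j : (towerLoc q L₀).ι) : GalQq (q : ℕ) →* (towerLoc q L₀).G j := toDecomp q j.1

theorem toG_surjective (j : (towerLoc q L₀).ι) : Function.Surjective (toG q L₀ j) :=
  toDecomp_surjective q j.1

theorem towerLoc_π_toG {i j : (towerLoc q L₀).ι} (h : i ≤ j) (τ : GalQq (q : ℕ)) :
    (towerLoc q L₀).π h (toG q L₀ j τ) = toG q L₀ i τ := rfl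

/-- the tower of the local fields `F_L` -/
def localTower : LocalTower (q : ℕ) (towerLoc q L₀) where
  F L := levelField q L.1
  instAction L := levelAction q L.1
  instComm L := levelAction_smulComm q L.1
  instFaithful L := levelAction_faithful q L.1
  emb {i j} h := levelEmb q h
  emb_smul {i j} h g x := by
    obtain ⟨τ, rfl⟩ := toG_surjective q L₀ j g
    apply Subtype.ext
    rw [towerLoc_π_toG]
    exact (coe_levelEmb q _ _).trans ((toDecomp_smul q i.1 τ x).trans
      (((toDecomp_smul q j.1 τ (levelEmb q h x)).trans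
        (congrArg τ (coe_levelEmb q h x))).symm))
  emb_refl i x := Subtype.ext (coe_levelEmb q _ x)
  emb_comp h h' x := Subtype.ext ((coe_levelEmb q _ _).trans
    ((coe_levelEmb q _ _).trans (coe_levelEmb q _ _).symm))
  descent {i j} h y hy := by
    have hmem : (y : PadicAlgCl (q : ℕ)) ∈ levelField q i.1 := by
      rw [← InfiniteGalois.fixedField_fixingSubgroup (levelField q i.1)]
      rintro ⟨τ, hτ⟩
      change τ (y : PadicAlgCl (q : ℕ)) = y
      have h1 : toG q L₀ i τ = 1 :=
        (toDecomp_eq_one_iff q i.1 τ).2 fun z hz => hτ ⟨z, hz⟩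
      have h2 : toG q L₀ j τ ∈ ((towerLoc q L₀).π h).ker :=
        MonoidHom.mem_ker.2 ((towerLoc_π_toG q L₀ h τ).trans h1)
      have h3 := hy _ h2
      exact (toDecomp_smul q j.1 τ y).symm.trans (congrArg Subtype.val h3)
    exact ⟨⟨y, hmem⟩, Subtype.ext (coe_levelEmb q _ _)⟩

/-- **the local tower module** `L ↦ F_Lˣ` over `towerLoc q L₀` (`F_L = ℚ_q · ι(L) ⊆ ℚ̄_q`) -/
def Lq : TowerModule ℤ (towerLoc q L₀) := (localTower q L₀).units

end Tower

section Hur

variable (q : Nat.Primes)

open Module in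
/-- `|D_q(L)| = [F_L : ℚ_q]` -/
theorem card_decomp_eq_finrank (L : Level) :
    Nat.card (decomp q L) = finrank ℚ_[(q : ℕ)] (levelField q L) := by
  rw [← IsGalois.card_aut_eq_finrank ℚ_[(q : ℕ)] (levelField q L)]
  exact Nat.card_congr (Equiv.ofBijective _ ⟨actHom_injective q L, actHom_surjective q L⟩)

open Module in
/-- the fixed field of the decomposition group in `F_L` is `ℚ_q` -/
theorem finrank_fixedF_levelField (L : Level) :
    finrank ℚ_[(q : ℕ)] (FixedF (q : ℕ) (levelField q L) (decomp q L)) = 1 := by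
  have h1 := finrank_fixedF_mul_card (q : ℕ) (levelField q L) (decomp q L)
  rw [card_decomp_eq_finrank] at h1
  have hpos : 0 < finrank ℚ_[(q : ℕ)] (levelField q L) := finrank_pos
  exact Nat.eq_of_mul_eq_mul_right hpos (by rw [h1, one_mul])

/-- if `L` contains the `(q ^ m - 1)`-th roots of unity, then `m ∣ f(F_L / ℚ_q)` -/
theorem dvd_resF_levelField (L : Level) (m : ℕ) [NeZero m]
    (hL : Pinf.cycloLevel ((q : ℕ) ^ m - 1) ≤ L) :
    m ∣ resF (q : ℕ) (levelField q L) (decomp q L) := by
  have hz : IsPrimitiveRoot (Pinf.zetaQbar ((q : ℕ) ^ m - 1)) ((q : ℕ) ^ m - 1) :=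
    Pinf.zetaQbar_spec _
  have hmem : Pinf.zetaQbar ((q : ℕ) ^ m - 1) ∈ L.toIntermediateField :=
    hL (IntermediateField.mem_adjoin_simple_self ℚ _)
  have hz' : IsPrimitiveRoot (padicEmbedding (q : ℕ) (Pinf.zetaQbar ((q : ℕ) ^ m - 1)))
      ((q : ℕ) ^ m - 1) :=
    hz.map_of_injective (padicEmbedding (q : ℕ)).toRingHom.injective
  have hz'' : IsPrimitiveRoot (⟨_, padicEmbedding_mem_locField (q : ℕ) hmem⟩ : levelField q L)
      ((q : ℕ) ^ m - 1) :=
    IsPrimitiveRoot.of_map_of_injective (f := (levelField q L).val) hz' Subtype.val_injective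
  exact dvd_resF_of_isPrimitiveRoot (q : ℕ) (levelField q L) (decomp q L)
    (finrank_fixedF_levelField q L) (Nat.pos_of_ne_zero (NeZero.ne m)) hz''

variable (L₀ : Level) (p : ℕ) [hp : Fact p.Prime]

/-- the local tower has enough unramified levels -/
theorem localTower_hur (j : (towerLoc q L₀).ι) (n : ℕ) :
    ∃ (k : (towerLoc q L₀).ι) (_ : j ≤ k),
      p ^ n ∣ resF (q : ℕ) ((localTower q L₀).F k) ((towerLoc q L₀).G k) := by
  haveI : NeZero (p ^ n) := ⟨(pow_pos hp.out.pos n).ne'⟩
  refine ⟨⟨j.1 ⊔ Pinf.cycloLevel ((q : ℕ) ^ (p ^ n) - 1), j.2.trans le_sup_left⟩,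
    (le_sup_left : j.1 ≤ j.1 ⊔ _), ?_⟩
  exact dvd_resF_levelField q _ (p ^ n) le_sup_right

/-- **the fundamental `p`-classes of the local tower at `q`** (CONTRACT B → D) -/
def pFundamentalLq : PFundamental p (towerLoc q L₀) (Lq q L₀) :=
  (localTower q L₀).pFundamental p (localTower_hur q L₀ p)

/-- the fundamental `p`-classes of the local `S`-tower at `q` -/
def pFundamentalLqS (S : Finset Nat.Primes) (h₀ : L₀.IsS S) (hpS : pPrime p ∈ S) :
    PFundamental p (towerLocS S q L₀ h₀)
      ((Lq q L₀).filter (isSPred S L₀) (isSPred_nonempty h₀) (isSPred_directed S L₀)) :=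
  PFundamental.filter (T := towerLoc q L₀) (C := Lq q L₀) (isSPred S L₀) (isSPred_nonempty h₀)
    (isSPred_directed S L₀) (pFundamentalLq q L₀ p) (pinf_towerLocS p S L₀ h₀ hpS q)

end Hur

end

end Fermat.Agent.CFT.Local
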