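/-
P4 / Layer B: functoriality of `H^n(G, Mˣ)` in the pair `(M, G)`, inflation and restriction
for pairs, and the inflation-restriction sequence in degree 2.
-/
import Fermat.Agent.Lib.CFT.Local.FrobMap
import Fermat.Agent.Lib.CFT.Local.H2Bound

set_option autoImplicit false
set_option linter.unusedSectionVars false
set_option linter.style.haveILetI false
set_option linter.unusedVariables false

open CategoryTheory groupCohomology

namespace Fermat.Agent.CFT.Local

attribute [local instance] Units.mulDistribMulActionRight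

noncomputable section

section PairHom

variable {M₁ G₁ M₂ G₂ M₃ G₃ : Type} [Field M₁] [Group G₁] [MulSemiringAction G₁ M₁]
  [Field M₂] [Group G₂] [MulSemiringAction G₂ M₂] [Field M₃] [Group G₃] [MulSemiringAction G₃ M₃]

/-- the map `M₁ˣ → M₂ˣ` induced by a ring homomorphism, additively -/
def pairAddHom (ι : M₁ →+* M₂) : unitsRep M₁ G₁ →+ unitsRep M₂ G₂ where
  toFun y := unitsRep.ofU M₂ G₂ (Units.map (ι : M₁ →* M₂) (unitsRep.toU M₁ G₁ y))
  map_zero' := by
    rw [unitsRep.toU_zero, map_one, unitsRep.ofU_one]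
  map_add' y z := by
    rw [unitsRep.toU_add, map_mul, unitsRep.ofU_mul]

variable (π : G₂ →* G₁) (ι : M₁ →+* M₂) (hπι : ∀ (g : G₂) (x : M₁), ι (π g • x) = g • ι x)

/-- the morphism of representations attached to a morphism of pairs -/
def pairHom : Rep.res π (unitsRep M₁ G₁) ⟶ unitsRep M₂ G₂ :=
  Rep.ofHom ⟨(pairAddHom (G₁ := G₁) (G₂ := G₂) ι).toIntLinearMap, fun g => by
    refine LinearMap.ext fun y => ?_
    apply unitsRep.toU_injective M₂ G₂
    ext
    exact hπι g _⟩

@[simp] theorem toU_pairHom (y : unitsRep M₁ G₁) :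
    unitsRep.toU M₂ G₂ ((pairHom π ι hπι).hom y) =
      Units.map (ι : M₁ →* M₂) (unitsRep.toU M₁ G₁ y) := rfl

/-- the map on cohomology attached to a morphism of pairs -/
def pairMap (n : ℕ) :
    groupCohomology (unitsRep M₁ G₁) n ⟶ groupCohomology (unitsRep M₂ G₂) n :=
  groupCohomology.map π (pairHom π ι hπι) n

theorem pairMap_congr {π π' : G₂ →* G₁} {ι ι' : M₁ →+* M₂}
    (hπι : ∀ (g : G₂) (x : M₁), ι (π g • x) = g • ι x)
    (hπι' : ∀ (g : G₂) (x : M₁), ι' (π' g • x) = g • ι' x) (h1 : π = π') (h2 : ι = ι') (n : ℕ) :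
    pairMap π ι hπι n = pairMap π' ι' hπι' n := by
  subst h1 h2
  rfl

theorem pairMap_id (n : ℕ) :
    pairMap (MonoidHom.id G₁) (RingHom.id M₁) (fun _ _ => rfl) n = 𝟙 _ := by
  rw [← groupCohomology.map_id]
  exact groupCohomology.map_congr rfl rfl n

theorem pairMap_comp (π' : G₃ →* G₂) (ι' : M₂ →+* M₃)
    (hπι' : ∀ (g : G₃) (x : M₂), ι' (π' g • x) = g • ι' x) (n : ℕ) :
    pairMap π ι hπι n ≫ pairMap π' ι' hπι' n =
      pairMap (π.comp π') (ι'.comp ι) (fun g x => by
        rw [RingHom.comp_apply, MonoidHom.comp_apply, hπι, hπι']; rfl) n := by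
  rw [pairMap, pairMap, ← groupCohomology.map_comp]
  exact groupCohomology.map_congr rfl rfl n

theorem pairMap_comp_apply (π' : G₃ →* G₂) (ι' : M₂ →+* M₃)
    (hπι' : ∀ (g : G₃) (x : M₂), ι' (π' g • x) = g • ι' x) (n : ℕ)
    (x : groupCohomology (unitsRep M₁ G₁) n) :
    (pairMap π' ι' hπι' n).hom ((pairMap π ι hπι n).hom x) =
      (pairMap (π.comp π') (ι'.comp ι) (fun g x => by
        rw [RingHom.comp_apply, MonoidHom.comp_apply, hπι, hπι']; rfl) n).hom x := by
  rw [← pairMap_comp π ι hπι π' ι' hπι' n]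
  rfl

end PairHom

section Infl

variable (q : ℕ) [Fact q.Prime]
variable (M : Type) [Field M] [Algebra ℚ_[q] M] [FiniteDimensional ℚ_[q] M] [Algebra ℤ_[q] M]
  [IsScalarTower ℤ_[q] ℚ_[q] M]
variable (G : Type) [Group G] [Finite G] [MulSemiringAction G M] [SMulCommClass G ℚ_[q] M]
  [FaithfulSMul G M]

theorem subtype_equivariant (H : Subgroup G) (g : H) (x : M) :
    (RingHom.id M) (H.subtype g • x) = g • (RingHom.id M) x := rfl

/-- restriction of pairs to a subgroup -/
def resPair (H : Subgroup G) (n : ℕ) :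
    groupCohomology (unitsRep M G) n ⟶ groupCohomology (unitsRep M H) n :=
  pairMap H.subtype (RingHom.id M) (subtype_equivariant M G H) n

variable (N : Subgroup G) [N.Normal]

theorem quot_equivariant (g : G) (x : FixedF q M N) :
    algebraMap (FixedF q M N) M ((QuotientGroup.mk' N g) • x) =
      g • algebraMap (FixedF q M N) M x :=
  coe_quot_smul q M G N g x

/-- inflation of pairs from the quotient pair `(M^N, G ⧸ N)` -/
def inflPair (n : ℕ) :
    groupCohomology (unitsRep (FixedF q M N) (G ⧸ N)) n ⟶ groupCohomology (unitsRep M G) n :=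
  pairMap (QuotientGroup.mk' N) (algebraMap (FixedF q M N) M) (quot_equivariant q M G N) n

/-- the inclusion `A^N → A`, as a morphism for the inflation -/
def liftHom : Rep.res (QuotientGroup.mk' N) ((unitsRep M G).quotientToInvariants N) ⟶ unitsRep M G :=
  Rep.ofHom ((unitsRep M G).ρ.quotientToInvariants_lift N)

theorem pairHom_quot_eq :
    (pairHom (QuotientGroup.mk' N) (algebraMap (FixedF q M N) M)
      (quot_equivariant q M G N)).hom.toLinearMap =
    ((Rep.resFunctor (QuotientGroup.mk' N)).map (fixedUnitsIso q M G N).hom ≫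
      liftHom M G N).hom.toLinearMap := by
  refine LinearMap.ext fun y => ?_
  rfl

theorem inflPair_eq :
    inflPair q M G N 2 =
      groupCohomology.map (MonoidHom.id (G ⧸ N)) (fixedUnitsIso q M G N).hom 2 ≫
        groupCohomology.map (QuotientGroup.mk' N) (liftHom M G N) 2 := by
  have h1 := groupCohomology.map_comp (A := unitsRep (FixedF q M N) (G ⧸ N))
      (B := (unitsRep M G).quotientToInvariants N) (C := unitsRep M G)
      (MonoidHom.id (G ⧸ N)) (QuotientGroup.mk' N)
      (fixedUnitsIso q M G N).hom (liftHom M G N) 2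
  rw [← h1]
  exact groupCohomology.map_congr rfl (pairHom_quot_eq q M G N) 2

theorem inflPair_apply (y : groupCohomology (unitsRep (FixedF q M N) (G ⧸ N)) 2) :
    (inflPair q M G N 2).hom y = (groupCohomology.map (QuotientGroup.mk' N) (liftHom M G N) 2).hom
      ((groupCohomology.map (MonoidHom.id (G ⧸ N)) (fixedUnitsIso q M G N).hom 2).hom y) :=
  congrArg (fun f => f.hom y) (inflPair_eq q M G N)

theorem resPair_eq :
    resPair M G N 2 = groupCohomology.map N.subtype (𝟙 (Rep.res N.subtype (unitsRep M G))) 2 :=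
  groupCohomology.map_congr rfl rfl 2

theorem resPair_apply (x : groupCohomology (unitsRep M G) 2) :
    (resPair M G N 2).hom x =
      (groupCohomology.map N.subtype (𝟙 (Rep.res N.subtype (unitsRep M G))) 2).hom x :=
  congrArg (fun f => f.hom x) (resPair_eq M G N)

/-- an isomorphism of representations induces a bijection on cohomology -/
theorem map_id_iso_bijective {k : Type} [CommRing k] {H : Type} [Group H] {A B : Rep k H}
    (e : A ≅ B) (n : ℕ) :
    Function.Bijective (groupCohomology.map (MonoidHom.id H) e.hom n).hom := by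
  have h : IsIso (groupCohomology.map (MonoidHom.id H) e.hom n) :=
    (inferInstance : IsIso ((groupCohomology.functor k H n).map e.hom))
  exact ConcreteCategory.bijective_of_isIso _

include q in
theorem isZero_H1_res_subtype :
    Limits.IsZero (groupCohomology (Rep.res N.subtype (unitsRep M G)) 1) := by
  have hres : Rep.res N.subtype (unitsRep M G) = unitsRep M N := rfl
  rw [hres]
  exact isZero_H1_unitsRep q M N

include q in
/-- inflation is injective in degree 2 (Hilbert 90) -/
theorem inflPair_injective : Function.Injective (inflPair q M G N 2).hom := by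
  have hN1 := isZero_H1_res_subtype q M G N
  rw [injective_iff_map_eq_zero]
  intro y hy
  rw [inflPair_apply] at hy
  have h1 := Coh.inf₂_eq_zero (unitsRep M G) N hN1 _ hy
  exact (injective_iff_map_eq_zero _).1 (map_id_iso_bijective (fixedUnitsIso q M G N) 2).1 y h1

include q in
/-- a class with trivial restriction to `N` is inflated from the quotient pair -/
theorem exists_inflPair_eq (x : groupCohomology (unitsRep M G) 2)
    (hx : (resPair M G N 2).hom x = 0) :
    ∃ y : groupCohomology (unitsRep (FixedF q M N) (G ⧸ N)) 2, (inflPair q M G N 2).hom y = x := by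
  have hN1 := isZero_H1_res_subtype q M G N
  rw [resPair_apply] at hx
  obtain ⟨z, hz⟩ := Coh.exists_inf₂_eq (unitsRep M G) N hN1 x hx
  obtain ⟨y, hy⟩ := (map_id_iso_bijective (fixedUnitsIso q M G N) 2).2 z
  refine ⟨y, ?_⟩
  rw [inflPair_apply, hy]
  exact hz

/-- restriction after inflation vanishes -/
theorem resPair_inflPair (y : groupCohomology (unitsRep (FixedF q M N) (G ⧸ N)) 2) :
    (resPair M G N 2).hom ((inflPair q M G N 2).hom y) = 0 := by
  change (pairMap N.subtype (RingHom.id M) (subtype_equivariant M G N) 2).hom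
    ((pairMap (QuotientGroup.mk' N) (algebraMap (FixedF q M N) M)
      (quot_equivariant q M G N) 2).hom y) = 0
  rw [pairMap_comp_apply]
  have h1 : (QuotientGroup.mk' N).comp N.subtype = 1 := QuotientGroup.mk'_comp_subtype N
  have h2 := pairMap_congr (π := (QuotientGroup.mk' N).comp N.subtype) (π' := 1)
    (ι := (RingHom.id M).comp (algebraMap (FixedF q M N) M))
    (ι' := (RingHom.id M).comp (algebraMap (FixedF q M N) M))
    (fun g x => by
      rw [RingHom.comp_apply, MonoidHom.comp_apply, quot_equivariant]; rfl)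
    (fun g x => by
      rw [MonoidHom.one_apply, one_smul]
      exact (x.2 g).symm) h1 rfl 2
  rw [h2, pairMap, Coh.map₂_one]
  rfl

end Infl

section Equiv

variable {M₁ G₁ M₂ G₂ : Type} [Field M₁] [Group G₁] [MulSemiringAction G₁ M₁]
  [Field M₂] [Group G₂] [MulSemiringAction G₂ M₂]

/-- an isomorphism of pairs induces a bijection on cohomology -/
theorem pairMap_bijective_of_equiv (π : G₂ ≃* G₁) (ι : M₁ ≃+* M₂)
    (hπι : ∀ (g : G₂) (x : M₁), ι.toRingHom (π.toMonoidHom g • x) = g • ι.toRingHom x) (n : ℕ) :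
    Function.Bijective (pairMap π.toMonoidHom ι.toRingHom hπι n).hom := by
  have hinv : ∀ (g : G₁) (y : M₂),
      ι.symm.toRingHom (π.symm.toMonoidHom g • y) = g • ι.symm.toRingHom y := by
    intro g y
    apply ι.injective
    have := hπι (π.symm g) (ι.symm y)
    change ι (π (π.symm g) • ι.symm y) = π.symm g • ι (ι.symm y) at this
    rw [MulEquiv.apply_symm_apply, RingEquiv.apply_symm_apply] at this
    change ι (ι.symm (π.symm g • y)) = ι (g • ι.symm y)
    rw [RingEquiv.apply_symm_apply, this]
  have h1 : pairMap π.toMonoidHom ι.toRingHom hπι n ≫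
      pairMap π.symm.toMonoidHom ι.symm.toRingHom hinv n = 𝟙 _ := by
    rw [pairMap_comp, ← pairMap_id]
    exact pairMap_congr _ _ (MonoidHom.ext fun g => π.apply_symm_apply g)
      (RingHom.ext fun x => ι.symm_apply_apply x) n
  have h2 : pairMap π.symm.toMonoidHom ι.symm.toRingHom hinv n ≫
      pairMap π.toMonoidHom ι.toRingHom hπι n = 𝟙 _ := by
    rw [pairMap_comp, ← pairMap_id]
    exact pairMap_congr _ _ (MonoidHom.ext fun g => π.symm_apply_apply g)
      (RingHom.ext fun x => ι.apply_symm_apply x) n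
  refine ⟨?_, ?_⟩
  · intro x y hxy
    have := congrArg (pairMap π.symm.toMonoidHom ι.symm.toRingHom hinv n).hom hxy
    have e1 := congrArg (fun f => f.hom x) h1
    have e2 := congrArg (fun f => f.hom y) h1
    simp only [ModuleCat.hom_comp, LinearMap.comp_apply, ModuleCat.hom_id, LinearMap.id_apply]
      at e1 e2
    rw [← e1, ← e2, this]
  · intro y
    refine ⟨(pairMap π.symm.toMonoidHom ι.symm.toRingHom hinv n).hom y, ?_⟩
    have e1 := congrArg (fun f => f.hom y) h2
    simpa only [ModuleCat.hom_comp, LinearMap.comp_apply, ModuleCat.hom_id, LinearMap.id_apply]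
      using e1

end Equiv

section Descent

variable (q : ℕ) [Fact q.Prime]
variable {M₁ G₁ : Type} [Field M₁] [Group G₁] [MulSemiringAction G₁ M₁]
variable {M₂ : Type} [Field M₂] [Algebra ℚ_[q] M₂] [FiniteDimensional ℚ_[q] M₂] [Algebra ℤ_[q] M₂]
  [IsScalarTower ℤ_[q] ℚ_[q] M₂]
variable {G₂ : Type} [Group G₂] [Finite G₂] [MulSemiringAction G₂ M₂] [SMulCommClass G₂ ℚ_[q] M₂]
  [FaithfulSMul G₂ M₂]
variable (π : G₂ →* G₁) (ι : M₁ →+* M₂) (hπι : ∀ (g : G₂) (x : M₁), ι (π g • x) = g • ι x)

include hπι in
theorem map_mem_fixedF_ker (x : M₁) : ι x ∈ FixedF q M₂ π.ker := by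
  intro n
  change (n : G₂) • ι x = ι x
  rw [← hπι, show π (n : G₂) = 1 from n.2, one_smul]

/-- `M₁ → M₂^{ker π}` -/
def descHom : M₁ →+* FixedF q M₂ π.ker :=
  ι.codRestrict (FixedF q M₂ π.ker) (map_mem_fixedF_ker q π ι hπι)

variable (hπ : Function.Surjective π)
  (hdesc : ∀ y : M₂, (∀ g ∈ π.ker, g • y = y) → ∃ x, ι x = y)

include hdesc in
theorem descHom_bijective : Function.Bijective (descHom q π ι hπι) := by
  refine ⟨(descHom q π ι hπι).injective, ?_⟩
  intro y
  obtain ⟨x, hx⟩ := hdesc (y : M₂) (fun g hg => y.2 ⟨g, hg⟩)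
  exact ⟨x, Subtype.ext hx⟩

/-- `M₁ ≃ M₂^{ker π}` -/
def descEquiv : M₁ ≃+* FixedF q M₂ π.ker :=
  RingEquiv.ofBijective (descHom q π ι hπι) (descHom_bijective q π ι hπι hdesc)

theorem descEquiv_equivariant (g' : G₂ ⧸ π.ker) (x : M₁) :
    (descEquiv q π ι hπι hdesc).toRingHom
      ((QuotientGroup.quotientKerEquivOfSurjective π hπ).toMonoidHom g' • x) =
      g' • (descEquiv q π ι hπι hdesc).toRingHom x := by
  induction g' using QuotientGroup.induction_on with | H g =>
  apply Subtype.ext
  rw [coe_quot_smul]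
  exact hπι g x

/-- a surjective morphism of pairs with Galois descent factors through the inflation -/
theorem pairMap_eq_comp_inflPair :
    pairMap π ι hπι 2 =
      pairMap (QuotientGroup.quotientKerEquivOfSurjective π hπ).toMonoidHom
        (descEquiv q π ι hπι hdesc).toRingHom (descEquiv_equivariant q π ι hπι hπ hdesc) 2 ≫
      inflPair q M₂ G₂ π.ker 2 := by
  rw [inflPair, pairMap_comp]
  exact pairMap_congr _ _ (MonoidHom.ext fun g => rfl) (RingHom.ext fun x => rfl) 2

include q hπ hdesc in
/-- **inflation along a surjective morphism of pairs with descent is injective** -/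
theorem pairMap_injective_of_descent : Function.Injective (pairMap π ι hπι 2).hom := by
  rw [pairMap_eq_comp_inflPair q π ι hπι hπ hdesc, ModuleCat.hom_comp]
  exact (inflPair_injective q M₂ G₂ π.ker).comp
    (pairMap_bijective_of_equiv _ _ (descEquiv_equivariant q π ι hπι hπ hdesc) 2).1

include q hπ hdesc in
/-- **a class with trivial restriction to `ker π` comes from the first pair** -/
theorem exists_pairMap_eq_of_descent (x : groupCohomology (unitsRep M₂ G₂) 2)
    (hx : (resPair M₂ G₂ π.ker 2).hom x = 0) :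
    ∃ y : groupCohomology (unitsRep M₁ G₁) 2, (pairMap π ι hπι 2).hom y = x := by
  obtain ⟨z, hz⟩ := exists_inflPair_eq q M₂ G₂ π.ker x hx
  obtain ⟨y, hy⟩ :=
    (pairMap_bijective_of_equiv _ _ (descEquiv_equivariant q π ι hπι hπ hdesc) 2).2 z
  refine ⟨y, ?_⟩
  rw [pairMap_eq_comp_inflPair q π ι hπι hπ hdesc, ModuleCat.hom_comp, LinearMap.comp_apply, hy, hz]

end Descent

end

end Fermat.Agent.CFT.Local
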