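/-
P4 / Layer B: existence of the unramified extension of degree `n` of a local field.
-/
import Fermat.Agent.Lib.CFT.Local.Ramification

set_option autoImplicit false
set_option linter.unusedSectionVars false
set_option linter.style.haveILetI false

namespace Fermat.Agent.CFT.Local

open Finset Module IsLocalRing Polynomial IntermediateField

/-- over a finite field there are irreducible polynomials of every positive degree -/
theorem exists_irreducible_natDegree_eq (k : Type*) [Field k] [Finite k] (n : ℕ) (hn : 0 < n) :
    ∃ g : k[X], g.Monic ∧ Irreducible g ∧ g.natDegree = n ∧ g.Separable := by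
  obtain ⟨p, hp⟩ := CharP.exists k
  haveI := hp
  haveI : Fact p.Prime := ⟨CharP.char_is_prime k p⟩
  haveI : NeZero n := ⟨hn.ne'⟩
  set l := FiniteField.Extension k p n with hl
  obtain ⟨α, hα⟩ := Field.exists_primitive_element k l
  have hint : IsIntegral k α := Algebra.IsIntegral.isIntegral α
  refine ⟨minpoly k α, minpoly.monic hint, minpoly.irreducible hint, ?_,
    PerfectField.separable_of_irreducible (minpoly.irreducible hint)⟩
  rw [← IntermediateField.adjoin.finrank hint, hα, IntermediateField.finrank_top',
    FiniteField.finrank_extension]

/-- **Hensel**: a monic polynomial over a complete local domain whose reduction splits into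
distinct linear factors splits over the fraction field. -/
theorem splits_map_of_splits_residue {B L : Type*} [CommRing B] [IsDomain B] [IsLocalRing B]
    [IsAdicComplete (maximalIdeal B) B] [Field L] [Algebra B L] [IsFractionRing B L]
    (g : B[X]) (hg : g.Monic) (hsplit : (g.map (residue B)).Splits)
    (hsep : (g.map (residue B)).Separable) : (g.map (algebraMap B L)).Splits := by
  classical
  haveI : HenselianRing B (maximalIdeal B) := IsAdicComplete.henselianRing B (maximalIdeal B)
  set gbar := g.map (residue B) with hgbar
  have hgbar_monic : gbar.Monic := hg.map _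
  have hdeg : gbar.natDegree = g.natDegree := hg.natDegree_map _
  -- lift each root
  have hlift : ∀ r : ResidueField B, r ∈ gbar.roots → ∃ b : B, g.IsRoot b ∧ residue B b = r := by
    intro r hr
    obtain ⟨b₀, rfl⟩ := residue_surjective r
    have hr' : gbar.IsRoot (residue B b₀) := (mem_roots hgbar_monic.ne_zero).1 hr
    have h1 : eval b₀ g ∈ maximalIdeal B := by
      rw [← residue_eq_zero_iff, ← eval₂_hom, ← eval_map]
      exact hr'
    have h2 : IsUnit (Ideal.Quotient.mk (maximalIdeal B) (eval b₀ (derivative g))) := by
      change IsUnit (residue B (eval b₀ (derivative g)))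
      rw [← eval₂_hom, ← eval_map, ← derivative_map]
      apply IsUnit.mk0
      intro h0
      have h3 := hsep.eval₂_derivative_ne_zero (RingHom.id _) (x := residue B b₀) (by
        rw [eval₂_id]; exact hr')
      rw [eval₂_id] at h3
      exact h3 h0
    obtain ⟨b, hb, hbb⟩ := HenselianRing.is_henselian (I := maximalIdeal B) g hg b₀ h1 h2
    refine ⟨b, hb, ?_⟩
    rw [← sub_eq_zero, ← map_sub, residue_eq_zero_iff]
    exact hbb
  choose! lift hlift1 hlift2 using hlift
  have hnodup : gbar.roots.Nodup := nodup_roots hsep
  have hcard : gbar.roots.toFinset.card = g.natDegree := by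
    rw [Multiset.toFinset_card_of_nodup hnodup, ← hdeg]
    exact splits_iff_card_roots.1 hsplit
  set gL := g.map (algebraMap B L) with hgL
  have hgL_monic : gL.Monic := hg.map _
  have hinj : Set.InjOn (fun r => algebraMap B L (lift r)) (gbar.roots.toFinset : Set _) := by
    intro r hr r' hr' h
    have h1 : lift r = lift r' := IsFractionRing.injective B L h
    rw [← hlift2 r (Multiset.mem_toFinset.1 hr), ← hlift2 r' (Multiset.mem_toFinset.1 hr'), h1]
  have hsub : gbar.roots.toFinset.image (fun r => algebraMap B L (lift r)) ⊆ gL.roots.toFinset := by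
    intro x hx
    obtain ⟨r, hr, rfl⟩ := Finset.mem_image.1 hx
    rw [Multiset.mem_toFinset, mem_roots hgL_monic.ne_zero, IsRoot, hgL, eval_map, eval₂_hom,
      (hlift1 r (Multiset.mem_toFinset.1 hr)), map_zero]
  have h1 : g.natDegree ≤ gL.roots.card := by
    calc g.natDegree = (gbar.roots.toFinset.image (fun r => algebraMap B L (lift r))).card := by
          rw [Finset.card_image_of_injOn hinj, hcard]
      _ ≤ gL.roots.toFinset.card := Finset.card_le_card hsub
      _ ≤ gL.roots.card := Multiset.toFinset_card_le _
  rw [splits_iff_card_roots]
  have h2 : gL.natDegree = g.natDegree := hg.natDegree_map _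
  exact le_antisymm (h2 ▸ card_roots' gL) (h2 ▸ h1)

section Residue

variable (A K L B : Type*) [CommRing A] [IsDomain A] [IsLocalInt A]
  [CommRing B] [IsDomain B] [IsLocalInt B] [Algebra A B] [Field K] [Field L]
  [Algebra A K] [IsFractionRing A K] [Algebra K L] [Algebra A L] [IsScalarTower A K L]
  [Algebra B L] [IsFractionRing B L] [IsScalarTower A B L] [IsIntegralClosure B A L]
  [FiniteDimensional K L] [Algebra.IsSeparable K L]

include K L in
set_option synthInstance.maxHeartbeats 200000 in
/-- if `B` contains a root of a monic polynomial `g` over `A` with irreducible reduction, then the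
residue degree is at least `deg g`, and the reduction of `g` splits in the residue field of `B` -/
theorem natDegree_le_inertiaDeg_and_splits (g : A[X]) (hg : g.Monic)
    (hirr : Irreducible (g.map (residue A))) (b : B) (hb : aeval b g = 0) :
    g.natDegree ≤ (maximalIdeal B).inertiaDeg A ∧
      ((g.map (algebraMap A B)).map (residue B)).Splits := by
  haveI hlies := liesOver_maximalIdeal A K L B
  letI : Field (A ⧸ maximalIdeal A) := Ideal.Quotient.field _
  letI : Field (B ⧸ maximalIdeal B) := Ideal.Quotient.field _
  haveI : Finite (B ⧸ maximalIdeal B) := (inferInstance : Finite (ResidueField B))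
  haveI : Finite (A ⧸ maximalIdeal A) := (inferInstance : Finite (ResidueField A))
  set gbar : (A ⧸ maximalIdeal A)[X] := g.map (Ideal.Quotient.mk (maximalIdeal A)) with hgbar
  have hgbar_irr : Irreducible gbar := hirr
  have hgbar_monic : gbar.Monic := hg.map _
  have hgbar_deg : gbar.natDegree = g.natDegree := hg.natDegree_map _
  have hcomp : (algebraMap (A ⧸ maximalIdeal A) (B ⧸ maximalIdeal B)).comp
      (Ideal.Quotient.mk (maximalIdeal A)) =
      (Ideal.Quotient.mk (maximalIdeal B)).comp (algebraMap A B) := by
    ext a
    exact Ideal.Quotient.algebraMap_mk_of_liesOver (maximalIdeal B) (maximalIdeal A) a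
  have hmapmap : gbar.map (algebraMap (A ⧸ maximalIdeal A) (B ⧸ maximalIdeal B)) =
      (g.map (algebraMap A B)).map (Ideal.Quotient.mk (maximalIdeal B)) := by
    rw [hgbar, Polynomial.map_map, Polynomial.map_map, hcomp]
  set bbar : B ⧸ maximalIdeal B := Ideal.Quotient.mk (maximalIdeal B) b with hbbar
  have hbbar_root : aeval bbar gbar = 0 := by
    rw [aeval_def, ← eval_map, hmapmap, eval_map, eval₂_hom, eval_map, ← aeval_def, hb, map_zero]
  have hmin : gbar = minpoly (A ⧸ maximalIdeal A) bbar :=
    minpoly.eq_of_irreducible_of_monic hgbar_irr hbbar_root hgbar_monic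
  constructor
  · rw [Ideal.inertiaDeg_eq_of_isMaximal (maximalIdeal A) (maximalIdeal B), ← hgbar_deg, hmin]
    haveI : Module.Free (A ⧸ maximalIdeal A) (B ⧸ maximalIdeal B) :=
      Module.Free.of_divisionRing _ _
    haveI : Module.Finite (A ⧸ maximalIdeal A) (B ⧸ maximalIdeal B) := Module.Finite.of_finite
    exact minpoly.natDegree_le bbar
  · change ((g.map (algebraMap A B)).map (Ideal.Quotient.mk (maximalIdeal B))).Splits
    rw [← hmapmap, hmin]
    exact Normal.splits inferInstance bbar

end Residue

section Construction

universe u

variable {A K : Type u} [CommRing A] [IsDomain A] [IsLocalInt A] [Field K] [Algebra A K]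
  [IsFractionRing A K]

theorem irreducible_map_of_irreducible_residue (g : A[X]) (hg : g.Monic)
    (hirr : Irreducible (g.map (residue A))) : Irreducible (g.map (algebraMap A K)) := by
  have h1 : Irreducible g := hg.irreducible_of_irreducible_map (residue A) g hirr
  exact (Monic.irreducible_iff_irreducible_map_fraction_map hg).1 h1

theorem separable_map_of_separable_residue (g : A[X]) (hg : g.Monic)
    (hirr : Irreducible (g.map (residue A))) (hsep : (g.map (residue A)).Separable) :
    (g.map (algebraMap A K)).Separable := by
  rw [separable_iff_derivative_ne_zero (irreducible_map_of_irreducible_residue g hg hirr),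
    derivative_map]
  intro h0
  have h1 : derivative g = 0 := by
    apply Polynomial.map_injective (algebraMap A K) (IsFractionRing.injective A K)
    rw [h0, Polynomial.map_zero]
  have h2 := (separable_iff_derivative_ne_zero hirr).1 hsep
  rw [derivative_map, h1, Polynomial.map_zero] at h2
  exact h2 rfl

/-- the unramified extension attached to a monic lift `g` of an irreducible separable polynomial
over the residue field -/
theorem exists_unramified_of_poly (g : A[X]) (hg : g.Monic)
    (hirr : Irreducible (g.map (residue A))) (hsep : (g.map (residue A)).Separable) :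
    ∃ (L : Type u) (_ : Field L) (_ : Algebra K L) (_ : Algebra A L) (_ : IsScalarTower A K L)
      (_ : FiniteDimensional K L) (_ : IsGalois K L) (hloc : IsLocalInt (integralClosure A L))
      (_ : IsFractionRing (integralClosure A L) L),
      finrank K L = g.natDegree ∧
        (letI := hloc.toIsDiscreteValuationRing; ramIdx A K (integralClosure A L) L = 1) := by
  classical
  set f := g.map (algebraMap A K) with hf
  have hfirr : Irreducible f := irreducible_map_of_irreducible_residue g hg hirr
  have hfsep : f.Separable := separable_map_of_separable_residue g hg hirr hsep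
  have hfmonic : f.Monic := hg.map _
  have hf0 : f ≠ 0 := hfmonic.ne_zero
  have hfdeg : f.natDegree = g.natDegree := hg.natDegree_map _
  haveI : Fact (Irreducible f) := ⟨hfirr⟩
  let L := AdjoinRoot f
  set α : L := AdjoinRoot.root f with hα
  have hαroot : aeval α f = 0 := by
    rw [AdjoinRoot.aeval_eq, AdjoinRoot.mk_self]
  have hfd : FiniteDimensional K L := (AdjoinRoot.powerBasis hf0).finite
  have hrank : finrank K L = g.natDegree := by
    rw [(AdjoinRoot.powerBasis hf0).finrank, AdjoinRoot.powerBasis_dim, hfdeg]
  -- separability
  have hminα : minpoly K α = f := by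
    rw [AdjoinRoot.minpoly_root hf0, hfmonic.leadingCoeff, inv_one, map_one, mul_one]
  have hsepα : IsSeparable K α := by
    rw [IsSeparable, hminα]; exact hfsep
  have htop : K⟮α⟯ = ⊤ := by
    apply IntermediateField.adjoin_eq_top_of_algebra
    exact AdjoinRoot.adjoinRoot_eq_top
  have hsepL : Algebra.IsSeparable K L := by
    have h1 : Algebra.IsSeparable K K⟮α⟯ :=
      (IntermediateField.isSeparable_adjoin_simple_iff_isSeparable K L).2 hsepα
    rw [htop] at h1
    exact AlgEquiv.Algebra.isSeparable (IntermediateField.topEquiv (F := K) (E := L))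
  -- the ring of integers
  let B := integralClosure A L
  have hloc : IsLocalInt B := IsLocalInt.of_isIntegralClosure A K L B
  haveI := hloc
  haveI hfrac : IsFractionRing B L := integralClosure.isFractionRing_of_finite_extension K L
  have hαg : aeval α g = 0 := (aeval_map_algebraMap K α g).symm.trans hαroot
  let αB : B := ⟨α, ⟨g, hg, by rw [← aeval_def]; exact hαg⟩⟩
  have hαB : aeval αB g = 0 := by
    apply (FaithfulSMul.algebraMap_injective B L)
    rw [map_zero, ← aeval_algebraMap_apply]
    exact hαg
  -- residue fields
  obtain ⟨hfdeg', hsplit⟩ := natDegree_le_inertiaDeg_and_splits A K L B g hg hirr αB hαB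
  have hsepB : ((g.map (algebraMap A B)).map (residue B)).Separable := by
    haveI := isLocalHom_AB A K L B
    have h1 : (g.map (algebraMap A B)).map (residue B) =
        (g.map (residue A)).map (ResidueField.map (algebraMap A B)) := by
      rw [Polynomial.map_map, Polynomial.map_map]
      rfl
    rw [h1]
    exact hsep.map
  have hsplitL := splits_map_of_splits_residue (L := L) (g.map (algebraMap A B)) (hg.map _)
    hsplit hsepB
  have hsplitL' : (f.map (algebraMap K L)).Splits := by
    have h1 : f.map (algebraMap K L) = (g.map (algebraMap A B)).map (algebraMap B L) := by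
      change (g.map (algebraMap A K)).map (algebraMap K L) = _
      rw [Polynomial.map_map, Polynomial.map_map, ← IsScalarTower.algebraMap_eq,
        ← IsScalarTower.algebraMap_eq]
    rw [h1]
    exact hsplitL
  haveI hspl : IsSplittingField K L f := by
    refine IsSplittingField.mk hsplitL' ?_
    rw [eq_top_iff, ← AdjoinRoot.adjoinRoot_eq_top (f := f)]
    apply Algebra.adjoin_mono
    rw [Set.singleton_subset_iff, mem_rootSet]
    exact ⟨hf0, hαroot⟩
  have hgal : IsGalois K L := IsGalois.of_separable_splitting_field hfsep
  have hef := ramIdx_mul_inertiaDeg A K L B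
  have hepos : 0 < ramIdx A K B L := by
    haveI := finite_AB A K L B
    haveI := faithfulSMul_AB A K L B
    exact ramIdx_pos A K B L
  have hnpos : 0 < g.natDegree := by
    rw [← hrank]; exact finrank_pos
  refine ⟨L, inferInstance, inferInstance, inferInstance, inferInstance, hfd, hgal, hloc, hfrac,
    hrank, ?_⟩
  rw [hrank] at hef
  by_contra hne
  have h2 : 2 ≤ ramIdx A K B L := by
    have : ramIdx A K B L ≠ 1 := hne
    omega
  have : 2 * g.natDegree ≤ g.natDegree := by
    calc 2 * g.natDegree ≤ ramIdx A K B L * (maximalIdeal B).inertiaDeg A :=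
          Nat.mul_le_mul h2 hfdeg'
      _ = g.natDegree := hef
  omega

/-- **Existence of the unramified extension of degree `n`** of a local field. -/
theorem exists_unramified (A K : Type u) [CommRing A] [IsDomain A] [IsLocalInt A] [Field K]
    [Algebra A K] [IsFractionRing A K] (n : ℕ) (hn : 0 < n) :
    ∃ (L : Type u) (_ : Field L) (_ : Algebra K L) (_ : Algebra A L) (_ : IsScalarTower A K L)
      (_ : FiniteDimensional K L) (_ : IsGalois K L) (hloc : IsLocalInt (integralClosure A L))
      (_ : IsFractionRing (integralClosure A L) L),
      finrank K L = n ∧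
        (letI := hloc.toIsDiscreteValuationRing; ramIdx A K (integralClosure A L) L = 1) := by
  obtain ⟨gbar, hmonic, hirr, hdeg, hsep⟩ := exists_irreducible_natDegree_eq (ResidueField A) n hn
  have hlift : gbar ∈ Polynomial.lifts (residue A) := by
    rw [Polynomial.mem_lifts]
    exact Polynomial.map_surjective _ residue_surjective gbar
  obtain ⟨g, hg1, hg2, hg3⟩ := Polynomial.lifts_and_natDegree_eq_and_monic hlift hmonic
  have := exists_unramified_of_poly (K := K) g hg3 (hg1 ▸ hirr) (hg1 ▸ hsep)
  rw [hg2, hdeg] at this
  exact this

end Construction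

end Fermat.Agent.CFT.Local
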