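/-
P4 / Layer B: the invariant map of an unramified pair.

For a pair `(M, G)` the valuation gives `ordHom : Mˣ ⟶ ℤ`, and for `φ : G`
`invAt φ : H²(G, Mˣ) → H²(G, ℤ) ≃ Hom(G, ℚ/ℤ) → ℚ/ℤ` (evaluation at `φ`).
If the pair is unramified and `φ` generates `G`, `invAt φ` is injective with image the
`|G|`-torsion of `ℚ/ℤ`, and it satisfies the base change formula.
-/
import Fermat.Agent.Lib.CFT.Local.PairMap
import Fermat.Agent.Lib.CFT.Local.HerbrandLocal
import Fermat.Agent.Lib.CFT.Local.UnramifiedNorm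
import Fermat.Agent.Lib.CFT.Coh.QZ
import Fermat.Agent.Lib.CFT.Coh.Shapiro

set_option autoImplicit false
set_option linter.unusedSectionVars false
set_option linter.style.haveILetI false
set_option linter.unusedVariables false

open CategoryTheory groupCohomology IsLocalRing

namespace Fermat.Agent.CFT.Local

attribute [local instance] Units.mulDistribMulActionRight

noncomputable section

attribute [local instance] algOInt isScalarTower_oInt isIntegralClosure_oInt

variable (q : ℕ) [Fact q.Prime]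
variable (M : Type) [Field M] [Algebra ℚ_[q] M] [FiniteDimensional ℚ_[q] M] [Algebra ℤ_[q] M]
  [IsScalarTower ℤ_[q] ℚ_[q] M]
variable (G : Type) [Group G] [Finite G] [MulSemiringAction G M] [SMulCommClass G ℚ_[q] M]
  [FaithfulSMul G M]

/-! ### the exact sequence `0 → U_M → Mˣ → ℤ → 0` -/

/-- the units of the ring of integers, as a representation -/
def intUnitsRep : Rep ℤ G := Rep.ofMulDistribMulAction G (OInt q M)ˣ

/-- the underlying unit -/
def intUnitsRep.toU (y : intUnitsRep q M G) : (OInt q M)ˣ :=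
  Additive.toMul (show Additive (OInt q M)ˣ from y)

/-- a unit as an element of the representation -/
def intUnitsRep.ofU (u : (OInt q M)ˣ) : intUnitsRep q M G :=
  (show Additive (OInt q M)ˣ from Additive.ofMul u)

@[simp] theorem intUnitsRep.toU_ofU (u : (OInt q M)ˣ) :
    intUnitsRep.toU q M G (intUnitsRep.ofU q M G u) = u := rfl

@[simp] theorem intUnitsRep.ofU_toU (y : intUnitsRep q M G) :
    intUnitsRep.ofU q M G (intUnitsRep.toU q M G y) = y := rfl

@[simp] theorem intUnitsRep.toU_ρ (g : G) (y : intUnitsRep q M G) :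
    intUnitsRep.toU q M G ((intUnitsRep q M G).ρ g y) = g • intUnitsRep.toU q M G y := rfl

@[simp] theorem intUnitsRep.toU_add (y z : intUnitsRep q M G) :
    intUnitsRep.toU q M G (y + z) = intUnitsRep.toU q M G y * intUnitsRep.toU q M G z := rfl

@[simp] theorem intUnitsRep.toU_zero : intUnitsRep.toU q M G 0 = 1 := rfl

theorem intUnitsRep.toU_sum {ι : Type*} (s : Finset ι) (f : ι → intUnitsRep q M G) :
    intUnitsRep.toU q M G (∑ i ∈ s, f i) = ∏ i ∈ s, intUnitsRep.toU q M G (f i) := by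
  classical
  induction s using Finset.induction_on with
  | empty => simp
  | insert a s ha ih => rw [Finset.sum_insert ha, Finset.prod_insert ha, toU_add, ih]

/-- `U_M → Mˣ`, additively -/
def inclAddHom : intUnitsRep q M G →+ unitsRep M G where
  toFun y := unitsRep.ofU M G (unitsB (OInt q M) M (intUnitsRep.toU q M G y))
  map_zero' := by
    rw [intUnitsRep.toU_zero, map_one, unitsRep.ofU_one]
  map_add' y z := by
    rw [intUnitsRep.toU_add, map_mul, unitsRep.ofU_mul]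

/-- `U_M ⟶ Mˣ` -/
def inclHom : intUnitsRep q M G ⟶ unitsRep M G :=
  Rep.ofHom ⟨(inclAddHom q M G).toIntLinearMap, fun g => by
    refine LinearMap.ext fun y => ?_
    apply unitsRep.toU_injective M G
    ext
    rfl⟩

@[simp] theorem toU_inclHom (y : intUnitsRep q M G) :
    unitsRep.toU M G ((inclHom q M G).hom y) = unitsB (OInt q M) M (intUnitsRep.toU q M G y) := rfl

/-- the valuation, additively -/
def ordAddHom : unitsRep M G →+ ℤ where
  toFun y := ordMZ q M (unitsRep.toU M G y)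
  map_zero' := by
    rw [unitsRep.toU_zero]
    exact ordZ_one
  map_add' y z := by
    rw [unitsRep.toU_add]
    exact ordZ_mul _ _

/-- the valuation `Mˣ ⟶ ℤ`, as a morphism of representations -/
def ordHom : unitsRep M G ⟶ Rep.trivial ℤ G ℤ :=
  Rep.ofHom ⟨(ordAddHom q M G).toIntLinearMap, fun g => by
    refine LinearMap.ext fun y => ?_
    exact ordMZ_smul q M G g (unitsRep.toU M G y)⟩

@[simp] theorem ordHom_apply (y : unitsRep M G) :
    (ordHom q M G).hom y = ordMZ q M (unitsRep.toU M G y) := rfl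

/-- the short complex `U_M ⟶ Mˣ ⟶ ℤ` -/
def ordSC : ShortComplex (Rep.{0} ℤ G) :=
  ShortComplex.mk (inclHom q M G) (ordHom q M G) (by
    ext y
    exact ordZ_algebraMap_unit _)

theorem ordSC_shortExact : (ordSC q M G).ShortExact := by
  refine Coh.shortExact_of_functions ?_ ?_ ?_
  · intro y z h
    have h1 : unitsB (OInt q M) M (intUnitsRep.toU q M G y) =
        unitsB (OInt q M) M (intUnitsRep.toU q M G z) := congrArg (unitsRep.toU M G) h
    exact unitsB_injective h1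
  · intro (m : ℤ)
    obtain ⟨x, hx⟩ := ordZ_surjective (OInt q M) M m
    exact ⟨unitsRep.ofU M G x, hx⟩
  · intro y hy
    have hy' : ordMZ q M (unitsRep.toU M G y) = 0 := hy
    rw [ordMZ, ordZ_eq_zero_iff] at hy'
    obtain ⟨u, hu⟩ := hy'
    exact ⟨intUnitsRep.ofU q M G u, congrArg (unitsRep.ofU M G) hu⟩

/-! ### `H²(G, U_M) = 0` for an unramified pair -/

theorem smul_unitsB (g : G) (u : (OInt q M)ˣ) :
    g • unitsB (OInt q M) M u = unitsB (OInt q M) M (g • u) := by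
  ext
  rfl

/-- in an unramified pair every invariant unit is the norm of a unit -/
theorem exists_norm_eq_of_fixed [Fintype G] (h : ramE q M G = 1) (u : (OInt q M)ˣ)
    (hu : ∀ g : G, g • u = u) : ∃ w : (OInt q M)ˣ, ∏ g : G, g • w = u := by
  set x : Mˣ := unitsB (OInt q M) M u with hx
  have hx1 : x ∈ unitsM q M := ⟨u, rfl⟩
  have hx2 : x ∈ fixedU M G := fun g => by rw [hx, smul_unitsB, hu g]
  have hx3 : x ∈ unitsM q M ⊓ fixedU M G := ⟨hx1, hx2⟩
  rw [unitsM_inf_fixedU q M G] at hx3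
  obtain ⟨k, hk, hkx⟩ := hx3
  have hram : ramIdx (OInt q (FixedF q M G)) (FixedF q M G) (OInt q M) M = 1 := h
  obtain ⟨v, ⟨w, rfl⟩, hv⟩ := unitGroup_le_map_unitsNorm_of_ramIdx_eq_one
    (OInt q (FixedF q M G)) (FixedF q M G) M (OInt q M) hram hk
  refine ⟨w, ?_⟩
  apply unitsB_injective (B := OInt q M) (L := M)
  have h1 := normU_eq q M G (unitsB (OInt q M) M w)
  rw [normU_apply] at h1
  have h2 : unitsB (OInt q M) M (∏ g : G, g • w) = ∏ g : G, g • unitsB (OInt q M) M w := by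
    rw [map_prod]
    exact Finset.prod_congr rfl fun g _ => (smul_unitsB q M G g w).symm
  rw [h2, h1]
  change unitsIncl (FixedF q M G) M (unitsNorm (FixedF q M G) M (unitsB (OInt q M) M w)) = x
  rw [← hkx]
  exact congrArg _ hv

attribute [local instance] IsCyclic.commGroup in
/-- `H²(G, U_M) = 0` for an unramified pair -/
theorem isZero_H2_intUnitsRep (h : ramE q M G = 1) :
    Limits.IsZero (groupCohomology (intUnitsRep q M G) 2) := by
  classical
  letI : Fintype G := Fintype.ofFinite G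
  have hram : ramIdx (OInt q (FixedF q M G)) (FixedF q M G) (OInt q M) M = 1 := h
  haveI : IsCyclic (M ≃ₐ[FixedF q M G] M) :=
    isCyclic_of_ramIdx_eq_one (OInt q (FixedF q M G)) (FixedF q M G) M (OInt q M) hram
  haveI : IsCyclic G := isCyclic_of_surjective (galEquiv q M G).symm (galEquiv q M G).symm.surjective
  apply Coh.isZero_H2_of_isCyclic
  rw [Submodule.Quotient.subsingleton_iff, Coh.range_normBar, eq_top_iff]
  rintro ⟨y, hy⟩ -
  have hu : ∀ g : G, g • intUnitsRep.toU q M G y = intUnitsRep.toU q M G y := fun g =>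
    congrArg (intUnitsRep.toU q M G) (hy g)
  obtain ⟨w, hw⟩ := exists_norm_eq_of_fixed q M G h _ hu
  refine ⟨intUnitsRep.ofU q M G w, Subtype.ext ?_⟩
  change (intUnitsRep q M G).ρ.norm (intUnitsRep.ofU q M G w) = y
  rw [Representation.norm, LinearMap.sum_apply]
  have : intUnitsRep.toU q M G (∑ g : G, (intUnitsRep q M G).ρ g (intUnitsRep.ofU q M G w)) =
      intUnitsRep.toU q M G y := by
    rw [intUnitsRep.toU_sum, ← hw]
    rfl
  exact this

/-! ### `ord_* : H²(G, Mˣ) → H²(G, ℤ)` -/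

/-- `ord_*` on `H²` -/
abbrev ordH2 : groupCohomology (unitsRep M G) 2 ⟶ groupCohomology (Rep.trivial ℤ G ℤ) 2 :=
  groupCohomology.map (MonoidHom.id G) (ordHom q M G) 2

/-- `ord_*` is injective on `H²` for an unramified pair -/
theorem ordH2_injective (h : ramE q M G = 1) : Function.Injective (ordH2 q M G).hom := by
  rw [injective_iff_map_eq_zero]
  intro x hx
  obtain ⟨z, hz⟩ := Coh.exists_map_f_eq_of_map_g_eq_zero (ordSC_shortExact q M G) 2 x hx
  have hsub : Subsingleton (groupCohomology (ordSC q M G).X₁ 2) :=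
    ModuleCat.isZero_iff_subsingleton.1 (isZero_H2_intUnitsRep q M G h)
  rw [← hz, Subsingleton.elim z 0, map_zero]
  rfl

/-- a `G`-invariant uniformizer of an unramified pair -/
theorem exists_fixed_uniformizer (h : ramE q M G = 1) :
    ∃ ϖ : Mˣ, ϖ ∈ fixedU M G ∧ ordMZ q M ϖ = 1 := by
  obtain ⟨k, hk⟩ := ordZ_surjective (OInt q (FixedF q M G)) (FixedF q M G) 1
  refine ⟨unitsIncl (FixedF q M G) M k, ?_, ?_⟩
  · rw [fixedU_eq_range q M G]
    exact ⟨k, rfl⟩
  · have h1 := ordMZ_map q (FixedF q M G) M k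
    have h2 : relRamIdx q (FixedF q M G) M = 1 := h
    rw [h2] at h1
    have hk' : ordMZ q (FixedF q M G) k = 1 := hk
    rw [hk'] at h1
    have h3 : ordMZ q M (unitsIncl (FixedF q M G) M k) = ((1 : ℕ) : ℤ) * 1 := h1
    simpa using h3

variable {M G} in
/-- `ℤ → Mˣ`, `k ↦ ϖ ^ k`, additively -/
def secAddHom (ϖ : Mˣ) : ℤ →+ unitsRep M G where
  toFun k := unitsRep.ofU M G (ϖ ^ k)
  map_zero' := by rw [zpow_zero, unitsRep.ofU_one]
  map_add' k l := by rw [zpow_add, unitsRep.ofU_mul]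

variable {M G} in
/-- the section `ℤ ⟶ Mˣ` attached to an invariant element -/
def secHom (ϖ : Mˣ) (hϖ : ϖ ∈ fixedU M G) : Rep.trivial ℤ G ℤ ⟶ unitsRep M G :=
  Rep.ofHom ⟨(secAddHom (G := G) ϖ).toIntLinearMap, fun g => by
    refine LinearMap.ext fun k => ?_
    apply unitsRep.toU_injective M G
    change ϖ ^ k = g • ϖ ^ k
    rw [smul_zpow', hϖ g]⟩

theorem secHom_comp_ordHom (ϖ : Mˣ) (hϖ : ϖ ∈ fixedU M G) (hord : ordMZ q M ϖ = 1) :
    secHom ϖ hϖ ≫ ordHom q M G = 𝟙 _ := by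
  ext
  change ordMZ q M (ϖ ^ (1 : ℤ)) = 1
  rw [zpow_one, hord]

/-- `ord_*` is surjective on `H²` for an unramified pair -/
theorem ordH2_surjective (h : ramE q M G = 1) : Function.Surjective (ordH2 q M G).hom := by
  obtain ⟨ϖ, hϖ, hord⟩ := exists_fixed_uniformizer q M G h
  intro z
  refine ⟨(groupCohomology.map (MonoidHom.id G) (secHom ϖ hϖ) 2).hom z, ?_⟩
  have h1 := groupCohomology.map_id_comp (secHom ϖ hϖ) (ordHom q M G) 2
  rw [secHom_comp_ordHom q M G ϖ hϖ hord, groupCohomology.map_id] at h1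
  have h2 := congrArg (fun f => f.hom z) h1
  exact h2.symm

/-! ### the invariant -/

/-- the invariant attached to `φ : G`: evaluate the character of `ord_* x` at `φ` -/
def invAt (φ : G) : groupCohomology (unitsRep M G) 2 →+ AddCircle (1 : ℚ) :=
  ((AddMonoidHom.eval (Additive.ofMul φ)).comp (Coh.h2ZChar G).toAddMonoidHom).comp
    (ordH2 q M G).hom.toAddMonoidHom

theorem invAt_apply (φ : G) (x : groupCohomology (unitsRep M G) 2) :
    invAt q M G φ x = Coh.h2ZChar G ((ordH2 q M G).hom x) (Additive.ofMul φ) := rfl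

/-- **the invariant of an unramified pair is injective** -/
theorem invAt_injective (h : ramE q M G = 1) (φ : G) (hφ : ∀ g : G, g ∈ Subgroup.zpowers φ) :
    Function.Injective (invAt q M G φ) := by
  intro x y hxy
  rw [invAt_apply, invAt_apply] at hxy
  exact ordH2_injective q M G h (Coh.h2ZChar_apply_generator_injective φ hφ hxy)

/-- **the image of the invariant contains the `|G|`-torsion** -/
theorem exists_invAt_eq (h : ramE q M G = 1) (φ : G) (hφ : ∀ g : G, g ∈ Subgroup.zpowers φ)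
    (t : AddCircle (1 : ℚ)) (ht : Nat.card G • t = 0) :
    ∃ x : groupCohomology (unitsRep M G) 2, invAt q M G φ x = t := by
  have hord : orderOf (Multiplicative.ofAdd t) ∣ orderOf φ := by
    rw [orderOf_ofAdd_eq_addOrderOf, orderOf_eq_card_of_forall_mem_zpowers hφ]
    exact addOrderOf_dvd_of_nsmul_eq_zero ht
  set χ : G →* Multiplicative (AddCircle (1 : ℚ)) := monoidHomOfForallMemZpowers hφ hord with hχ
  have hχφ : χ φ = Multiplicative.ofAdd t := monoidHomOfForallMemZpowers_apply_gen hφ hord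
  obtain ⟨x, hx⟩ := ordH2_surjective q M G h ((Coh.h2ZChar G).symm (MonoidHom.toAdditiveLeft χ))
  refine ⟨x, ?_⟩
  rw [invAt_apply, hx, AddEquiv.apply_symm_apply]
  change (χ φ).toAdd = t
  rw [hχφ]
  rfl

end

/-! ### base change -/

noncomputable section BaseChange

variable (q : ℕ) [Fact q.Prime]
variable {M₁ : Type} [Field M₁] [Algebra ℚ_[q] M₁] [FiniteDimensional ℚ_[q] M₁] [Algebra ℤ_[q] M₁]
  [IsScalarTower ℤ_[q] ℚ_[q] M₁]
variable {G₁ : Type} [Group G₁] [Finite G₁] [MulSemiringAction G₁ M₁] [SMulCommClass G₁ ℚ_[q] M₁]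
  [FaithfulSMul G₁ M₁]
variable {M₂ : Type} [Field M₂] [Algebra ℚ_[q] M₂] [FiniteDimensional ℚ_[q] M₂] [Algebra ℤ_[q] M₂]
  [IsScalarTower ℤ_[q] ℚ_[q] M₂]
variable {G₂ : Type} [Group G₂] [Finite G₂] [MulSemiringAction G₂ M₂] [SMulCommClass G₂ ℚ_[q] M₂]
  [FaithfulSMul G₂ M₂]
variable (π : G₂ →* G₁) (ι : M₁ →+* M₂) (hπι : ∀ (g : G₂) (x : M₁), ι (π g • x) = g • ι x)

/-- `ord_*` commutes with a morphism of pairs of ramification index `e` -/
theorem ordH2_pairMap (e : ℕ)
    (he : ∀ x : M₁ˣ, ordMZ q M₂ (Units.map (ι : M₁ →* M₂) x) = e * ordMZ q M₁ x) :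
    pairMap π ι hπι 2 ≫ ordH2 q M₂ G₂ =
      ordH2 q M₁ G₁ ≫ groupCohomology.map π (Coh.mulZ π (e : ℤ)) 2 := by
  have h1 := groupCohomology.map_comp (A := unitsRep M₁ G₁) (B := unitsRep M₂ G₂)
    (C := Rep.trivial ℤ G₂ ℤ) π (MonoidHom.id G₂) (pairHom π ι hπι) (ordHom q M₂ G₂) 2
  have h2 := groupCohomology.map_comp (A := unitsRep M₁ G₁) (B := Rep.trivial ℤ G₁ ℤ)
    (C := Rep.trivial ℤ G₂ ℤ) (MonoidHom.id G₁) π (ordHom q M₁ G₁) (Coh.mulZ π (e : ℤ)) 2
  rw [pairMap, ordH2, ordH2, ← h1, ← h2]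
  refine groupCohomology.map_congr rfl ?_ 2
  refine LinearMap.ext fun y => ?_
  exact he (unitsRep.toU M₁ G₁ y)

/-- **base change for the invariant**, general form: if `ord₂ ∘ ι = e • ord₁` and
`π φ₂ = φ₁ ^ t` then `inv₂ (ι_* x) = (e t) • inv₁ x`. -/
theorem invAt_pairMap (e t : ℕ)
    (he : ∀ x : M₁ˣ, ordMZ q M₂ (Units.map (ι : M₁ →* M₂) x) = e * ordMZ q M₁ x)
    (φ₁ : G₁) (φ₂ : G₂) (ht : π φ₂ = φ₁ ^ t) (x : groupCohomology (unitsRep M₁ G₁) 2) :
    invAt q M₂ G₂ φ₂ ((pairMap π ι hπι 2).hom x) = (e * t) • invAt q M₁ G₁ φ₁ x := by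
  rw [invAt_apply, invAt_apply]
  have h1 := congrArg (fun f => f.hom x) (ordH2_pairMap q π ι hπι e he)
  simp only [ModuleCat.hom_comp, LinearMap.comp_apply] at h1
  rw [h1, Coh.h2ZChar_map]
  change (e : ℤ) • (Coh.h2ZChar G₁ ((ordH2 q M₁ G₁).hom x)) (Additive.ofMul (π φ₂)) = _
  rw [ht, ofMul_pow, map_nsmul, natCast_zsmul, mul_smul]

end BaseChange

noncomputable section BaseChangeUnramified

variable (q : ℕ) [Fact q.Prime]
variable {M₁ : Type} [Field M₁] [Algebra ℚ_[q] M₁] [FiniteDimensional ℚ_[q] M₁] [Algebra ℤ_[q] M₁]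
  [IsScalarTower ℤ_[q] ℚ_[q] M₁]
variable {G₁ : Type} [Group G₁] [Finite G₁] [MulSemiringAction G₁ M₁] [SMulCommClass G₁ ℚ_[q] M₁]
  [FaithfulSMul G₁ M₁]
variable {M₂ : Type} [Field M₂] [Algebra ℚ_[q] M₂] [FiniteDimensional ℚ_[q] M₂] [Algebra ℤ_[q] M₂]
  [IsScalarTower ℤ_[q] ℚ_[q] M₂]
variable {G₂ : Type} [Group G₂] [Finite G₂] [MulSemiringAction G₂ M₂] [SMulCommClass G₂ ℚ_[q] M₂]
  [FaithfulSMul G₂ M₂]
variable (π : G₂ →* G₁) (ι : M₁ →ₐ[ℚ_[q]] M₂) (hπι : ∀ (g : G₂) (x : M₁), ι (π g • x) = g • ι x)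

open Module in
/-- **base change for unramified pairs**: `inv₂ (ι_* x) = [M₂^{G₂} : ι (M₁^{G₁})] • inv₁ x`,
the invariants being computed with Frobenius elements. -/
theorem invAt_pairMap_of_unramified (h₁ : ramE q M₁ G₁ = 1) (h₂ : ramE q M₂ G₂ = 1)
    {φ₁ : G₁} {φ₂ : G₂} (hφ₁ : IsFrob q M₁ G₁ φ₁) (hφ₂ : IsFrob q M₂ G₂ φ₂) (d : ℕ)
    (hd : finrank ℚ_[q] (FixedF q M₂ G₂) = d * finrank ℚ_[q] (FixedF q M₁ G₁))
    (x : groupCohomology (unitsRep M₁ G₁) 2) :
    invAt q M₂ G₂ φ₂ ((pairMap π (ι : M₁ →+* M₂) hπι 2).hom x) = d • invAt q M₁ G₁ φ₁ x := by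
  obtain ⟨e, t, het, hqt, hord⟩ := exists_ram_inertia q π ι hπι h₁ h₂ d hd
  have hfrob := map_frob q π ι hπι (inertia_eq_bot_of_ramE_eq_one q M₁ G₁ h₁) hφ₁ hφ₂ t hqt
  rw [← het]
  exact invAt_pairMap q π (ι : M₁ →+* M₂) hπι e t hord φ₁ φ₂ hfrob x

end BaseChangeUnramified

end Fermat.Agent.CFT.Local
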