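/-
P4 / Layer B: unramified classes of a pair `(M, G)`: the classes of `H²(G, Mˣ)` inflated from
the maximal unramified quotient pair `(M^I, G ⧸ I)`, with their invariant, and their behaviour
under morphisms of pairs.
-/
import Fermat.Agent.Lib.CFT.Local.UnramifiedInv

set_option autoImplicit false
set_option linter.unusedSectionVars false
set_option linter.style.haveILetI false
set_option linter.unusedVariables false

open CategoryTheory groupCohomology IsLocalRing

namespace Fermat.Agent.CFT.Local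

attribute [local instance] Units.mulDistribMulActionRight

noncomputable section

section Single

variable (q : ℕ) [Fact q.Prime]
variable (M : Type) [Field M] [Algebra ℚ_[q] M] [FiniteDimensional ℚ_[q] M] [Algebra ℤ_[q] M]
  [IsScalarTower ℤ_[q] ℚ_[q] M]
variable (G : Type) [Group G] [Finite G] [MulSemiringAction G M] [SMulCommClass G ℚ_[q] M]
  [FaithfulSMul G M]

/-- a Frobenius element of the maximal unramified quotient pair -/
def frobQ : G ⧸ inertia q M G :=
  Classical.choose (exists_isFrob q (FixedF q M (inertia q M G)) (G ⧸ inertia q M G))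

theorem isFrob_frobQ :
    IsFrob q (FixedF q M (inertia q M G)) (G ⧸ inertia q M G) (frobQ q M G) :=
  Classical.choose_spec (exists_isFrob q (FixedF q M (inertia q M G)) (G ⧸ inertia q M G))

theorem frobQ_generates : ∀ g : G ⧸ inertia q M G, g ∈ Subgroup.zpowers (frobQ q M G) :=
  (isFrob_frobQ q M G).forall_mem_zpowers (ramE_quot_inertia q M G)

/-- the invariant on the cohomology of the maximal unramified quotient pair -/
def invQ : groupCohomology (unitsRep (FixedF q M (inertia q M G)) (G ⧸ inertia q M G)) 2 →+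
    AddCircle (1 : ℚ) :=
  invAt q (FixedF q M (inertia q M G)) (G ⧸ inertia q M G) (frobQ q M G)

theorem invQ_injective : Function.Injective (invQ q M G) :=
  invAt_injective q _ _ (ramE_quot_inertia q M G) _ (frobQ_generates q M G)

theorem exists_invQ_eq (t : AddCircle (1 : ℚ)) (ht : resF q M G • t = 0) :
    ∃ y, invQ q M G y = t := by
  refine exists_invAt_eq q _ _ (ramE_quot_inertia q M G) _ (frobQ_generates q M G) t ?_
  rw [card_quot_inertia]
  exact ht

/-- `x ∈ H²(G, Mˣ)` is the unramified class of invariant `t` -/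
def IsUrClass (x : groupCohomology (unitsRep M G) 2) (t : AddCircle (1 : ℚ)) : Prop :=
  ∃ y, invQ q M G y = t ∧ (inflPair q M G (inertia q M G) 2).hom y = x

variable {q M G}

theorem IsUrClass.exists (t : AddCircle (1 : ℚ)) (ht : resF q M G • t = 0) :
    ∃ x, IsUrClass q M G x t := by
  obtain ⟨y, hy⟩ := exists_invQ_eq q M G t ht
  exact ⟨_, y, hy, rfl⟩

theorem IsUrClass.unique {x x' : groupCohomology (unitsRep M G) 2} {t : AddCircle (1 : ℚ)}
    (h : IsUrClass q M G x t) (h' : IsUrClass q M G x' t) : x = x' := by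
  obtain ⟨y, hy, rfl⟩ := h
  obtain ⟨y', hy', rfl⟩ := h'
  rw [invQ_injective q M G (hy.trans hy'.symm)]

theorem IsUrClass.zero : IsUrClass q M G 0 0 := ⟨0, map_zero _, map_zero _⟩

theorem IsUrClass.nsmul {x : groupCohomology (unitsRep M G) 2} {t : AddCircle (1 : ℚ)}
    (h : IsUrClass q M G x t) (n : ℕ) : IsUrClass q M G (n • x) (n • t) := by
  obtain ⟨y, hy, rfl⟩ := h
  exact ⟨n • y, by rw [map_nsmul, hy], by rw [map_nsmul]⟩

theorem IsUrClass.eq_zero {x : groupCohomology (unitsRep M G) 2} (h : IsUrClass q M G x 0) :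
    x = 0 :=
  h.unique IsUrClass.zero

theorem IsUrClass.addOrderOf_eq {x : groupCohomology (unitsRep M G) 2} {t : AddCircle (1 : ℚ)}
    (h : IsUrClass q M G x t) : addOrderOf x = addOrderOf t := by
  obtain ⟨y, hy, rfl⟩ := h
  rw [← hy]
  have h1 : addOrderOf ((inflPair q M G (inertia q M G) 2).hom y) = addOrderOf y :=
    addOrderOf_injective (inflPair q M G (inertia q M G) 2).hom.toAddMonoidHom
      (inflPair_injective q M G (inertia q M G)) y
  have h2 : addOrderOf (invQ q M G y) = addOrderOf y :=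
    addOrderOf_injective (invQ q M G) (invQ_injective q M G) y
  rw [h1, h2]

end Single

section Map

variable (q : ℕ) [Fact q.Prime]
variable {M₁ : Type} [Field M₁] [Algebra ℚ_[q] M₁] [FiniteDimensional ℚ_[q] M₁] [Algebra ℤ_[q] M₁]
  [IsScalarTower ℤ_[q] ℚ_[q] M₁]
variable {G₁ : Type} [Group G₁] [Finite G₁] [MulSemiringAction G₁ M₁] [SMulCommClass G₁ ℚ_[q] M₁]
  [FaithfulSMul G₁ M₁]
variable {M₂ : Type} [Field M₂] [Algebra ℚ_[q] M₂] [FiniteDimensional ℚ_[q] M₂] [Algebra ℤ_[q] M₂]
  [IsScalarTower ℤ_[q] ℚ_[q] M₂]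
variable {G₂ : Type} [Group G₂] [Finite G₂] [MulSemiringAction G₂ M₂] [SMulCommClass G₂ ℚ_[q] M₂]
  [FaithfulSMul G₂ M₂]
variable (π : G₂ →* G₁) (ι : M₁ →ₐ[ℚ_[q]] M₂) (hπι : ∀ (g : G₂) (x : M₁), ι (π g • x) = g • ι x)

include hπι in
/-- a morphism of pairs maps inertia into inertia -/
theorem map_mem_inertia {g : G₂} (hg : g ∈ inertia q M₂ G₂) : π g ∈ inertia q M₁ G₁ := by
  intro b
  change π g • b - b ∈ maximalIdeal (OInt q M₁)
  rw [← map_mem_maximalIdeal_iff q ι]
  have h : g • (⟨ι b, map_mem_OInt q ι b.2⟩ : OInt q M₂) - ⟨ι b, map_mem_OInt q ι b.2⟩ ∈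
      maximalIdeal (OInt q M₂) := hg ⟨ι b, map_mem_OInt q ι b.2⟩
  have e : (⟨ι ((π g • b - b : OInt q M₁) : M₁), map_mem_OInt q ι (π g • b - b : OInt q M₁).2⟩ :
      OInt q M₂) = g • (⟨ι b, map_mem_OInt q ι b.2⟩ : OInt q M₂) - ⟨ι b, map_mem_OInt q ι b.2⟩ := by
    apply Subtype.ext
    simp only [Subalgebra.coe_sub, coe_smul_OInt, map_sub, hπι]
  rw [e]
  exact h

/-- the induced map on the quotients by inertia -/
def quotInertiaMap : G₂ ⧸ inertia q M₂ G₂ →* G₁ ⧸ inertia q M₁ G₁ :=
  QuotientGroup.map (inertia q M₂ G₂) (inertia q M₁ G₁) π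
    (fun g hg => map_mem_inertia q π ι hπι hg)

/-- the induced map on the inertia fields -/
def inertiaFieldMap :
    FixedF q M₁ (inertia q M₁ G₁) →ₐ[ℚ_[q]] FixedF q M₂ (inertia q M₂ G₂) where
  toFun x := ⟨ι x, fun g => by
    change (g : G₂) • ι (x : M₁) = ι x
    rw [← hπι]
    exact congrArg ι (x.2 ⟨π g, map_mem_inertia q π ι hπι g.2⟩)⟩
  map_one' := Subtype.ext (map_one ι)
  map_mul' x y := Subtype.ext (map_mul ι _ _)
  map_zero' := Subtype.ext (map_zero ι)
  map_add' x y := Subtype.ext (map_add ι _ _)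
  commutes' a := Subtype.ext (ι.commutes a)

theorem inertiaFieldMap_equivariant (g' : G₂ ⧸ inertia q M₂ G₂)
    (x : FixedF q M₁ (inertia q M₁ G₁)) :
    inertiaFieldMap q π ι hπι (quotInertiaMap q π ι hπι g' • x) =
      g' • inertiaFieldMap q π ι hπι x := by
  induction g' using QuotientGroup.induction_on with | H g =>
  apply Subtype.ext
  rw [coe_quot_smul]
  change ι (((QuotientGroup.mk (π g) : G₁ ⧸ inertia q M₁ G₁) • x : FixedF q M₁ _) : M₁) = _
  rw [coe_quot_smul]
  exact hπι g x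

/-- inflation from the inertia fields commutes with a morphism of pairs -/
theorem pairMap_inflPair_inertia
    (y : groupCohomology (unitsRep (FixedF q M₁ (inertia q M₁ G₁)) (G₁ ⧸ inertia q M₁ G₁)) 2) :
    (pairMap π ι.toRingHom hπι 2).hom ((inflPair q M₁ G₁ (inertia q M₁ G₁) 2).hom y) =
      (inflPair q M₂ G₂ (inertia q M₂ G₂) 2).hom
        ((pairMap (quotInertiaMap q π ι hπι) (inertiaFieldMap q π ι hπι).toRingHom
          (inertiaFieldMap_equivariant q π ι hπι) 2).hom y) := by
  have e1 := pairMap_comp_apply (QuotientGroup.mk' (inertia q M₁ G₁))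
    (algebraMap (FixedF q M₁ (inertia q M₁ G₁)) M₁) (quot_equivariant q M₁ G₁ (inertia q M₁ G₁))
    π ι.toRingHom hπι 2 y
  have e2 := pairMap_comp_apply (quotInertiaMap q π ι hπι) (inertiaFieldMap q π ι hπι).toRingHom
    (inertiaFieldMap_equivariant q π ι hπι) (QuotientGroup.mk' (inertia q M₂ G₂))
    (algebraMap (FixedF q M₂ (inertia q M₂ G₂)) M₂) (quot_equivariant q M₂ G₂ (inertia q M₂ G₂)) 2 y
  refine e1.trans (Eq.trans ?_ e2.symm)
  refine congrArg (fun f => ModuleCat.Hom.hom f y) ?_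
  apply pairMap_congr
  · exact MonoidHom.ext fun g => rfl
  · exact RingHom.ext fun x => rfl

open Module in
/-- **unramified classes under a morphism of pairs**: if `[M₂^{G₂} : ι (M₁^{G₁})] = d`, the
unramified class of invariant `t` is mapped to the unramified class of invariant `d • t`. -/
theorem IsUrClass.map (d : ℕ)
    (hd : finrank ℚ_[q] (FixedF q M₂ G₂) = d * finrank ℚ_[q] (FixedF q M₁ G₁))
    {x : groupCohomology (unitsRep M₁ G₁) 2} {t : AddCircle (1 : ℚ)}
    (h : IsUrClass q M₁ G₁ x t) :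
    IsUrClass q M₂ G₂ ((pairMap π ι.toRingHom hπι 2).hom x) (d • t) := by
  obtain ⟨y, hy, rfl⟩ := h
  refine ⟨(pairMap (quotInertiaMap q π ι hπι) (inertiaFieldMap q π ι hπι).toRingHom
    (inertiaFieldMap_equivariant q π ι hπι) 2).hom y, ?_, (pairMap_inflPair_inertia q π ι hπι y).symm⟩
  rw [← hy]
  refine invAt_pairMap_of_unramified q (quotInertiaMap q π ι hπι) (inertiaFieldMap q π ι hπι)
    (inertiaFieldMap_equivariant q π ι hπι) (ramE_quot_inertia q M₁ G₁) (ramE_quot_inertia q M₂ G₂)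
    (isFrob_frobQ q M₁ G₁) (isFrob_frobQ q M₂ G₂) d ?_ y
  rw [finrank_fixedF_quot q M₂ G₂, finrank_fixedF_quot q M₁ G₁, hd]

end Map

end

end Fermat.Agent.CFT.Local
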